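import Fermat.Agent.LT.B11.Ext
import Fermat.Agent.LT.Theta11.SRings

/-!
# The two rings `AS F N`, `RS F N` satisfy the axioms of `Two`
-/

set_option autoImplicit false

namespace Fermat.Agent.LT.B11

open Fermat.Agent.LT.SAd Polynomial

variable {F : Type*} [Field F] [CharZero F]

omit [CharZero F] in
/-- an integer `c ≡ 1 mod N` divisible by `1 - N t` -/
theorem exists_int_mul (N : ℕ) (hN : 2 ≤ N) {t : F} (ht : IsIntegral ℤ t) :
    ∃ c : ℤ, (N : ℤ) ∣ c - 1 ∧ ∃ g : F, IsIntegral ℤ g ∧ (c : F) = (1 - (N : F) * t) * g := by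
  obtain ⟨P, hP, hPt⟩ := ht
  have : Fact (1 < N) := ⟨hN⟩
  set Q := P.scaleRoots (N : ℤ) with hQ
  have hQm : Q.Monic := (monic_scaleRoots_iff (N : ℤ)).2 hP
  have hQt : aeval ((N : F) * t) Q = 0 := by
    have h1 : aeval (algebraMap ℤ F (N : ℤ) * t) Q = 0 := scaleRoots_aeval_eq_zero hPt
    simpa using h1
  refine ⟨Q.eval 1, ?_, ?_⟩
  · -- modulo `N`
    have h1 : Polynomial.map (Int.castRingHom (ZMod N)) Q =
        (P.map (Int.castRingHom (ZMod N))).scaleRoots ((Int.castRingHom (ZMod N)) (N : ℤ)) := by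
      rw [hQ, map_scaleRoots]
      rw [hP.leadingCoeff]
      simp
    have h2 : (Int.castRingHom (ZMod N)) (N : ℤ) = 0 := by simp
    rw [h2, scaleRoots_zero] at h1
    have h3 : (P.map (Int.castRingHom (ZMod N))).leadingCoeff = 1 := (hP.map _).leadingCoeff
    rw [h3, one_smul] at h1
    have h4 : ((Q.eval 1 : ℤ) : ZMod N) = 1 := by
      have h5 := congrArg (Polynomial.eval 1) h1
      rw [eval_pow, eval_X, one_pow] at h5
      rw [← h5, Polynomial.eval_one_map]
      simp
    have h6 : ((Q.eval 1 - 1 : ℤ) : ZMod N) = 0 := by push_cast; rw [h4, sub_self]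
    exact (ZMod.intCast_zmod_eq_zero_iff_dvd _ N).1 h6 |>.trans (dvd_refl _)
  · set R := integralClosure ℤ F
    have htR : t ∈ R := ⟨P, hP, hPt⟩
    let t' : R := ⟨t, htR⟩
    have h1 : (N : R) * t' - 1 ∣ aeval ((N : R) * t') Q - aeval (1 : R) Q := by
      rw [aeval_def, aeval_def, ← eval_map, ← eval_map]
      exact sub_dvd_eval_sub _ _ _
    obtain ⟨g, hg⟩ := h1
    have h2 := congrArg (algebraMap R F) hg
    have h3 : algebraMap R F (aeval ((N : R) * t') Q) = 0 := by
      rw [← aeval_algebraMap_apply]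
      rw [map_mul, map_natCast]
      exact hQt
    have h4 : algebraMap R F (aeval (1 : R) Q) = ((Q.eval 1 : ℤ) : F) := by
      rw [← aeval_algebraMap_apply, map_one, aeval_def, eval₂_at_one]
      simp
    rw [map_sub, h3, h4, map_mul, map_sub, map_mul, map_natCast, map_one] at h2
    refine ⟨algebraMap R F g, g.2, ?_⟩
    have h5 : algebraMap R F t' = t := rfl
    rw [h5] at h2
    linear_combination -h2

variable [Algebra ℚ F] [FiniteDimensional ℚ F]

/-- **The axioms of `Two`.** -/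
theorem two (N : ℕ) (hN : 2 ≤ N) : Two (AS F N) (RS F N) (N : F) where
  ne := by
    have : N ≠ 0 := by omega
    exact_mod_cast this
  mem := natCast_mem_AS N
  exists_pow x := exists_pow_mul_mem_AS N x
  inv_mem := by
    rintro x ⟨n, hn, hc, hx⟩
    -- `u n + v N = 1`
    obtain ⟨u, v, huv⟩ : IsCoprime (n : ℤ) (N : ℤ) := Nat.isCoprime_iff_coprime.2 hc
    have huv' : (u : F) * n + v * N = 1 := by exact_mod_cast huv
    have hz : ∀ m : ℤ, IsIntegral ℤ (m : F) := fun m => by
      simpa using (isIntegral_algebraMap (x := m) : IsIntegral ℤ (algebraMap ℤ F m))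
    -- `u n (1 + N x) = 1 - N t`
    set t : F := v - u * ((n : F) * x) with ht
    have hti : IsIntegral ℤ t := (hz v).sub ((hz u).mul hx)
    have h1 : (u : F) * n * (1 + N * x) = 1 - N * t := by
      rw [ht]; linear_combination huv'
    obtain ⟨c, hcN, g, hg, hcg⟩ := exists_int_mul N hN hti
    have hc0 : c ≠ 0 := by
      rintro rfl
      have h2 : (N : ℤ) ∣ 1 := by
        have := (dvd_neg.2 hcN)
        simpa using this
      have := Int.eq_one_of_dvd_one (by positivity) h2
      omega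
    have hcN' : IsCoprime c (N : ℤ) := by
      obtain ⟨k, hk⟩ := hcN
      exact ⟨1, -k, by linear_combination hk⟩
    have hne : (c : F) ≠ 0 := by exact_mod_cast hc0
    have h2 : (1 + (N : F) * x) * (u * n * g) = c := by rw [hcg, ← h1]; ring
    have h3 : 1 + (N : F) * x ≠ 0 := fun h => hne (by rw [← h2, h, zero_mul])
    refine ⟨h3, ?_⟩
    have hcop : c.natAbs.Coprime N := by
      have := Int.isCoprime_iff_gcd_eq_one.1 hcN'
      simpa [Nat.Coprime, Int.gcd] using this
    have h7 : ((c.natAbs : ℕ) : F)⁻¹ ∈ AS F N :=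
      natCast_inv_mem_AS (Int.natAbs_ne_zero.2 hc0) hcop
    have h8 : (c : F)⁻¹ ∈ AS F N := by
      rcases Int.natAbs_eq c with h | h
      · rw [h, Int.cast_natCast]; exact h7
      · rw [h, Int.cast_neg, Int.cast_natCast, inv_neg]; exact (AS F N).neg_mem h7
    have h4 : (1 + (N : F) * x)⁻¹ = (c : F)⁻¹ * (u * n * g) := by
      rw [← h2] at hne ⊢
      have h9 := right_ne_zero_of_mul hne
      rw [mul_inv, mul_assoc, inv_mul_cancel₀ h9, mul_one]
    rw [h4]
    exact (AS F N).mul_mem h8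
      (mem_AS_of_isIntegral (((hz u).mul (SAd.isIntegral_natCast n)).mul hg))
  exists_sub := by
    intro x j
    have : NeZero N := ⟨by omega⟩
    obtain ⟨n, hn, hc, h⟩ := exists_mul_mem_RS N x
    obtain ⟨i, hi⟩ := exists_pow_mul_mem_AS N x
    obtain ⟨u, v, huv⟩ : IsCoprime (n : ℤ) ((N : ℤ) ^ (i + j)) :=
      (Nat.isCoprime_iff_coprime.2 hc).pow_right
    refine ⟨(u : F) * ((n : F) * x), (RS F N).mul_mem (intCast_mem _ u) h,
      (v : F) * ((N : F) ^ i * x), (AS F N).mul_mem (intCast_mem _ v) hi, ?_⟩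
    have h1 : ((u * n + v * N ^ (i + j) : ℤ) : F) = 1 := by rw [huv]; simp
    push_cast at h1
    calc x = 1 * x := (one_mul x).symm
      _ = ((u : F) * n + v * (N : F) ^ (i + j)) * x := by rw [h1]
      _ = _ := by ring

end Fermat.Agent.LT.B11
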