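import Mathlib

/-!
# B11 (F): extension of a family to `GL₂(F)`

`F` is a field, `A` (integers at `N`), `R` (integers outside `N`) subrings, `ν ∈ F` (the number
`N`). A family `f δ : X → M` (`δ ∈ Fˣ`) satisfying (F1) - (F3) extends to a function
`Φ : X → GL₂(F) → M`, left invariant under `GL₂(R)`, right invariant under the congruence group `K`
and the centre, with `Φ P (diag (δ, 1)) = f δ P`.
-/

set_option autoImplicit false
set_option linter.unusedVariables false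
set_option linter.unusedSimpArgs false

noncomputable section

open Matrix

namespace Fermat.Agent.LT.B11

variable {F : Type*} [Field F]

/-- `F` with the two subrings `A` and `R`. -/
structure Two (A R : Subring F) (ν : F) : Prop where
  ne : ν ≠ 0
  mem : ν ∈ A
  exists_pow : ∀ x : F, ∃ j : ℕ, ν ^ j * x ∈ A
  inv_mem : ∀ x ∈ A, 1 + ν * x ≠ 0 ∧ (1 + ν * x)⁻¹ ∈ A
  exists_sub : ∀ (x : F) (j : ℕ), ∃ r ∈ R, ∃ a ∈ A, x = r + ν ^ j * a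

/-- upper triangular matrices -/
def up (a b d : F) (ha : a ≠ 0) (hd : d ≠ 0) : GL (Fin 2) F :=
  GeneralLinearGroup.mkOfDetNeZero !![a, b; 0, d] (by simp [det_fin_two_of, ha, hd])

theorem coe_up (a b d : F) (ha : a ≠ 0) (hd : d ≠ 0) :
    (up a b d ha hd : Matrix (Fin 2) (Fin 2) F) = !![a, b; 0, d] := rfl

/-- `diag (δ, 1)` -/
def dg (δ : Fˣ) : GL (Fin 2) F := up (δ : F) 0 1 δ.ne_zero one_ne_zero

/-- `n(b)` -/
def nn (b : F) : GL (Fin 2) F := up 1 b 1 one_ne_zero one_ne_zero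

/-- scalars -/
def sc (z : Fˣ) : GL (Fin 2) F := up (z : F) 0 z z.ne_zero z.ne_zero

theorem coe_dg (δ : Fˣ) : (dg δ : Matrix (Fin 2) (Fin 2) F) = !![(δ : F), 0; 0, 1] := rfl
theorem coe_nn (b : F) : (nn b : Matrix (Fin 2) (Fin 2) F) = !![1, b; 0, 1] := rfl
theorem coe_sc (z : Fˣ) : (sc z : Matrix (Fin 2) (Fin 2) F) = !![(z : F), 0; 0, z] := rfl

theorem ext4 {g h : GL (Fin 2) F} (h00 : g 0 0 = h 0 0) (h01 : g 0 1 = h 0 1)
    (h10 : g 1 0 = h 1 0) (h11 : g 1 1 = h 1 1) : g = h := by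
  apply Units.ext
  ext i j
  fin_cases i <;> fin_cases j
  exacts [h00, h01, h10, h11]

theorem coe_mul_apply (g h : GL (Fin 2) F) (i j : Fin 2) :
    (g * h) i j = g i 0 * h 0 j + g i 1 * h 1 j := by
  rw [GeneralLinearGroup.coe_mul, mul_apply, Fin.sum_univ_two]

@[simp] theorem dg_apply00 (δ : Fˣ) : dg δ 0 0 = (δ : F) := rfl
@[simp] theorem dg_apply01 (δ : Fˣ) : dg δ 0 1 = 0 := rfl
@[simp] theorem dg_apply10 (δ : Fˣ) : dg δ 1 0 = 0 := rfl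
@[simp] theorem dg_apply11 (δ : Fˣ) : dg δ 1 1 = 1 := rfl
@[simp] theorem nn_apply00 (b : F) : nn b 0 0 = 1 := rfl
@[simp] theorem nn_apply01 (b : F) : nn b 0 1 = b := rfl
@[simp] theorem nn_apply10 (b : F) : nn b 1 0 = 0 := rfl
@[simp] theorem nn_apply11 (b : F) : nn b 1 1 = 1 := rfl
@[simp] theorem sc_apply00 (z : Fˣ) : sc z 0 0 = (z : F) := rfl
@[simp] theorem sc_apply01 (z : Fˣ) : sc z 0 1 = 0 := rfl
@[simp] theorem sc_apply10 (z : Fˣ) : sc z 1 0 = 0 := rfl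
@[simp] theorem sc_apply11 (z : Fˣ) : sc z 1 1 = (z : F) := rfl

theorem dg_mul (δ δ' : Fˣ) : dg (δ * δ') = dg δ * dg δ' := by
  apply ext4 <;> simp [coe_mul_apply]

theorem dg_one : dg (1 : Fˣ) = 1 := by
  apply ext4 <;> simp

theorem dg_inv (δ : Fˣ) : dg δ⁻¹ = (dg δ)⁻¹ := by
  rw [eq_inv_iff_mul_eq_one, ← dg_mul, inv_mul_cancel, dg_one]

theorem nn_add (b b' : F) : nn (b + b') = nn b * nn b' := by
  apply ext4 <;> simp [coe_mul_apply, add_comm]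

theorem nn_zero : nn (0 : F) = 1 := by
  apply ext4 <;> simp

theorem nn_neg (b : F) : nn (-b) = (nn b)⁻¹ := by
  rw [eq_inv_iff_mul_eq_one, ← nn_add, neg_add_cancel, nn_zero]

theorem sc_mul (z z' : Fˣ) : sc (z * z') = sc z * sc z' := by
  apply ext4 <;> simp [coe_mul_apply]

theorem sc_one : sc (1 : Fˣ) = 1 := by
  apply ext4 <;> simp

theorem sc_inv (z : Fˣ) : sc z⁻¹ = (sc z)⁻¹ := by
  rw [eq_inv_iff_mul_eq_one, ← sc_mul, inv_mul_cancel, sc_one]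

theorem sc_comm (z : Fˣ) (g : GL (Fin 2) F) : sc z * g = g * sc z := by
  apply ext4 <;> simp [coe_mul_apply, mul_comm]

theorem scalar_eq_sc (z : Fˣ) : GeneralLinearGroup.scalar (Fin 2) z = sc z := by
  apply ext4 <;> simp [GeneralLinearGroup.scalar]

theorem det_eq (g : GL (Fin 2) F) : ((GeneralLinearGroup.det g : Fˣ) : F) =
    g 0 0 * g 1 1 - g 0 1 * g 1 0 := det_fin_two _

theorem det_ne (g : GL (Fin 2) F) : g 0 0 * g 1 1 - g 0 1 * g 1 0 ≠ 0 := by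
  rw [← det_eq]; exact Units.ne_zero _

theorem det_dg (δ : Fˣ) : GeneralLinearGroup.det (dg δ) = δ := by
  apply Units.ext; rw [det_eq]; simp

theorem det_nn (b : F) : GeneralLinearGroup.det (nn b) = 1 := by
  apply Units.ext; rw [det_eq]; simp

theorem det_sc (z : Fˣ) : GeneralLinearGroup.det (sc z) = z * z := by
  apply Units.ext; rw [det_eq]; simp

theorem inv_apply (g : GL (Fin 2) F) (i j : Fin 2) :
    g⁻¹ i j = (g 0 0 * g 1 1 - g 0 1 * g 1 0)⁻¹ *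
      (!![g 1 1, -g 0 1; -g 1 0, g 0 0] : Matrix (Fin 2) (Fin 2) F) i j := by
  rw [Matrix.coe_units_inv, Matrix.inv_def, Ring.inverse_eq_inv', adjugate_fin_two,
    Matrix.smul_apply, smul_eq_mul, det_fin_two]

/-! ### The groups -/

/-- `SL₂(R)` inside `GL₂(F)` -/
def SLR (R : Subring F) : Subgroup (GL (Fin 2) F) where
  carrier := {g | GeneralLinearGroup.det g = 1 ∧ ∀ i j, g i j ∈ R}
  one_mem' := ⟨map_one _, fun i j => by
    fin_cases i <;> fin_cases j <;> simp [R.one_mem, R.zero_mem]⟩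
  mul_mem' {a b} ha hb := ⟨by rw [map_mul, ha.1, hb.1, mul_one], fun i j => by
    rw [coe_mul_apply]
    exact R.add_mem (R.mul_mem (ha.2 _ _) (hb.2 _ _)) (R.mul_mem (ha.2 _ _) (hb.2 _ _))⟩
  inv_mem' {a} ha := ⟨by rw [map_inv, ha.1, inv_one], fun i j => by
    have h1 : a 0 0 * a 1 1 - a 0 1 * a 1 0 = 1 := by rw [← det_eq, ha.1]; rfl
    rw [inv_apply, h1, inv_one, one_mul]
    fin_cases i <;> fin_cases j <;> simp <;> exact ha.2 _ _⟩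

/-- `GL₂(R)` inside `GL₂(F)` -/
def GLR (R : Subring F) : Subgroup (GL (Fin 2) F) where
  carrier := {g | (∀ i j, g i j ∈ R) ∧ (((GeneralLinearGroup.det g)⁻¹ : Fˣ) : F) ∈ R}
  one_mem' := ⟨fun i j => by
    fin_cases i <;> fin_cases j <;> simp [R.one_mem, R.zero_mem], by simp [R.one_mem]⟩
  mul_mem' {a b} ha hb := ⟨fun i j => by
    rw [coe_mul_apply]
    exact R.add_mem (R.mul_mem (ha.1 _ _) (hb.1 _ _)) (R.mul_mem (ha.1 _ _) (hb.1 _ _)), by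
      rw [map_mul, mul_inv, Units.val_mul]
      exact R.mul_mem ha.2 hb.2⟩
  inv_mem' {a} ha := ⟨fun i j => by
    have h1 : (a 0 0 * a 1 1 - a 0 1 * a 1 0)⁻¹ ∈ R := by
      rw [← det_eq, ← Units.val_inv_eq_inv_val]; exact ha.2
    rw [inv_apply]
    refine R.mul_mem h1 ?_
    fin_cases i <;> fin_cases j <;> simp <;> exact ha.1 _ _, by
    rw [map_inv, inv_inv, det_eq]
    exact R.sub_mem (R.mul_mem (ha.1 _ _) (ha.1 _ _)) (R.mul_mem (ha.1 _ _) (ha.1 _ _))⟩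

theorem SLR_le_GLR (R : Subring F) : SLR R ≤ GLR R := fun g hg => ⟨hg.2, by
  rw [hg.1]; simp [R.one_mem]⟩

theorem dg_mem_GLR {R : Subring F} {u : Fˣ} (hu : (u : F) ∈ R) (hu' : ((u⁻¹ : Fˣ) : F) ∈ R) :
    dg u ∈ GLR R := ⟨fun i j => by
  fin_cases i <;> fin_cases j <;> simp [R.one_mem, R.zero_mem, hu], by rw [det_dg]; exact hu'⟩

/-- the congruence group -/
structure InK (A : Subring F) (ν : F) (k m : ℕ) (g : GL (Fin 2) F) : Prop where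
  h00 : ∃ a ∈ A, g 0 0 = 1 + ν ^ k * a
  h11 : ∃ a ∈ A, g 1 1 = 1 + ν ^ k * a
  h01 : g 0 1 ∈ A
  h10 : ∃ a ∈ A, g 1 0 = ν ^ m * a

section K

variable {A R : Subring F} {ν : F} {k m : ℕ}

theorem Two.pow_mem (T : Two A R ν) (j : ℕ) : ν ^ j ∈ A := A.pow_mem T.mem j

theorem Two.inv_pow (T : Two A R ν) (hk : 1 ≤ k) {a : F} (ha : a ∈ A) :
    1 + ν ^ k * a ≠ 0 ∧ ∃ b ∈ A, (1 + ν ^ k * a)⁻¹ = 1 + ν ^ k * b := by
  obtain ⟨j, rfl⟩ := Nat.exists_eq_add_of_le' hk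
  have h1 := T.inv_mem (ν ^ j * a) (A.mul_mem (T.pow_mem j) ha)
  have h2 : 1 + ν * (ν ^ j * a) = 1 + ν ^ (j + 1) * a := by ring
  rw [h2] at h1
  refine ⟨h1.1, -(a * (1 + ν ^ (j + 1) * a)⁻¹), A.neg_mem (A.mul_mem ha h1.2), ?_⟩
  have h3 := h1.1
  field_simp
  ring

theorem InK.one (A : Subring F) (ν : F) (k m : ℕ) : InK A ν k m 1 :=
  ⟨⟨0, A.zero_mem, by simp⟩, ⟨0, A.zero_mem, by simp⟩, by simp [A.zero_mem],
    ⟨0, A.zero_mem, by simp⟩⟩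

theorem InK.mul (T : Two A R ν) (hkm : k ≤ m) {g h : GL (Fin 2) F} (hg : InK A ν k m g)
    (hh : InK A ν k m h) : InK A ν k m (g * h) := by
  obtain ⟨⟨a, ha, ea⟩, ⟨d, hd, ed⟩, hb, ⟨c, hc, ec⟩⟩ := hg
  obtain ⟨⟨a', ha', ea'⟩, ⟨d', hd', ed'⟩, hb', ⟨c', hc', ec'⟩⟩ := hh
  obtain ⟨j, rfl⟩ := Nat.exists_eq_add_of_le hkm
  have hp := T.pow_mem
  refine ⟨⟨a + a' + ν ^ k * a * a' + g 0 1 * (ν ^ j * c'), ?_, ?_⟩,
    ⟨d + d' + ν ^ k * d * d' + ν ^ j * c * h 0 1, ?_, ?_⟩, ?_,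
    ⟨c * (1 + ν ^ k * a') + (1 + ν ^ k * d) * c', ?_, ?_⟩⟩
  · exact A.add_mem (A.add_mem (A.add_mem ha ha') (A.mul_mem (A.mul_mem (hp k) ha) ha'))
      (A.mul_mem hb (A.mul_mem (hp j) hc'))
  · rw [coe_mul_apply, ea, ea', ec']; ring
  · exact A.add_mem (A.add_mem (A.add_mem hd hd') (A.mul_mem (A.mul_mem (hp k) hd) hd'))
      (A.mul_mem (A.mul_mem (hp j) hc) hb')
  · rw [coe_mul_apply, ed, ed', ec]; ring
  · rw [coe_mul_apply, ea, ed']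
    exact A.add_mem (A.mul_mem (A.add_mem A.one_mem (A.mul_mem (hp k) ha)) hb')
      (A.mul_mem hb (A.add_mem A.one_mem (A.mul_mem (hp k) hd')))
  · exact A.add_mem (A.mul_mem hc (A.add_mem A.one_mem (A.mul_mem (hp k) ha')))
      (A.mul_mem (A.add_mem A.one_mem (A.mul_mem (hp k) hd)) hc')
  · rw [coe_mul_apply, ec, ea', ed, ec']; ring

/-- the determinant of an element of `K` -/
theorem InK.det (T : Two A R ν) (hk : 1 ≤ k) (hkm : k ≤ m) {g : GL (Fin 2) F}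
    (hg : InK A ν k m g) : ∃ a ∈ A, g 0 0 * g 1 1 - g 0 1 * g 1 0 = 1 + ν ^ k * a := by
  obtain ⟨⟨a, ha, ea⟩, ⟨d, hd, ed⟩, hb, ⟨c, hc, ec⟩⟩ := hg
  obtain ⟨j, rfl⟩ := Nat.exists_eq_add_of_le hkm
  refine ⟨a + d + ν ^ k * a * d - g 0 1 * (ν ^ j * c), ?_, ?_⟩
  · exact A.sub_mem (A.add_mem (A.add_mem ha hd) (A.mul_mem (A.mul_mem (T.pow_mem k) ha) hd))
      (A.mul_mem hb (A.mul_mem (T.pow_mem j) hc))
  · rw [ea, ed, ec]; ring

theorem mul_form {x y : F} (T : Two A R ν) (hx : ∃ a ∈ A, x = 1 + ν ^ k * a)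
    (hy : ∃ a ∈ A, y = 1 + ν ^ k * a) : ∃ a ∈ A, x * y = 1 + ν ^ k * a := by
  obtain ⟨a, ha, rfl⟩ := hx
  obtain ⟨b, hb, rfl⟩ := hy
  exact ⟨a + b + ν ^ k * a * b, A.add_mem (A.add_mem ha hb)
    (A.mul_mem (A.mul_mem (T.pow_mem k) ha) hb), by ring⟩

theorem InK.inv (T : Two A R ν) (hk : 1 ≤ k) (hkm : k ≤ m) {g : GL (Fin 2) F}
    (hg : InK A ν k m g) : InK A ν k m g⁻¹ := by
  obtain ⟨t, ht, et⟩ := hg.det T hk hkm
  obtain ⟨-, s, hs, es⟩ := T.inv_pow hk ht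
  have hsA : 1 + ν ^ k * s ∈ A := A.add_mem A.one_mem (A.mul_mem (T.pow_mem k) hs)
  obtain ⟨⟨a, ha, ea⟩, ⟨d, hd, ed⟩, hb, ⟨c, hc, ec⟩⟩ := hg
  have e00 : g⁻¹ 0 0 = (1 + ν ^ k * s) * g 1 1 := by rw [inv_apply, et, es]; simp
  have e01 : g⁻¹ 0 1 = (1 + ν ^ k * s) * -g 0 1 := by rw [inv_apply, et, es]; simp
  have e10 : g⁻¹ 1 0 = (1 + ν ^ k * s) * -g 1 0 := by rw [inv_apply, et, es]; simp
  have e11 : g⁻¹ 1 1 = (1 + ν ^ k * s) * g 0 0 := by rw [inv_apply, et, es]; simp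
  refine ⟨?_, ?_, ?_, ?_⟩
  · rw [e00]; exact mul_form T ⟨s, hs, rfl⟩ ⟨d, hd, ed⟩
  · rw [e11]; exact mul_form T ⟨s, hs, rfl⟩ ⟨a, ha, ea⟩
  · rw [e01]; exact A.mul_mem hsA (A.neg_mem hb)
  · rw [e10, ec]
    exact ⟨(1 + ν ^ k * s) * -c, A.mul_mem hsA (A.neg_mem hc), by ring⟩

end K

/-! ### Density of `SL₂(R)` -/

section dense

variable {A R : Subring F} {ν : F}

/-- `g` and `h` agree up to `ν ^ j A` -/
def Near (A : Subring F) (ν : F) (j : ℕ) (g h : GL (Fin 2) F) : Prop :=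
  ∀ i i', ∃ a ∈ A, g i i' = h i i' + ν ^ j * a

theorem Two.exists_pow4 (T : Two A R ν) (g : GL (Fin 2) F) :
    ∃ j : ℕ, ∀ i i', ν ^ j * g i i' ∈ A := by
  have h : ∀ p : Fin 2 × Fin 2, ∃ j : ℕ, ν ^ j * g p.1 p.2 ∈ A := fun p => T.exists_pow _
  choose j hj using h
  refine ⟨∑ p, j p, fun i i' => ?_⟩
  have h1 := Finset.single_le_sum (f := j) (fun _ _ => Nat.zero_le _) (Finset.mem_univ (i, i'))
  obtain ⟨l, hl⟩ := Nat.exists_eq_add_of_le h1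
  rw [hl, pow_add, mul_comm (ν ^ j (i, i')), mul_assoc]
  exact A.mul_mem (T.pow_mem l) (hj (i, i'))

/-- the matrices approximated by `SL₂(R)` -/
def Appr (A R : Subring F) (ν : F) (h : GL (Fin 2) F) : Prop :=
  ∀ j : ℕ, ∃ γ ∈ SLR R, Near A ν j γ h

theorem Appr.mul (T : Two A R ν) {g h : GL (Fin 2) F} (hg : Appr A R ν g) (hh : Appr A R ν h) :
    Appr A R ν (g * h) := by
  intro j
  obtain ⟨s, hs⟩ := T.exists_pow4 g
  obtain ⟨t, ht⟩ := T.exists_pow4 h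
  obtain ⟨γ, hγ, nγ⟩ := hg (j + t)
  obtain ⟨γ', hγ', nγ'⟩ := hh (j + s)
  refine ⟨γ * γ', (SLR R).mul_mem hγ hγ', fun i i' => ?_⟩
  choose a ha ea using nγ
  choose b hb eb using nγ'
  refine ⟨(ν ^ s * g i 0) * b 0 i' + (ν ^ s * g i 1) * b 1 i' +
      (ν ^ t * h 0 i') * a i 0 + (ν ^ t * h 1 i') * a i 1 +
      ν ^ (j + s + t) * (a i 0 * b 0 i' + a i 1 * b 1 i'), ?_, ?_⟩
  · refine A.add_mem (A.add_mem (A.add_mem (A.add_mem ?_ ?_) ?_) ?_) ?_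
    · exact A.mul_mem (hs _ _) (hb _ _)
    · exact A.mul_mem (hs _ _) (hb _ _)
    · exact A.mul_mem (ht _ _) (ha _ _)
    · exact A.mul_mem (ht _ _) (ha _ _)
    · exact A.mul_mem (T.pow_mem _) (A.add_mem (A.mul_mem (ha _ _) (hb _ _))
        (A.mul_mem (ha _ _) (hb _ _)))
  · rw [coe_mul_apply, coe_mul_apply, ea i 0, ea i 1, eb 0 i', eb 1 i']
    ring

theorem nn_mem_SLR {b : F} (hb : b ∈ R) : nn b ∈ SLR R := ⟨det_nn b, fun i j => by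
  fin_cases i <;> fin_cases j <;> simp [R.one_mem, R.zero_mem, hb]⟩

theorem Appr.nn (T : Two A R ν) (x : F) : Appr A R ν (nn x) := by
  intro j
  obtain ⟨r, hr, a, ha, e⟩ := T.exists_sub x j
  refine ⟨B11.nn r, nn_mem_SLR hr, fun i i' => ?_⟩
  fin_cases i <;> fin_cases i'
  · exact ⟨0, A.zero_mem, by simp⟩
  · exact ⟨-a, A.neg_mem ha, by simp [e]⟩
  · exact ⟨0, A.zero_mem, by simp⟩
  · exact ⟨0, A.zero_mem, by simp⟩

/-- the Weyl element -/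
def ww : GL (Fin 2) F := GeneralLinearGroup.mkOfDetNeZero !![0, 1; -1, 0] (by simp)

@[simp] theorem ww_apply00 : (ww : GL (Fin 2) F) 0 0 = 0 := rfl
@[simp] theorem ww_apply01 : (ww : GL (Fin 2) F) 0 1 = 1 := rfl
@[simp] theorem ww_apply10 : (ww : GL (Fin 2) F) 1 0 = -1 := rfl
@[simp] theorem ww_apply11 : (ww : GL (Fin 2) F) 1 1 = 0 := rfl

theorem ww_mem_SLR : ww ∈ SLR R := ⟨by
  apply Units.ext
  rw [det_eq]
  simp, fun i j => by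
  fin_cases i <;> fin_cases j <;> simp [R.one_mem, R.zero_mem]⟩

theorem Appr.of_mem {g : GL (Fin 2) F} (hg : g ∈ SLR R) : Appr A R ν g := fun j =>
  ⟨g, hg, fun i i' => ⟨0, A.zero_mem, by simp⟩⟩

/-- `SL₂(F)` is generated by the matrices `n(x)` and `w`. -/
theorem mem_of_det_eq_one {H : GL (Fin 2) F → Prop} (hmul : ∀ g h, H g → H h → H (g * h))
    (hn : ∀ x, H (nn x)) (hw : H ww) {g : GL (Fin 2) F}
    (hg : g 0 0 * g 1 1 - g 0 1 * g 1 0 = 1) : H g := by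
  -- first the case `c ≠ 0`
  have key : ∀ g : GL (Fin 2) F, g 0 0 * g 1 1 - g 0 1 * g 1 0 = 1 → g 1 0 ≠ 0 → H g := by
    intro g hg hc
    -- `n(x) w n(y) w n(z) = !![-x y - (…)]`
    have hw2 : H (ww * ww) := hmul _ _ hw hw
    have hw3 : H (ww * ww * ww) := hmul _ _ hw2 hw
    -- lower unipotents: `w n(y) w⁻¹ = (1 0; -y 1)`
    have hlow : ∀ y : F, H (ww * nn (-y) * (ww * ww * ww)) := fun y =>
      hmul _ _ (hmul _ _ hw (hn _)) hw3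
    have h1 := hmul _ _ (hmul _ _ (hn ((g 0 0 - 1) / g 1 0)) (hlow (g 1 0)))
      (hn ((g 1 1 - 1) / g 1 0))
    have h2 : nn ((g 0 0 - 1) / g 1 0) * (ww * nn (-g 1 0) * (ww * ww * ww)) *
        nn ((g 1 1 - 1) / g 1 0) = g := by
      apply ext4 <;> simp only [coe_mul_apply, nn_apply00, nn_apply01, nn_apply10, nn_apply11,
        ww_apply00, ww_apply01, ww_apply10, ww_apply11]
      · field_simp; ring
      · field_simp
        linear_combination (g 1 0) * hg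
      · ring
      · field_simp; ring
    rw [h2] at h1
    exact h1
  by_cases hc : g 1 0 = 0
  · have ha : g 0 0 ≠ 0 := by
      intro h; rw [h, hc] at hg; simp at hg
    have hw3 : H (ww * ww * ww) := hmul _ _ (hmul _ _ hw hw) hw
    have h1 := key (ww * g) (by
      simp only [coe_mul_apply, ww_apply00, ww_apply01, ww_apply10, ww_apply11]
      linear_combination hg) (by
      simp only [coe_mul_apply, ww_apply10, ww_apply11]
      simpa using ha)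
    have h2 := hmul _ _ hw3 h1
    have h3 : ww * ww * ww * (ww * g) = g := by
      apply ext4 <;> simp [coe_mul_apply]
    rwa [h3] at h2
  · exact key g hg hc

/-- **`SL₂(R)` is dense in `SL₂(F)`.** -/
theorem Two.appr (T : Two A R ν) {g : GL (Fin 2) F} (hg : GeneralLinearGroup.det g = 1) :
    Appr A R ν g := by
  refine mem_of_det_eq_one (H := Appr A R ν) (fun g h => Appr.mul T) (Appr.nn T)
    (Appr.of_mem ww_mem_SLR) ?_
  rw [← det_eq, hg]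
  rfl

end dense

/-! ### Families -/

/-- The families which can be extended. -/
structure Fam (A R : Subring F) (ν : F) (k m : ℕ) (X M : Type*) [MulAction (GL (Fin 2) F) X] where
  /-- the family -/
  f : Fˣ → X → M
  f1 : ∀ δ v : Fˣ, (∃ a ∈ A, (v : F) = 1 + ν ^ k * a) → f (δ * v) = f δ
  f2 : ∀ δ u : Fˣ, (u : F) ∈ R → ((u⁻¹ : Fˣ) : F) ∈ R → ∀ P, f (u * δ) (dg u • P) = f δ P
  f3 : ∀ (δ d : Fˣ) (γ : GL (Fin 2) F), γ ∈ SLR R → γ 1 1 = d → γ 0 1 / (d * δ) ∈ A →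
    (∃ a ∈ A, γ 1 0 * d * δ = ν ^ m * a) → ∀ P, f δ (γ • P) = f (δ * d ^ 2) P

namespace Fam

variable {A R : Subring F} {ν : F} {k m : ℕ} {X M : Type*} [MulAction (GL (Fin 2) F) X]

/-- a decomposition of `g` -/
structure Dec (A R : Subring F) (ν : F) (k m : ℕ) (g γ κ : GL (Fin 2) F) (δ z : Fˣ) : Prop where
  mem : γ ∈ SLR R
  inK : InK A ν k m κ
  eq : γ * g = dg δ * κ * sc z

/-- **Every element has a decomposition.** -/
theorem exists_dec (T : Two A R ν) (hk : 1 ≤ k) (hkm : k ≤ m) (g : GL (Fin 2) F) :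
    ∃ γ κ : GL (Fin 2) F, Dec A R ν k m g γ κ (GeneralLinearGroup.det g) 1 := by
  set δ := GeneralLinearGroup.det g with hδ
  have h1 : GeneralLinearGroup.det (dg δ * g⁻¹) = 1 := by
    rw [map_mul, det_dg, map_inv, hδ, mul_inv_cancel]
  obtain ⟨s, hs⟩ := T.exists_pow4 g
  obtain ⟨t, ht⟩ := T.exists_pow4 ((dg δ)⁻¹)
  obtain ⟨γ, hγ, nγ⟩ := T.appr h1 (m + s + t)
  refine ⟨γ, (dg δ)⁻¹ * γ * g, hγ, ?_, ?_⟩
  · -- `(dg δ)⁻¹ γ g = 1 + ν ^ m * …`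
    choose a ha ea using nγ
    have key : ∀ i i', ∃ b ∈ A, ((dg δ)⁻¹ * γ * g) i i' = (1 : GL (Fin 2) F) i i' + ν ^ m * b := by
      intro i i'
      have h2 : ((dg δ)⁻¹ * (dg δ * g⁻¹) * g) i i' = (1 : GL (Fin 2) F) i i' := by
        rw [inv_mul_cancel_left, inv_mul_cancel]
      rw [← h2]
      refine ⟨(ν ^ t * (dg δ)⁻¹ i 0) * a 0 0 * (ν ^ s * g 0 i') +
        (ν ^ t * (dg δ)⁻¹ i 0) * a 0 1 * (ν ^ s * g 1 i') +
        (ν ^ t * (dg δ)⁻¹ i 1) * a 1 0 * (ν ^ s * g 0 i') +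
        (ν ^ t * (dg δ)⁻¹ i 1) * a 1 1 * (ν ^ s * g 1 i'), ?_, ?_⟩
      · refine A.add_mem (A.add_mem (A.add_mem ?_ ?_) ?_) ?_ <;>
          exact A.mul_mem (A.mul_mem (ht _ _) (ha _ _)) (hs _ _)
      · simp only [coe_mul_apply, ea]
        ring
    obtain ⟨b00, hb00, e00⟩ := key 0 0
    obtain ⟨b01, hb01, e01⟩ := key 0 1
    obtain ⟨b10, hb10, e10⟩ := key 1 0
    obtain ⟨b11, hb11, e11⟩ := key 1 1
    obtain ⟨j, rfl⟩ := Nat.exists_eq_add_of_le hkm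
    refine ⟨⟨ν ^ j * b00, A.mul_mem (T.pow_mem j) hb00, ?_⟩,
      ⟨ν ^ j * b11, A.mul_mem (T.pow_mem j) hb11, ?_⟩, ?_, ⟨b10, hb10, ?_⟩⟩
    · rw [e00]; simp; ring
    · rw [e11]; simp; ring
    · rw [e01]
      simpa using A.mul_mem (T.pow_mem (k + j)) hb01
    · rw [e10]; simp
  · rw [sc_one, mul_one, mul_assoc, mul_inv_cancel_left]

variable (Fm : Fam A R ν k m X M)

/-- Two decompositions of the same element give the same value. -/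
theorem dec_unique (T : Two A R ν) (hk : 1 ≤ k) (hkm : k ≤ m) {g γ κ γ' κ' : GL (Fin 2) F}
    {δ z δ' z' : Fˣ} (h : Dec A R ν k m g γ κ δ z) (h' : Dec A R ν k m g γ' κ' δ' z') (P : X) :
    Fm.f δ' (γ' • P) = Fm.f δ (γ • P) := by
  -- `γ'' = γ' γ⁻¹`
  have hκ : InK A ν k m (κ' * κ⁻¹) := h'.inK.mul T hkm (h.inK.inv T hk hkm)
  set κ₀ := κ' * κ⁻¹ with hκ₀
  set ζ := z' * z⁻¹ with hζ
  have hγ'' : γ' * γ⁻¹ = dg δ' * κ₀ * sc ζ * (dg δ)⁻¹ := by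
    have h1 : γ' = dg δ' * κ' * sc z' * g⁻¹ := by rw [← h'.eq, mul_inv_cancel_right]
    have h2 : γ⁻¹ = g * (dg δ * κ * sc z)⁻¹ := by
      rw [← h.eq, _root_.mul_inv_rev, mul_inv_cancel_left]
    rw [h1, h2, hκ₀, hζ, sc_mul, sc_inv]
    have h3 : (dg δ * κ * sc z)⁻¹ = (sc z)⁻¹ * κ⁻¹ * (dg δ)⁻¹ := by
      rw [_root_.mul_inv_rev, _root_.mul_inv_rev, mul_assoc]
    rw [h3]
    have h4 : κ⁻¹ * (sc z' * (sc z)⁻¹) = sc z' * (sc z)⁻¹ * κ⁻¹ := by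
      rw [← sc_inv, ← sc_mul, sc_comm]
    calc dg δ' * κ' * sc z' * g⁻¹ * (g * ((sc z)⁻¹ * κ⁻¹ * (dg δ)⁻¹))
        = dg δ' * κ' * (sc z' * (sc z)⁻¹ * κ⁻¹) * (dg δ)⁻¹ := by group
      _ = dg δ' * κ' * (κ⁻¹ * (sc z' * (sc z)⁻¹)) * (dg δ)⁻¹ := by rw [h4]
      _ = dg δ' * (κ' * κ⁻¹) * (sc z' * (sc z)⁻¹) * (dg δ)⁻¹ := by group
  set γ'' := γ' * γ⁻¹ with hγdef
  have hmem : γ'' ∈ SLR R := (SLR R).mul_mem h'.mem ((SLR R).inv_mem h.mem)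
  obtain ⟨t, ht, et⟩ := hκ.det T hk hkm
  obtain ⟨hdne, -⟩ := T.inv_pow hk ht
  rw [← et] at hdne
  obtain ⟨⟨a, ha, ea⟩, ⟨d, hd, ed⟩, hb, ⟨c, hc, ec⟩⟩ := id hκ
  obtain ⟨h11ne, s, hs, es⟩ := T.inv_pow hk hd
  rw [← ed] at h11ne es
  -- the entries of `γ''`
  have hδ := δ.ne_zero
  have hδ' := δ'.ne_zero
  have hζne := ζ.ne_zero
  have e00 : γ'' 0 0 = ζ * δ' * κ₀ 0 0 / δ := by
    rw [hγ'', ← dg_inv]; simp only [coe_mul_apply, dg_apply00, dg_apply01, dg_apply10,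
      dg_apply11, sc_apply00, sc_apply01, sc_apply10, sc_apply11, Units.val_inv_eq_inv_val]
    field_simp; ring
  have e01 : γ'' 0 1 = ζ * δ' * κ₀ 0 1 := by
    rw [hγ'', ← dg_inv]; simp only [coe_mul_apply, dg_apply00, dg_apply01, dg_apply10,
      dg_apply11, sc_apply00, sc_apply01, sc_apply10, sc_apply11, Units.val_inv_eq_inv_val]
    ring
  have e10 : γ'' 1 0 = ζ * κ₀ 1 0 / δ := by
    rw [hγ'', ← dg_inv]; simp only [coe_mul_apply, dg_apply00, dg_apply01, dg_apply10,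
      dg_apply11, sc_apply00, sc_apply01, sc_apply10, sc_apply11, Units.val_inv_eq_inv_val]
    field_simp; ring
  have e11 : γ'' 1 1 = ζ * κ₀ 1 1 := by
    rw [hγ'', ← dg_inv]; simp only [coe_mul_apply, dg_apply00, dg_apply01, dg_apply10,
      dg_apply11, sc_apply00, sc_apply01, sc_apply10, sc_apply11, Units.val_inv_eq_inv_val]
    ring
  have hdet : γ'' 0 0 * γ'' 1 1 - γ'' 0 1 * γ'' 1 0 = 1 := by
    rw [← det_eq, hmem.1]; rfl
  have hdet' : (ζ : F) ^ 2 * δ' * (κ₀ 0 0 * κ₀ 1 1 - κ₀ 0 1 * κ₀ 1 0) = δ := by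
    rw [e00, e01, e10, e11] at hdet
    field_simp at hdet
    linear_combination hdet
  have hdinv : (κ₀ 0 0 * κ₀ 1 1 - κ₀ 0 1 * κ₀ 1 0)⁻¹ = (ζ : F) ^ 2 * δ' / δ := by
    rw [eq_div_iff hδ, ← hdet']
    field_simp
  let D : Fˣ := ζ * Units.mk0 (κ₀ 1 1) h11ne
  have hD : (D : F) = ζ * κ₀ 1 1 := rfl
  have h3 := Fm.f3 δ' D γ'' hmem (by rw [e11, hD]) (by
    rw [e01, hD]
    have h4 : (ζ : F) * δ' * κ₀ 0 1 / (ζ * κ₀ 1 1 * δ') = κ₀ 0 1 * (κ₀ 1 1)⁻¹ := by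
      field_simp
    rw [h4, es]
    exact A.mul_mem hb (A.add_mem A.one_mem (A.mul_mem (T.pow_mem k) hs))) (by
    obtain ⟨-, r, hr, er⟩ := T.inv_pow hk ht
    rw [← et] at er
    refine ⟨c * κ₀ 1 1 * (κ₀ 0 0 * κ₀ 1 1 - κ₀ 0 1 * κ₀ 1 0)⁻¹, ?_, ?_⟩
    · rw [er, ed]
      exact A.mul_mem (A.mul_mem hc (A.add_mem A.one_mem (A.mul_mem (T.pow_mem k) hd)))
        (A.add_mem A.one_mem (A.mul_mem (T.pow_mem k) hr))
    · rw [hdinv, e10, hD, ec]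
      ring) (γ • P)
  have h5 : γ'' • γ • P = γ' • P := by rw [smul_smul, hγdef, inv_mul_cancel_right]
  rw [h5] at h3
  rw [h3]
  have h6 : ∃ a ∈ A, ((δ⁻¹ * (δ' * D ^ 2) : Fˣ) : F) = 1 + ν ^ k * a := by
    have h7 : ((δ⁻¹ * (δ' * D ^ 2) : Fˣ) : F) =
        κ₀ 1 1 * κ₀ 1 1 * (κ₀ 0 0 * κ₀ 1 1 - κ₀ 0 1 * κ₀ 1 0)⁻¹ := by
      rw [hdinv]
      push_cast
      rw [hD]
      ring
    rw [h7]
    obtain ⟨-, r, hr, er⟩ := T.inv_pow hk ht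
    rw [← et] at er
    exact mul_form T (mul_form T ⟨d, hd, ed⟩ ⟨d, hd, ed⟩) ⟨r, hr, er⟩
  have h9 := Fm.f1 δ _ h6
  rw [mul_inv_cancel_left] at h9
  rw [h9]

/-- **The extension.** -/
def Phi (T : Two A R ν) (hk : 1 ≤ k) (hkm : k ≤ m) (P : X) (g : GL (Fin 2) F) : M :=
  Fm.f (GeneralLinearGroup.det g) ((exists_dec T hk hkm g).choose • P)

variable (T : Two A R ν) (hk : 1 ≤ k) (hkm : k ≤ m)

theorem Phi_eq {g γ κ : GL (Fin 2) F} {δ z : Fˣ} (h : Dec A R ν k m g γ κ δ z) (P : X) :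
    Fm.Phi T hk hkm P g = Fm.f δ (γ • P) :=
  Fm.dec_unique T hk hkm h (exists_dec T hk hkm g).choose_spec.choose_spec P

/-- Invariance under `SL₂(R)`. -/
theorem Phi_smul_SL {γ : GL (Fin 2) F} (hγ : γ ∈ SLR R) (P : X) (g : GL (Fin 2) F) :
    Fm.Phi T hk hkm (γ • P) (γ * g) = Fm.Phi T hk hkm P g := by
  obtain ⟨γ', κ, h⟩ := exists_dec T hk hkm g
  rw [Fm.Phi_eq T hk hkm h, Fm.Phi_eq T hk hkm (γ := γ' * γ⁻¹) (κ := κ)
    (δ := GeneralLinearGroup.det g) (z := 1)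
    ⟨(SLR R).mul_mem h.mem ((SLR R).inv_mem hγ), h.inK, by
      rw [mul_assoc, inv_mul_cancel_left, h.eq]⟩, mul_smul, inv_smul_smul]

/-- Invariance under `diag (u, 1)`, `u` a unit of `R`. -/
theorem Phi_smul_dg {u : Fˣ} (hu : (u : F) ∈ R) (hu' : ((u⁻¹ : Fˣ) : F) ∈ R) (P : X)
    (g : GL (Fin 2) F) : Fm.Phi T hk hkm (dg u • P) (dg u * g) = Fm.Phi T hk hkm P g := by
  obtain ⟨γ', κ, h⟩ := exists_dec T hk hkm g
  have hmem : dg u * γ' * (dg u)⁻¹ ∈ SLR R := by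
    refine ⟨?_, ?_⟩
    · rw [map_mul, map_mul, h.mem.1, map_inv, mul_one, mul_inv_cancel]
    · have h1 := (GLR R).mul_mem ((GLR R).mul_mem (dg_mem_GLR hu hu') (SLR_le_GLR R h.mem))
        ((GLR R).inv_mem (dg_mem_GLR hu hu'))
      exact h1.1
  rw [Fm.Phi_eq T hk hkm h, Fm.Phi_eq T hk hkm (γ := dg u * γ' * (dg u)⁻¹) (κ := κ)
    (δ := u * GeneralLinearGroup.det g) (z := 1)
    ⟨hmem, h.inK, by
      rw [mul_assoc, inv_mul_cancel_left, mul_assoc, h.eq, dg_mul]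
      simp only [mul_assoc]⟩, mul_smul, mul_smul, inv_smul_smul, Fm.f2 _ _ hu hu']

/-- **Invariance under `GL₂(R)`.** -/
theorem Phi_smul {γ : GL (Fin 2) F} (hγ : γ ∈ GLR R) (P : X) (g : GL (Fin 2) F) :
    Fm.Phi T hk hkm (γ • P) (γ * g) = Fm.Phi T hk hkm P g := by
  set u := GeneralLinearGroup.det γ with hu
  have hu1 : (u : F) ∈ R := by
    rw [hu, det_eq]
    exact R.sub_mem (R.mul_mem (hγ.1 _ _) (hγ.1 _ _)) (R.mul_mem (hγ.1 _ _) (hγ.1 _ _))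
  have hu2 : ((u⁻¹ : Fˣ) : F) ∈ R := hγ.2
  have h1 : (dg u)⁻¹ * γ ∈ SLR R := by
    refine ⟨by rw [map_mul, map_inv, det_dg, inv_mul_cancel], ?_⟩
    exact ((GLR R).mul_mem ((GLR R).inv_mem (dg_mem_GLR hu1 hu2)) hγ).1
  have h2 : γ = dg u * ((dg u)⁻¹ * γ) := by rw [mul_inv_cancel_left]
  rw [h2, mul_smul, mul_assoc, Fm.Phi_smul_dg T hk hkm hu1 hu2, Fm.Phi_smul_SL T hk hkm h1]

/-- Right invariance under `K`. -/
theorem Phi_mul_K {κ : GL (Fin 2) F} (hκ : InK A ν k m κ) (P : X) (g : GL (Fin 2) F) :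
    Fm.Phi T hk hkm P (g * κ) = Fm.Phi T hk hkm P g := by
  obtain ⟨γ', κ', h⟩ := exists_dec T hk hkm g
  rw [Fm.Phi_eq T hk hkm h, Fm.Phi_eq T hk hkm (γ := γ') (κ := κ' * κ)
    (δ := GeneralLinearGroup.det g) (z := 1)
    ⟨h.mem, h.inK.mul T hkm hκ, by rw [← mul_assoc, h.eq, sc_one]; group⟩]

/-- Central invariance. -/
theorem Phi_mul_sc (z : Fˣ) (P : X) (g : GL (Fin 2) F) :
    Fm.Phi T hk hkm P (g * sc z) = Fm.Phi T hk hkm P g := by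
  obtain ⟨γ', κ', h⟩ := exists_dec T hk hkm g
  rw [Fm.Phi_eq T hk hkm h, Fm.Phi_eq T hk hkm (γ := γ') (κ := κ')
    (δ := GeneralLinearGroup.det g) (z := z)
    ⟨h.mem, h.inK, by rw [← mul_assoc, h.eq, sc_one, mul_one]⟩]

theorem Phi_dg (δ : Fˣ) (P : X) : Fm.Phi T hk hkm P (dg δ) = Fm.f δ P := by
  rw [Fm.Phi_eq T hk hkm (γ := 1) (κ := 1) (δ := δ) (z := 1)
    ⟨(SLR R).one_mem, InK.one A ν k m, by rw [sc_one]; group⟩, one_smul]

/-- **The values on upper triangular matrices.** -/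
theorem Phi_upper (δ : Fˣ) {b b₁ : F} (hb₁ : b₁ ∈ R) (hb : (b - b₁) / δ ∈ A) (P : X) :
    Fm.Phi T hk hkm P (nn b * dg δ) = Fm.f δ (nn (-b₁) • P) := by
  have h1 : nn b * dg δ = nn b₁ * dg δ * nn ((b - b₁) / δ) := by
    have hδ := δ.ne_zero
    apply ext4 <;> simp only [coe_mul_apply, nn_apply00, nn_apply01, nn_apply10, nn_apply11,
        dg_apply00, dg_apply01, dg_apply10, dg_apply11]
    · ring
    · field_simp; ring
    · ring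
    · ring
  have h2 : InK A ν k m (nn ((b - b₁) / (δ : F))) :=
    ⟨⟨0, A.zero_mem, by simp⟩, ⟨0, A.zero_mem, by simp⟩, by simpa using hb,
      ⟨0, A.zero_mem, by simp⟩⟩
  rw [h1, Fm.Phi_mul_K T hk hkm h2, ← Fm.Phi_dg T hk hkm δ (nn (-b₁) • P),
    ← Fm.Phi_smul_SL T hk hkm (γ := nn (-b₁)) (nn_mem_SLR (R.neg_mem hb₁)), ← mul_assoc,
    ← nn_add, neg_add_cancel, nn_zero, one_mul]

include T in
theorem exists_b₁ (δ : Fˣ) (b : F) : ∃ b₁ ∈ R, (b - b₁) / δ ∈ A := by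
  obtain ⟨j, hj⟩ := T.exists_pow ((δ : F)⁻¹)
  obtain ⟨r, hr, a, ha, e⟩ := T.exists_sub b j
  refine ⟨r, hr, ?_⟩
  have h1 : (b - r) / δ = (ν ^ j * (δ : F)⁻¹) * a := by rw [e]; ring
  rw [h1]
  exact A.mul_mem hj ha

end Fam

end Fermat.Agent.LT.B11
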