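import Fermat.Agent.LT.B11.Rings
import Fermat.Agent.LT.B11.Ext
import Fermat.Agent.LT.BesselK

/-!
# The Whittaker function `wh P ξ = ∏_w y_w K₀(4π |ξ_w| y_w) e(2 Re ξ_w z_w)`
-/

set_option autoImplicit false
set_option linter.unusedSectionVars false

noncomputable section

namespace Fermat.Agent.LT.B11

open NumberField Matrix
open scoped Real

variable {F : Type*} [Field F] [NumberField F]

/-- The spherical Whittaker function with all Laplace parameters equal to zero. -/
def wh (P : Xi F) (ξ : F) : ℂ :=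
  ∏ w : InfinitePlace F, (((P w).y : ℂ) * besselK 0 (4 * π * ‖w.embedding ξ‖ * (P w).y)) *
    Complex.exp (2 * π * Complex.I * ((2 * (w.embedding ξ * (P w).z).re : ℝ) : ℂ))

theorem map_dg_apply (w : InfinitePlace F) (b : Fˣ) (i j : Fin 2) :
    (GeneralLinearGroup.map (n := Fin 2) w.embedding (dg b)) i j = w.embedding (dg b i j) := rfl

theorem z_dg_smul (b : Fˣ) (P : Xi F) (w : InfinitePlace F) :
    ((dg b • P) w).z = w.embedding b * (P w).z := by
  rw [Xi.smul_apply, H3.z_smul_of_upper (by rw [map_dg_apply, dg_apply10, map_zero])]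
  rw [map_dg_apply, map_dg_apply, map_dg_apply, dg_apply00, dg_apply01, dg_apply11, map_zero,
    map_one, add_zero, div_one]

theorem y_dg_smul (b : Fˣ) (P : Xi F) (w : InfinitePlace F) :
    ((dg b • P) w).y = ‖w.embedding b‖ * (P w).y := by
  rw [Xi.smul_apply, H3.y_smul_of_upper (by rw [map_dg_apply, dg_apply10, map_zero])]
  rw [map_dg_apply, map_dg_apply, dg_apply00, dg_apply11, map_one, div_one]

theorem wh_dg (b : Fˣ) (P : Xi F) (ξ : F) : wh (dg b • P) ξ = nI b * wh P (b * ξ) := by
  unfold wh nI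
  rw [Complex.ofReal_prod, ← Finset.prod_mul_distrib]
  refine Finset.prod_congr rfl fun w _ => ?_
  rw [z_dg_smul, y_dg_smul, map_mul, norm_mul]
  have e1 : 4 * π * ‖w.embedding ξ‖ * (‖w.embedding (b : F)‖ * (P w).y) =
      4 * π * (‖w.embedding (b : F)‖ * ‖w.embedding ξ‖) * (P w).y := by ring
  have e2 : w.embedding ξ * (w.embedding (b : F) * (P w).z) =
      w.embedding (b : F) * w.embedding ξ * (P w).z := by ring
  rw [e1, e2]
  push_cast
  ring

end Fermat.Agent.LT.B11
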