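import Fermat.Agent.LT.B11.Fam
import Fermat.Agent.LT.B11.Wh
import Fermat.Agent.LT.Psi.Data
import Fermat.Agent.LT.SUnitBound
import Fermat.Agent.LT.B11.ExtNF

/-!
# The instance of `Dat` for a quadratic extension `E / F`, an integer `N` and a character `ψ`
-/

set_option autoImplicit false
set_option linter.unusedSectionVars false

noncomputable section

namespace Fermat.Agent.LT.B11

open IsDedekindDomain NumberField WithZero Matrix
open Fermat.Agent.CFT.SUnits (ord ord_one ord_mul ord_inv ord_pow ord_div ord_eq_zero_iff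
  valuation_eq_exp_neg_ord finite_ord_ne_zero div div_apply)
open Fermat.Agent.CFT.Places
open Fermat.Agent.CFT.Global (mem_E above mem_above normU ClTrivial cong mem_cong)
open Fermat.Agent.LT.Psi (galU coe_up coe_galU up_normU kum dbl PsiChar)
open Fermat.Agent.LT.SAd

section Norm

variable {F : Type*} [Field F] [NumberField F] {N : ℕ} [NeZero N]

theorem nR_eq_of_mem_VN [IsTotallyComplex F] {k : ℕ} {u : Fˣ} (hu : u ∈ VN F N k) :
    nR F N u = nI u ^ 2 := by
  classical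
  have h1 := Loc.sum_mult_log_eq u
  have h2 : Real.log (nI u ^ 2) = ∑ w : InfinitePlace F, (w.mult : ℝ) * Real.log (w (u : F)) := by
    rw [nI, ← Finset.prod_pow, Real.log_prod (fun w _ => pow_ne_zero _ (by simp))]
    refine Finset.sum_congr rfl fun w _ => ?_
    rw [Real.log_pow, InfinitePlace.norm_embedding_eq, InfinitePlace.mult,
      if_neg (InfinitePlace.not_isReal_iff_isComplex.mpr (IsTotallyComplex.isComplex w))]
  have h3 : (rayVal (pl F N) (fun v => Real.log (Ideal.absNorm v.asIdeal)) u).toAdd =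
      Real.log (nI u ^ 2) := by
    rw [h2, h1, toAdd_rayVal]
    refine Finsupp.sum_congr fun v _ => ?_
    split_ifs with hv
    · have h4 : (div (R := 𝓞 F) u) v = 0 := ord_eq_zero_of_mem_VN hu (mem_pl.mp hv)
      rw [h4, Int.cast_zero, zero_mul]
    · rw [zsmul_eq_mul]
  unfold nR
  rw [h3, Real.exp_log (pow_pos (nI_pos u) 2)]

end Norm

section Ext

variable {F E : Type} [Field F] [NumberField F] [Field E] [NumberField E] [Algebra F E]
  [IsGalois F E] {N : ℕ} [NeZero N]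

omit [IsGalois F E] [NeZero N] in
theorem mem_AS_of_map {x : F} (h : algebraMap F E x ∈ AS E N) : x ∈ AS F N := by
  obtain ⟨n, h0, h1, h2⟩ := h
  refine ⟨n, h0, h1, ?_⟩
  rw [← map_natCast (algebraMap F E), ← map_mul] at h2
  exact isIntegral_of_map h2

omit [IsGalois F E] [NeZero N] in
theorem mem_RS_of_map {x : F} (h : algebraMap F E x ∈ RS E N) : x ∈ RS F N := by
  obtain ⟨j, h2⟩ := h
  refine ⟨j, ?_⟩
  rw [← map_natCast (algebraMap F E), ← map_pow, ← map_mul] at h2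
  exact isIntegral_of_map h2

omit [IsGalois F E] in
theorem mem_pl_above {P : HeightOneSpectrum (𝓞 E)} : P ∈ above E (pl F N) ↔ P ∈ pl E N := by
  rw [mem_above, mem_pl, mem_pl]
  change algebraMap (𝓞 F) (𝓞 E) (N : 𝓞 F) ∈ P.asIdeal ↔ _
  rw [map_natCast]

omit [IsGalois F E] in
theorem above_pl : above E (pl F N) = pl E N := by
  ext P
  exact mem_pl_above

variable (h2 : Module.finrank F E = 2) {c : E ≃ₐ[F] E} (hc : c ≠ 1)

include h2 hc

theorem map_normU (x : Eˣ) : algebraMap F E (normU (K := F) E x) = x * c (x : E) := by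
  have := congrArg Units.val (up_normU h2 hc x)
  simpa using this

theorem normU_mem_VN {k : ℕ} {u : Eˣ} (hu : u ∈ VN E N k) : normU (K := F) E u ∈ VN F N k := by
  have key : ∀ x : Eˣ, ((N : E) ^ k)⁻¹ * ((x : E) - 1) ∈ AS E N → (x : E) ∈ AS E N →
      ((N : F) ^ k)⁻¹ * ((normU (K := F) E x : F) - 1) ∈ AS F N := by
    intro x h1 h3
    refine mem_AS_of_map (E := E) ?_
    rw [map_mul, map_inv₀, map_pow, map_natCast, map_sub, map_one, map_normU h2 hc]
    have e : ((N : E) ^ k)⁻¹ * ((x : E) * c (x : E) - 1) =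
        (((N : E) ^ k)⁻¹ * ((x : E) - 1)) * c (x : E) + c (((N : E) ^ k)⁻¹ * ((x : E) - 1)) := by
      rw [map_mul, map_inv₀, map_pow, map_natCast, map_sub, map_one]
      ring
    rw [e]
    exact (AS E N).add_mem ((AS E N).mul_mem h1 (conj_mem_AS c h3)) (conj_mem_AS c h1)
  have key2 : ∀ x : Eˣ, (x : E) ∈ AS E N → (normU (K := F) E x : F) ∈ AS F N := by
    intro x h3
    refine mem_AS_of_map (E := E) ?_
    rw [map_normU h2 hc]
    exact (AS E N).mul_mem h3 (conj_mem_AS c h3)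
  have e : (normU (K := F) E u)⁻¹ = normU (K := F) E u⁻¹ := (map_inv _ _).symm
  refine ⟨key u hu.1 hu.2.2.1, ?_, key2 u hu.2.2.1, ?_⟩
  · rw [e]; exact key u⁻¹ hu.2.1 hu.2.2.2
  · rw [e]; exact key2 u⁻¹ hu.2.2.2

omit h2 hc in
theorem mem_cong_of_mem_VN {n k : ℕ} (hk : n + 1 ≤ k) {u : Eˣ} (hu : u ∈ VN E N k)
    {P : HeightOneSpectrum (𝓞 E)} (hP : P ∈ pl E N) : u ∈ cong P n := by
  have h1 := (mem_AS_iff.mp (VN_mono hk hu).1) P (mem_pl.mp hP)
  have hN0 : (N : E) ≠ 0 := Nat.cast_ne_zero.mpr (NeZero.ne N)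
  rw [mem_cong]
  have e : ((u : E) - 1) = (N : E) ^ (n + 1) * (((N : E) ^ (n + 1))⁻¹ * ((u : E) - 1)) := by
    field_simp
  rw [e, map_mul, map_pow]
  have hNv : P.valuation E (N : E) ≤ exp (-(1 : ℤ)) := by
    have h2 : P.valuation E (algebraMap (𝓞 E) E (N : 𝓞 E)) ≤ exp (-(1 : ℤ)) := by
      rw [P.valuation_of_algebraMap]
      have h3 := (P.intValuation_le_pow_iff_mem (N : 𝓞 E) 1).mpr (by rw [pow_one]; exact mem_pl.mp hP)
      simpa using h3
    rwa [map_natCast] at h2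
  have h3 : P.valuation E (N : E) ^ (n + 1) ≤ exp (-((n : ℤ) + 1)) := by
    refine (pow_le_pow_left' hNv (n + 1)).trans ?_
    rw [← WithZero.exp_nsmul]
    simp
  exact (mul_le_mul' h3 h1).trans (by rw [mul_one])

variable [IsTotallyComplex F] {a : Fˣ} {n : ℕ} {ψ : HeightOneSpectrum (𝓞 E) → ZMod 4}
  (hψ : PsiChar (pl F N) c a n ψ) {k : ℕ} (hk : n + 1 ≤ k) (χ : AddChar (ZMod 4) ℂ)

/-- **The data of the family `F δ`.** -/
def datE : Dat Eˣ Fˣ (Xi F) where
  q := normU (K := F) E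
  ι := Psi.up E
  q_ι b := Psi.normU_up h2 b
  Op := {x | (x : E) ∈ RS E N}
  EA := CFT.Global.E (above E (pl F N))
  EB := CFT.Global.E (pl F N)
  q_mem e he := by
    rw [above_pl, ← mem_RU_iff] at he
    rw [← mem_RU_iff]
    have key : ∀ x : Eˣ, (x : E) ∈ RS E N → (normU (K := F) E x : F) ∈ RS F N := by
      intro x h3
      refine mem_RS_of_map (E := E) ?_
      rw [map_normU h2 hc]
      exact (RS E N).mul_mem h3 (conj_mem_RS c h3)
    refine ⟨key e he.1, ?_⟩
    rw [← map_inv]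
    exact key e⁻¹ he.2
  Op_mul e he x hx := by
    rw [above_pl, ← mem_RU_iff] at he
    rw [Set.mem_ofPred_eq, Units.val_mul]
    exact (RS E N).mul_mem hx he.1
  VA := VN E N k
  VB := VN F N k
  q_VA v hv := normU_mem_VN h2 hc hv
  ψ x := χ (rayVal (above E (pl F N)) ψ x).toAdd
  ψ_mul x y := by rw [map_mul, toAdd_mul, AddChar.map_add_eq_mul]
  ψ_EA e he := by rw [rayVal_of_mem_E _ _ he, toAdd_one, AddChar.map_zero_eq_one]
  ψ_VA v hv := by
    rw [hψ.ray v (fun P hP => mem_cong_of_mem_VN hk hv (mem_pl_above.mp hP)), toAdd_one,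
      AddChar.map_zero_eq_one]
  η d := χ (dbl (rayVal (pl F N) (kum a) d).toAdd)
  η_mul d := by
    rw [← AddChar.map_add_eq_mul, add_comm, hψ.central d, AddChar.map_zero_eq_one]
  s d := Real.sqrt (nR F N d) / nI d
  s_pos b := div_pos (Real.sqrt_pos.mpr (nR_pos N b)) (nI_pos b)
  s_mul b d := by
    rw [nR_mul, nI_mul, Real.sqrt_mul (nR_pos N b).le, mul_div_mul_comm]
  nI := nI
  nI_pos := nI_pos
  nI_mul := nI_mul
  s_nI e he := by
    rw [nR_of_mem_E N he, Real.sqrt_one, one_div, inv_mul_cancel₀ (nI_pos e).ne']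
  s_VB v hv := by
    rw [nR_eq_of_mem_VN hv, Real.sqrt_sq (nI_pos v).le, div_self (nI_pos v).ne']
  act b P := dg b • P
  act_mul b d P := by rw [dg_mul, mul_smul]
  act_one P := by rw [dg_one, one_smul]
  W P ξ := wh P ξ
  W_act b P ξ := by rw [wh_dg]; rfl

end Ext

/-! ### Summability -/

section Summ

variable {A B X : Type*} [CommGroup A] [CommGroup B] (D : Dat A B X)

theorem Dat.summable_fTH_of_tm (hS : ∀ δ P, Summable (D.tm δ P)) (δ : B) (P : X) :
    Summable fun c : A ⧸ D.U => D.fTH δ P c.out := by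
  set c : D.EB ⧸ D.QE := QuotientGroup.mk 1 with hc
  set u : B := ((c.out : D.EB) : B) with hu
  have h := D.summable_fTH (hS (δ * u) (D.act u P)) c
  rw [← hu] at h
  have e : D.act u⁻¹ (D.act u P) = P := by rw [← D.act_mul, inv_mul_cancel, D.act_one]
  rwa [mul_inv_cancel_right, e] at h

end Summ

/-! ### The family -/

section Fam

variable {F E : Type} [Field F] [NumberField F] [Field E] [NumberField E] [Algebra F E]
  [IsGalois F E] {N : ℕ} [NeZero N] (h2 : Module.finrank F E = 2) {c : E ≃ₐ[F] E} (hc : c ≠ 1)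
  [IsTotallyComplex F] {a : Fˣ} {n : ℕ} {ψ : HeightOneSpectrum (𝓞 E) → ZMod 4}
  (hψ : PsiChar (pl F N) c a n ψ) {k : ℕ} (hk : n + 1 ≤ k) (χ : AddChar (ZMod 4) ℂ)

/-- The law of the class sums `G h` (pieces (A), (B), (C), (D) of B11). -/
def D1law (D : Dat Eˣ Fˣ (Xi F)) (N m : ℕ) : Prop :=
  ∀ γ : GL (Fin 2) F, γ ∈ SLR (RS F N) → ∀ d : Fˣ, γ 1 1 = d → ∀ δ : Fˣ,
    γ 0 1 / (d * δ) ∈ AS F N → (∃ a ∈ AS F N, γ 1 0 * d * δ = (N : F) ^ m * a) →
      ∀ h : Eˣ, D.q h * δ ∈ D.VB → ∀ P : Xi F,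
        D.G h (γ • P) = (D.s d ^ 2 : ℝ) * D.η d * D.G (h * (D.ι d)⁻¹) P

theorem mem_VN_of_eq {k : ℕ} (hk : k ≠ 0) {v : Fˣ} (hv : ∃ a ∈ AS F N, (v : F) = 1 + (N : F) ^ k * a) :
    v ∈ VN F N k := by
  obtain ⟨a, ha, e⟩ := hv
  rw [mem_VN_iff hk, e]
  have hN0 : (N : F) ≠ 0 := Nat.cast_ne_zero.mpr (NeZero.ne N)
  have : ((N : F) ^ k)⁻¹ * (1 + (N : F) ^ k * a - 1) = a := by field_simp; ring
  rwa [this]

/-- **The family** attached to `ψ`. -/
def famE {m : ℕ} (hS : ∀ δ P, Summable ((datE h2 hc hψ hk χ).tm δ P))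
    (hD : D1law (datE h2 hc hψ hk χ) N m) :
    Fam (AS F N) (RS F N) (N : F) k m (Xi F) ℂ where
  f := (datE h2 hc hψ hk χ).FF
  f1 δ v hv := by
    funext P
    exact (datE h2 hc hψ hk χ).FF_mul_VB (mem_VN_of_eq (by omega) hv) δ P
  f2 δ u hu hu' P := by
    exact (datE h2 hc hψ hk χ).FF_act (mem_RU_iff.mp ⟨hu, hu'⟩) δ P
  f3 δ d γ hγ hd hb hc' P := by
    set D := datE h2 hc hψ hk χ with hDdef
    refine D.FF_law fun u hu => ?_
    have huR : u ∈ RU F N := mem_RU_iff.mpr hu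
    set γ' : GL (Fin 2) F := dg u⁻¹ * γ * dg u with hγ'
    have e1 : D.act u⁻¹ (γ • P) = γ' • D.act u⁻¹ P := by
      change dg u⁻¹ • γ • P = γ' • dg u⁻¹ • P
      rw [hγ', ← mul_smul, ← mul_smul, mul_assoc (dg u⁻¹ * γ), ← dg_mul, mul_inv_cancel, dg_one,
        mul_one]
    have e00 : γ' 0 0 = γ 0 0 := by
      simp only [hγ', coe_mul_apply, dg_apply00, dg_apply01, dg_apply10]
      rw [Units.val_inv_eq_inv_val]
      have := u.ne_zero
      field_simp
      ring
    have e01 : γ' 0 1 = (u⁻¹ : Fˣ) * γ 0 1 := by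
      simp only [hγ', coe_mul_apply, dg_apply00, dg_apply01, dg_apply11]
      ring
    have e10 : γ' 1 0 = γ 1 0 * u := by
      simp only [hγ', coe_mul_apply, dg_apply00, dg_apply10, dg_apply11]
      ring
    have e11 : γ' 1 1 = γ 1 1 := by
      simp only [hγ', coe_mul_apply, dg_apply01, dg_apply10, dg_apply11]
      ring
    have hmem : γ' ∈ SLR (RS F N) := by
      refine ⟨?_, fun i j => ?_⟩
      · rw [hγ', map_mul, map_mul, hγ.1, det_dg, det_dg, mul_one, inv_mul_cancel]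
      · fin_cases i <;> fin_cases j
        · change γ' 0 0 ∈ _
          rw [e00]; exact hγ.2 0 0
        · change γ' 0 1 ∈ _
          rw [e01]; exact (RS F N).mul_mem huR.2 (hγ.2 0 1)
        · change γ' 1 0 ∈ _
          rw [e10]; exact (RS F N).mul_mem (hγ.2 1 0) huR.1
        · change γ' 1 1 ∈ _
          rw [e11]; exact hγ.2 1 1
    rw [e1]
    refine D.TH_law (fun h hh => hD γ' hmem d (e11.trans hd) (δ * u⁻¹) ?_ ?_ h hh _)
      (D.summable_fTH_of_tm hS _ _) (D.summable_fTH_of_tm hS _ _)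
    · rw [e01]
      have e : ((u⁻¹ : Fˣ) : F) * γ 0 1 / ((d : F) * ((δ * u⁻¹ : Fˣ) : F)) =
          γ 0 1 / ((d : F) * (δ : F)) := by
        push_cast
        have h1 := u.ne_zero
        have h3 := d.ne_zero
        have h4 := δ.ne_zero
        field_simp
      rw [e]
      exact hb
    · obtain ⟨b, hb, e⟩ := hc'
      refine ⟨b, hb, ?_⟩
      rw [e10, ← e]
      push_cast
      have h1 := u.ne_zero
      field_simp

theorem famE_f {m : ℕ} (hS : ∀ δ P, Summable ((datE h2 hc hψ hk χ).tm δ P))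
    (hD : D1law (datE h2 hc hψ hk χ) N m) (δ : Fˣ) :
    (famE h2 hc hψ hk χ hS hD).f δ = (datE h2 hc hψ hk χ).FF δ := rfl

end Fam

end Fermat.Agent.LT.B11
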