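import Fermat.Agent.LT.Ray
import Fermat.Agent.LT.Theta11.SCond
import Fermat.Agent.LT.Space

/-!
# Norms outside `N`, units congruent to one
-/

set_option autoImplicit false

noncomputable section

namespace Fermat.Agent.LT.B11

open IsDedekindDomain NumberField WithZero
open Fermat.Agent.CFT.SUnits Fermat.Agent.CFT.Global

section Places

variable (F : Type*) [Field F] [NumberField F] (N : ℕ) [NeZero N]

theorem finite_pl : {v : HeightOneSpectrum (𝓞 F) | (N : 𝓞 F) ∈ v.asIdeal}.Finite := by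
  have h0 : (N : 𝓞 F) ≠ 0 := Nat.cast_ne_zero.mpr (NeZero.ne N)
  have h1 := Ideal.finite_factors (R := 𝓞 F) (I := Ideal.span {(N : 𝓞 F)})
    (by simpa using h0)
  refine h1.subset fun v hv => ?_
  exact (Ideal.dvd_iff_le.mpr ((Ideal.span_singleton_le_iff_mem _).mpr hv))

/-- the places dividing `N` -/
def pl : Finset (HeightOneSpectrum (𝓞 F)) := (finite_pl F N).toFinset

variable {F N}

theorem mem_pl {v : HeightOneSpectrum (𝓞 F)} : v ∈ pl F N ↔ (N : 𝓞 F) ∈ v.asIdeal := by
  rw [pl, Set.Finite.mem_toFinset, Set.mem_ofPred_eq]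

variable (F N)

/-- the norm outside `N` -/
def nR (d : Fˣ) : ℝ :=
  Real.exp (rayVal (pl F N) (fun v => Real.log (Ideal.absNorm v.asIdeal)) d).toAdd

variable {F}

theorem nR_pos (d : Fˣ) : 0 < nR F N d := Real.exp_pos _

theorem nR_mul (d e : Fˣ) : nR F N (d * e) = nR F N d * nR F N e := by
  unfold nR
  rw [map_mul, toAdd_mul, Real.exp_add]

theorem nR_one : nR F N 1 = 1 := by
  unfold nR
  rw [map_one, toAdd_one, Real.exp_zero]

theorem nR_of_mem_E {d : Fˣ} (h : d ∈ E (pl F N)) : nR F N d = 1 := by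
  unfold nR
  rw [rayVal_of_mem_E _ _ h, toAdd_one, Real.exp_zero]

end Places

section Inf

variable {F : Type*} [Field F] [NumberField F]

/-- the product of the absolute values at the complex places -/
def nI (d : Fˣ) : ℝ := ∏ w : InfinitePlace F, ‖w.embedding (d : F)‖

theorem nI_pos (d : Fˣ) : 0 < nI d := Finset.prod_pos fun w _ => norm_pos_iff.mpr (by simp)

theorem nI_mul (d e : Fˣ) : nI (d * e) = nI d * nI e := by
  unfold nI
  rw [← Finset.prod_mul_distrib]
  exact Finset.prod_congr rfl fun w _ => by rw [Units.val_mul, map_mul, norm_mul]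

/-- `|N_{F/ℚ} d| = nI d ^ 2` -/
theorem nI_sq [IsTotallyComplex F] (d : Fˣ) : nI d ^ 2 = |(Algebra.norm ℚ (d : F) : ℚ)| := by
  rw [← InfinitePlace.prod_eq_abs_norm, nI, ← Finset.prod_pow]
  refine Finset.prod_congr rfl fun w _ => ?_
  rw [InfinitePlace.norm_embedding_eq, InfinitePlace.mult,
    if_neg (InfinitePlace.not_isReal_iff_isComplex.mpr (IsTotallyComplex.isComplex w))]

end Inf

end Fermat.Agent.LT.B11
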