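import Fermat.Agent.LT.B11.Main
import Fermat.Agent.LT.Steps

/-!
# `StepA`
-/

set_option autoImplicit false

noncomputable section

namespace Fermat.Agent.LT

open IsDedekindDomain NumberField
open Fermat.Agent.LT.B11 Fermat.Agent.LT.SAd

local notation "Γℚ" => (AlgebraicClosure ℚ ≃ₐ[ℚ] AlgebraicClosure ℚ)

/-- **Block B11.** -/
theorem stepA (ρ : Γℚ →* Matrix.GeneralLinearGroup (Fin 2) (ZMod 3)) : StepA ρ := by
  intro T N x hT
  have : NeZero N := ⟨hT.N_ne⟩
  have hN : 2 ≤ N := by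
    have h1 := Nat.le_of_dvd (Nat.pos_of_ne_zero hT.N_ne) hT.six_dvd
    omega
  have hM : NumberField.discr T.M ∣ (N : ℤ) := Int.natAbs_dvd_natAbs.mp (by simpa using hT.discr)
  have hE : NumberField.discr T.E ∣ (N : ℤ) := (NumberField.discr_dvd_discr T.E T.M).trans hM
  have hL : NumberField.discr T.L ∣ (N : ℤ) := (NumberField.discr_dvd_discr T.L T.M).trans hM
  obtain ⟨D, -, -, -, -, hx⟩ := hT.data (pl T.L N) (fun v => mem_pl)
  obtain ⟨m, Φ, h⟩ := exists_isFormA D hN (diffBound_of_discr_dvd hE) (diffBound_of_discr_dvd hL)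
    (x := x) hx
  exact ⟨N, m, Φ, dvd_rfl, h⟩

end Fermat.Agent.LT
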