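import Fermat.Agent.LT.Space

/-!
# The height `∏_w cosh d(P_w, j)` and functions of moderate growth
-/

set_option autoImplicit false
set_option linter.unusedSectionVars false

noncomputable section

namespace Fermat.Agent.LT.B11

open NumberField Matrix

/-! ### the invariant `cu` -/

section Cu

open Complex

theorem exists_cu_le (Q : H3) : ∃ C : ℝ, 0 ≤ C ∧ ∀ P : H3, H3.cu P Q ≤ C * H3.cu P H3.j := by
  refine ⟨(2 + 2 * normSq Q.z + Q.y ^ 2) / Q.y, ?_, fun P => ?_⟩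
  · have := normSq_nonneg Q.z
    have := Q.y_pos
    positivity
  · have hy := P.y_pos
    have hq := Q.y_pos
    have hn := normSq_nonneg Q.z
    have hp := normSq_nonneg P.z
    have h1 : normSq (P.z - Q.z) ≤ 2 * normSq P.z + 2 * normSq Q.z := by
      rw [normSq_apply, normSq_apply, normSq_apply, sub_re, sub_im]
      nlinarith [sq_nonneg (P.z.re + Q.z.re), sq_nonneg (P.z.im + Q.z.im)]
    unfold H3.cu
    rw [H3.z_j, H3.y_j, sub_zero, div_mul_div_comm, div_le_div_iff₀ (by positivity) (by positivity)]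
    have h2 : normSq (P.z - Q.z) + P.y ^ 2 + Q.y ^ 2 ≤
        (2 + 2 * normSq Q.z + Q.y ^ 2) * (normSq P.z + P.y ^ 2 + 1 ^ 2) := by
      nlinarith [mul_nonneg hn hp, mul_nonneg hn (sq_nonneg P.y), mul_nonneg (sq_nonneg Q.y) hp,
        mul_nonneg (sq_nonneg Q.y) (sq_nonneg P.y)]
    calc (normSq (P.z - Q.z) + P.y ^ 2 + Q.y ^ 2) * (Q.y * (2 * P.y * 1))
        ≤ ((2 + 2 * normSq Q.z + Q.y ^ 2) * (normSq P.z + P.y ^ 2 + 1 ^ 2)) *
            (Q.y * (2 * P.y * 1)) := mul_le_mul_of_nonneg_right h2 (by positivity)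
      _ = _ := by ring

theorem exists_cu_smul_le (g : GL (Fin 2) ℂ) :
    ∃ C : ℝ, 0 ≤ C ∧ ∀ P : H3, H3.cu (g • P) H3.j ≤ C * H3.cu P H3.j := by
  obtain ⟨C, hC, h⟩ := exists_cu_le (g⁻¹ • H3.j)
  refine ⟨C, hC, fun P => ?_⟩
  have h1 : H3.cu (g • P) H3.j = H3.cu P (g⁻¹ • H3.j) := by
    rw [← H3.cu_smul g⁻¹, inv_smul_smul]
  rw [h1]
  exact h P

theorem inv_y_le (P : H3) : P.y⁻¹ ≤ 2 * H3.cu P H3.j := by
  have hy := P.y_pos
  have hp := normSq_nonneg P.z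
  unfold H3.cu
  rw [H3.z_j, H3.y_j, sub_zero, inv_eq_one_div, ← mul_div_assoc,
    div_le_div_iff₀ hy (by positivity)]
  nlinarith [mul_pos hy hy, mul_nonneg hp hy.le, mul_pos (mul_pos hy hy) hy]

end Cu

section Prod

variable {F : Type*} [Field F] [NumberField F]

/-- `∏_w cosh d(P_w, j)` -/
def cj (P : Xi F) : ℝ := ∏ w : InfinitePlace F, H3.cu (P w) H3.j

theorem one_le_cj (P : Xi F) : 1 ≤ cj P := Finset.one_le_prod fun _ _ => H3.one_le_cu _ _

theorem exists_cj_smul_le (g : GL (Fin 2) F) :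
    ∃ C : ℝ, 0 ≤ C ∧ ∀ P : Xi F, cj (g • P) ≤ C * cj P := by
  have h : ∀ w : InfinitePlace F, ∃ C : ℝ, 0 ≤ C ∧ ∀ P : H3,
      H3.cu (GeneralLinearGroup.map (n := Fin 2) w.embedding g • P) H3.j ≤ C * H3.cu P H3.j :=
    fun w => exists_cu_smul_le _
  choose C hC h using h
  refine ⟨∏ w, C w, Finset.prod_nonneg fun w _ => hC w, fun P => ?_⟩
  unfold cj
  rw [← Finset.prod_mul_distrib]
  exact Finset.prod_le_prod (fun w _ => (H3.cu_pos _ _).le) fun w _ => h w (P w)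

/-- moderate growth -/
def Mod (f : Xi F → ℂ) : Prop := ∃ (C : ℝ) (A : ℕ), 0 ≤ C ∧ ∀ P, ‖f P‖ ≤ C * cj P ^ A

theorem Mod.smul {f : Xi F → ℂ} (h : Mod f) (g : GL (Fin 2) F) : Mod fun P => f (g • P) := by
  obtain ⟨C, A, hC, h⟩ := h
  obtain ⟨K, hK, hk⟩ := exists_cj_smul_le g
  refine ⟨C * K ^ A, A, by positivity, fun P => (h _).trans ?_⟩
  rw [mul_assoc, ← mul_pow]
  refine mul_le_mul_of_nonneg_left (pow_le_pow_left₀ ?_ (hk P) A) hC
  exact zero_le_one.trans (one_le_cj _)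

end Prod

end Fermat.Agent.LT.B11
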