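import Fermat.Agent.LT.B11.Norms

/-!
# Valuations and the rings `RS`, `AS`; the congruence subgroups
-/

set_option autoImplicit false
set_option linter.unusedSectionVars false

noncomputable section

namespace Fermat.Agent.LT.B11

open IsDedekindDomain NumberField WithZero
open Fermat.Agent.CFT.SUnits Fermat.Agent.LT.SAd
open Fermat.Agent.CFT.Global (mem_E)

variable {F : Type*} [Field F] [NumberField F] {N : ℕ}

theorem valuation_natCast_eq_one {v : HeightOneSpectrum (𝓞 F)} {n : ℕ}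
    (h : (n : 𝓞 F) ∉ v.asIdeal) : v.valuation F (n : F) = 1 := by
  have h1 : v.valuation F (algebraMap (𝓞 F) F (n : 𝓞 F)) = v.intValuation (n : 𝓞 F) :=
    v.valuation_of_algebraMap _
  rw [map_natCast] at h1
  rw [h1]
  exact HeightOneSpectrum.intValuation_eq_one_iff.mpr h

theorem valuation_le_one_of_isIntegral (v : HeightOneSpectrum (𝓞 F)) {x : F}
    (h : IsIntegral ℤ x) : v.valuation F x ≤ 1 := by
  have h1 := v.valuation_le_one (K := F) (⟨x, h⟩ : 𝓞 F)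
  exact h1

theorem isIntegral_of_valuation {x : F} (h : ∀ v : HeightOneSpectrum (𝓞 F), v.valuation F x ≤ 1) :
    IsIntegral ℤ x := by
  obtain ⟨y, hy⟩ := HeightOneSpectrum.mem_integers_of_valuation_le_one F x h
  rw [← hy]
  exact y.isIntegral_coe

variable [NeZero N]

theorem mem_RS_iff {x : F} : x ∈ RS F N ↔
    ∀ v : HeightOneSpectrum (𝓞 F), (N : 𝓞 F) ∉ v.asIdeal → v.valuation F x ≤ 1 := by
  constructor
  · rintro ⟨j, hj⟩ v hv
    have h1 := valuation_le_one_of_isIntegral v hj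
    rwa [map_mul, map_pow, valuation_natCast_eq_one hv, one_pow, one_mul] at h1
  · intro h
    by_cases hx : x = 0
    · rw [hx]; exact (RS F N).zero_mem
    obtain ⟨j, n, hn, hc, hi⟩ := exists_split N x
    refine ⟨j, isIntegral_of_valuation fun v => ?_⟩
    by_cases hv : (N : 𝓞 F) ∈ v.asIdeal
    · have hnv : (n : 𝓞 F) ∉ v.asIdeal := by
        intro hn'
        obtain ⟨a, b, hab⟩ := Int.isCoprime_iff_gcd_eq_one.mpr (by exact_mod_cast hc :
          Int.gcd (n : ℤ) (N : ℤ) = 1)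
        apply v.isPrime.ne_top
        rw [Ideal.eq_top_iff_one]
        have h1 : (1 : 𝓞 F) = (a : 𝓞 F) * (n : 𝓞 F) + (b : 𝓞 F) * (N : 𝓞 F) := by
          have := congrArg (fun z : ℤ => (z : 𝓞 F)) hab
          push_cast at this
          exact this.symm
        rw [h1]
        exact v.asIdeal.add_mem (v.asIdeal.mul_mem_left _ hn') (v.asIdeal.mul_mem_left _ hv)
      have h1 := valuation_le_one_of_isIntegral v hi
      have h2 : v.valuation F (n : F) = 1 := valuation_natCast_eq_one hnv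
      simp only [map_mul, map_pow, h2, one_mul] at h1 ⊢
      exact h1
    · rw [map_mul, map_pow, valuation_natCast_eq_one hv, one_pow, one_mul]
      exact h v hv

theorem natCast_notMem_of_coprime {v : HeightOneSpectrum (𝓞 F)} {n : ℕ} (hc : n.Coprime N)
    (hv : (N : 𝓞 F) ∈ v.asIdeal) : (n : 𝓞 F) ∉ v.asIdeal := by
  intro hn'
  obtain ⟨a, b, hab⟩ := Int.isCoprime_iff_gcd_eq_one.mpr (by exact_mod_cast hc :
    Int.gcd (n : ℤ) (N : ℤ) = 1)
  apply v.isPrime.ne_top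
  rw [Ideal.eq_top_iff_one]
  have h1 : (1 : 𝓞 F) = (a : 𝓞 F) * (n : 𝓞 F) + (b : 𝓞 F) * (N : 𝓞 F) := by
    have := congrArg (fun z : ℤ => (z : 𝓞 F)) hab
    push_cast at this
    exact this.symm
  rw [h1]
  exact v.asIdeal.add_mem (v.asIdeal.mul_mem_left _ hn') (v.asIdeal.mul_mem_left _ hv)

theorem mem_AS_iff {x : F} : x ∈ AS F N ↔
    ∀ v : HeightOneSpectrum (𝓞 F), (N : 𝓞 F) ∈ v.asIdeal → v.valuation F x ≤ 1 := by
  constructor
  · rintro ⟨n, -, hc, hi⟩ v hv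
    have h1 := valuation_le_one_of_isIntegral v hi
    rwa [map_mul, valuation_natCast_eq_one (natCast_notMem_of_coprime hc hv), one_mul] at h1
  · intro h
    obtain ⟨j, n, hn, hc, hi⟩ := exists_split N x
    refine ⟨n, hn, hc, isIntegral_of_valuation fun v => ?_⟩
    by_cases hv : (N : 𝓞 F) ∈ v.asIdeal
    · rw [map_mul, valuation_natCast_eq_one (natCast_notMem_of_coprime hc hv), one_mul]
      exact h v hv
    · have h1 := valuation_le_one_of_isIntegral v hi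
      rwa [map_mul, map_pow, valuation_natCast_eq_one hv, one_pow, one_mul] at h1

/-- elements congruent to one modulo `N` are invertible in `AS`. -/
theorem inv_mem_AS {y : F} (h : (N : F)⁻¹ * (y - 1) ∈ AS F N) : y⁻¹ ∈ AS F N := by
  have hN0 : (N : F) ≠ 0 := Nat.cast_ne_zero.mpr (NeZero.ne N)
  rw [mem_AS_iff] at h ⊢
  intro v hv
  have h1 := h v hv
  have hNv : v.valuation F (N : F) < 1 := by
    have h2 : v.valuation F (algebraMap (𝓞 F) F (N : 𝓞 F)) < 1 :=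
      (v.valuation_lt_one_iff_mem (K := F) _).mpr hv
    rwa [map_natCast] at h2
  have h3 : v.valuation F (y - 1) < 1 := by
    have e : y - 1 = (N : F) * ((N : F)⁻¹ * (y - 1)) := by field_simp
    rw [e, map_mul]
    exact mul_lt_one_of_lt_of_le hNv h1
  have h4 : v.valuation F y = 1 := by
    have e : y = 1 + (y - 1) := by ring
    rw [e]
    exact (Valuation.map_one_add_of_lt _ h3)
  rw [map_inv₀, h4, inv_one]

/-- The congruence subgroup modulo `N ^ k`. -/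
def VN (F : Type*) [Field F] [NumberField F] (N k : ℕ) : Subgroup Fˣ where
  carrier := {u | ((N : F) ^ k)⁻¹ * ((u : F) - 1) ∈ AS F N ∧
    ((N : F) ^ k)⁻¹ * (((u⁻¹ : Fˣ) : F) - 1) ∈ AS F N ∧ (u : F) ∈ AS F N ∧ ((u⁻¹ : Fˣ) : F) ∈ AS F N}
  one_mem' := by
    simp only [Set.mem_ofPred_eq, Units.val_one, sub_self, mul_zero, inv_one]
    exact ⟨(AS F N).zero_mem, (AS F N).zero_mem, (AS F N).one_mem, (AS F N).one_mem⟩
  mul_mem' := by
    rintro a b ⟨h1, h2, h3, h4⟩ ⟨g1, g2, g3, g4⟩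
    refine ⟨?_, ?_, ?_, ?_⟩
    · have e : ((N : F) ^ k)⁻¹ * (((a * b : Fˣ) : F) - 1) =
          (((N : F) ^ k)⁻¹ * ((a : F) - 1)) * b + ((N : F) ^ k)⁻¹ * ((b : F) - 1) := by
        push_cast; ring
      rw [e]
      exact (AS F N).add_mem ((AS F N).mul_mem h1 g3) g1
    · have e : ((N : F) ^ k)⁻¹ * ((((a * b)⁻¹ : Fˣ) : F) - 1) =
          (((N : F) ^ k)⁻¹ * (((a⁻¹ : Fˣ) : F) - 1)) * ((b⁻¹ : Fˣ) : F) +
            ((N : F) ^ k)⁻¹ * (((b⁻¹ : Fˣ) : F) - 1) := by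
        rw [mul_inv]; push_cast; ring
      rw [e]
      exact (AS F N).add_mem ((AS F N).mul_mem h2 g4) g2
    · rw [Units.val_mul]; exact (AS F N).mul_mem h3 g3
    · rw [mul_inv, Units.val_mul]; exact (AS F N).mul_mem h4 g4
  inv_mem' := by
    rintro a ⟨h1, h2, h3, h4⟩
    refine ⟨h2, ?_, h4, ?_⟩
    · rwa [inv_inv]
    · rwa [inv_inv]

theorem mem_VN {k : ℕ} {u : Fˣ} : u ∈ VN F N k ↔ ((N : F) ^ k)⁻¹ * ((u : F) - 1) ∈ AS F N ∧
    ((N : F) ^ k)⁻¹ * (((u⁻¹ : Fˣ) : F) - 1) ∈ AS F N ∧ (u : F) ∈ AS F N ∧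
      ((u⁻¹ : Fˣ) : F) ∈ AS F N := Iff.rfl

theorem natCast_mul_mem {x : F} (n : ℕ) (h : x ∈ AS F N) : (n : F) * x ∈ AS F N :=
  (AS F N).mul_mem (natCast_mem_AS n) h

theorem mem_VN_iff {k : ℕ} (hk : k ≠ 0) {u : Fˣ} :
    u ∈ VN F N k ↔ ((N : F) ^ k)⁻¹ * ((u : F) - 1) ∈ AS F N := by
  refine ⟨fun h => h.1, fun h => ?_⟩
  have hN0 : (N : F) ≠ 0 := Nat.cast_ne_zero.mpr (NeZero.ne N)
  have hu0 : (u : F) ≠ 0 := u.ne_zero
  obtain ⟨k, rfl⟩ := Nat.exists_eq_succ_of_ne_zero hk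
  have h1 : (N : F)⁻¹ * ((u : F) - 1) ∈ AS F N := by
    have e : (N : F)⁻¹ * ((u : F) - 1) = ((N ^ k : ℕ) : F) * (((N : F) ^ (k + 1))⁻¹ * ((u : F) - 1)) := by
      push_cast
      rw [pow_succ]
      field_simp
    rw [e]
    exact natCast_mul_mem _ h
  have h2 : (u : F) ∈ AS F N := by
    have e : (u : F) = 1 + (N : F) * ((N : F)⁻¹ * ((u : F) - 1)) := by field_simp; ring
    rw [e]
    exact (AS F N).add_mem (AS F N).one_mem (natCast_mul_mem _ h1)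
  have h3 : ((u⁻¹ : Fˣ) : F) ∈ AS F N := by
    rw [Units.val_inv_eq_inv_val]
    exact inv_mem_AS h1
  refine ⟨h, ?_, h2, h3⟩
  have e : ((N : F) ^ (k + 1))⁻¹ * (((u⁻¹ : Fˣ) : F) - 1) =
      -((((N : F) ^ (k + 1))⁻¹ * ((u : F) - 1)) * ((u⁻¹ : Fˣ) : F)) := by
    rw [Units.val_inv_eq_inv_val]
    field_simp
    ring
  rw [e]
  exact (AS F N).neg_mem ((AS F N).mul_mem h h3)

theorem VN_mono {k l : ℕ} (h : k ≤ l) : VN F N l ≤ VN F N k := by
  intro u hu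
  have hN0 : (N : F) ≠ 0 := Nat.cast_ne_zero.mpr (NeZero.ne N)
  have key : ∀ x : F, ((N : F) ^ l)⁻¹ * x ∈ AS F N → ((N : F) ^ k)⁻¹ * x ∈ AS F N := by
    intro x hx
    have e : ((N : F) ^ k)⁻¹ * x = ((N ^ (l - k) : ℕ) : F) * (((N : F) ^ l)⁻¹ * x) := by
      have h1 : (N : F) ^ l = (N : F) ^ k * (N : F) ^ (l - k) := by
        rw [← pow_add, Nat.add_sub_cancel' h]
      rw [h1]
      push_cast
      field_simp
    rw [e]
    exact natCast_mul_mem _ hx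
  exact ⟨key _ hu.1, key _ hu.2.1, hu.2.2.1, hu.2.2.2⟩

/-- `T` in terms of the congruence subgroup. -/
theorem mem_T_iff_VN {k : ℕ} (hk : k ≠ 0) {h x : Fˣ} :
    (x : F) ∈ T N (h : F) k ↔ (x : F) ∈ RS F N ∧ x * h⁻¹ ∈ VN F N k := by
  rw [mem_T, mem_VN_iff hk]
  have hN0 : (N : F) ≠ 0 := Nat.cast_ne_zero.mpr (NeZero.ne N)
  have hh0 : (h : F) ≠ 0 := h.ne_zero
  have e : ((h : F) * (N : F) ^ k)⁻¹ * ((x : F) - h) =
      ((N : F) ^ k)⁻¹ * (((x * h⁻¹ : Fˣ) : F) - 1) := by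
    push_cast
    field_simp
  rw [e]

/-- The `N`-units. -/
def RU (F : Type*) [Field F] [NumberField F] (N : ℕ) : Subgroup Fˣ where
  carrier := {u | (u : F) ∈ RS F N ∧ ((u⁻¹ : Fˣ) : F) ∈ RS F N}
  one_mem' := by
    simp only [Set.mem_ofPred_eq, Units.val_one, inv_one]
    exact ⟨(RS F N).one_mem, (RS F N).one_mem⟩
  mul_mem' := by
    rintro a b ⟨h1, h2⟩ ⟨g1, g2⟩
    refine ⟨?_, ?_⟩
    · rw [Units.val_mul]; exact (RS F N).mul_mem h1 g1
    · rw [mul_inv, Units.val_mul]; exact (RS F N).mul_mem h2 g2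
  inv_mem' := by
    rintro a ⟨h1, h2⟩
    exact ⟨h2, by rwa [inv_inv]⟩

theorem mem_RU {u : Fˣ} : u ∈ RU F N ↔ (u : F) ∈ RS F N ∧ ((u⁻¹ : Fˣ) : F) ∈ RS F N := Iff.rfl

theorem mem_RS_iff_ord {x : Fˣ} : (x : F) ∈ RS F N ↔
    ∀ v : HeightOneSpectrum (𝓞 F), (N : 𝓞 F) ∉ v.asIdeal → 0 ≤ ord v x := by
  rw [mem_RS_iff]
  exact forall₂_congr fun v _ => (CFT.SUnits.ord_nonneg_iff _ _ x).symm

theorem mem_AS_iff_ord {x : Fˣ} : (x : F) ∈ AS F N ↔
    ∀ v : HeightOneSpectrum (𝓞 F), (N : 𝓞 F) ∈ v.asIdeal → 0 ≤ ord v x := by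
  rw [mem_AS_iff]
  exact forall₂_congr fun v _ => (CFT.SUnits.ord_nonneg_iff _ _ x).symm

theorem mem_RU_iff {u : Fˣ} : u ∈ RU F N ↔ u ∈ Fermat.Agent.CFT.Global.E (pl F N) := by
  rw [mem_RU, mem_RS_iff_ord, mem_RS_iff_ord, mem_E]
  constructor
  · rintro ⟨h1, h2⟩ v hv
    rw [mem_pl] at hv
    have := h1 v hv
    have h3 := h2 v hv
    rw [ord_inv] at h3
    omega
  · intro h
    refine ⟨fun v hv => ?_, fun v hv => ?_⟩
    · rw [h v (by rwa [mem_pl])]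
    · rw [ord_inv, h v (by rwa [mem_pl])]; simp

theorem ord_eq_zero_of_mem_VN {k : ℕ} {u : Fˣ} (h : u ∈ VN F N k)
    {v : HeightOneSpectrum (𝓞 F)} (hv : (N : 𝓞 F) ∈ v.asIdeal) : ord v u = 0 := by
  have h1 := mem_AS_iff_ord.mp h.2.2.1 v hv
  have h2 := mem_AS_iff_ord.mp h.2.2.2 v hv
  rw [ord_inv] at h2
  omega

end Fermat.Agent.LT.B11
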