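import Fermat.Agent.LT.B11.Inst
import Fermat.Agent.LT.Coef.Inst

/-!
# The data `datT` for a tower (`TowerData` of block B10) and the final statement `IsFormA`
-/

set_option autoImplicit false
set_option linter.unusedSectionVars false

noncomputable section

namespace Fermat.Agent.LT.B11

open IsDedekindDomain NumberField WithZero Matrix
open Fermat.Agent.CFT.SUnits (ord ord_one ord_mul ord_inv ord_pow ord_div ord_eq_zero_iff
  valuation_eq_exp_neg_ord finite_ord_ne_zero div div_apply)
open Fermat.Agent.CFT.Places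
open Fermat.Agent.CFT.Global (mem_E above mem_above normU ClTrivial cong mem_cong)
open Fermat.Agent.LT.Psi
open Fermat.Agent.LT.SAd
open Fermat.Agent.LT.Coef (chi4 chi4_apply)

section Frame

variable {F E M : Type} [Field F] [NumberField F] [Field E] [NumberField E] [Field M]
  [NumberField M] [Algebra F E] [Algebra E M] [Algebra F M] [IsScalarTower F E M]
  [IsTotallyComplex F] {N : ℕ} [NeZero N] (T : TowerData F E M (pl F N)) {n : ℕ}
  {ψ : HeightOneSpectrum (𝓞 E) → ZMod 4} (hψ : PsiChar (pl F N) T.c T.a n ψ)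
  {k : ℕ} (hk : n + 1 ≤ k)

/-- **The data of the theta family of a tower.** -/
def datT : Dat Eˣ Fˣ (Xi F) :=
  haveI := T.galois_FE
  datE T.finrank_FE T.c_ne_one hψ hk chi4

theorem datT_q : (datT T hψ hk).q = normU (K := F) E := rfl

theorem datT_Op (x : Eˣ) : x ∈ (datT T hψ hk).Op ↔ ∀ w ∉ above E (pl F N), 0 ≤ ord w x := by
  haveI := T.galois_FE
  have e : x ∈ (datT T hψ hk).Op ↔ (x : E) ∈ RS E N := Iff.rfl
  rw [e, mem_RS_iff_ord]
  refine forall_congr' fun w => ?_
  rw [mem_pl_above, mem_pl]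

theorem datT_EA : (datT T hψ hk).EA = CFT.Global.E (above E (pl F N)) := rfl

theorem datT_EB : (datT T hψ hk).EB = CFT.Global.E (pl F N) := rfl

theorem datT_psi (x : Eˣ) :
    (datT T hψ hk).ψ x = ip (rayVal (above E (pl F N)) ψ x).toAdd := rfl

theorem datT_VB : (datT T hψ hk).VB = VN F N k := rfl

theorem datT_VA : (datT T hψ hk).VA = VN E N k := rfl

theorem datT_s (d : Fˣ) : (datT T hψ hk).s d = Real.sqrt (nR F N d) / nI d := rfl

theorem datT_nI (d : Fˣ) : (datT T hψ hk).nI d = nI d := rfl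

theorem datT_eta (d : Fˣ) : (datT T hψ hk).η d =
    ip (dbl (rayVal (pl F N) (kum T.a) d).toAdd) := rfl

theorem datT_W (P : Xi F) (ξ : Fˣ) : (datT T hψ hk).W P ξ = wh P ξ := rfl

theorem datT_act (b : Fˣ) (P : Xi F) : (datT T hψ hk).act b P = dg b • P := rfl

theorem ord_of_mem_datT_VB {b : Fˣ} (hb : b ∈ (datT T hψ hk).VB) :
    ∀ v ∈ pl F N, ord v b = 0 := fun _ hv => ord_eq_zero_of_mem_VN hb (mem_pl.mp hv)

end Frame

end Fermat.Agent.LT.B11
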