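import Fermat.Agent.LT.BesselAsymp
import Fermat.Agent.LT.B11.Wh

/-!
# Convergence, growth and continuity of Fourier-Bessel expansions on `(ℍ³)ⁿ`

`F` a totally complex number field.  `wh P ξ = ∏_w y_w K₀(4π|ξ_w|y_w) e(2 Re(ξ_w z_w))`.
-/

set_option autoImplicit false

noncomputable section

namespace Fermat.Agent.LT.B11

open NumberField Fermat.Agent.LT

section Trace

variable (F : Type*) [Field F] [NumberField F]

variable {F} in
/-- the sum of the absolute values -/
def tn (a : F) : ℝ := ∑ w : InfinitePlace F, w a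

variable {F}

theorem tn_nonneg (a : F) : 0 ≤ tn a := Finset.sum_nonneg fun w _ => apply_nonneg w a

theorem le_tn (w : InfinitePlace F) (a : F) : w a ≤ tn a :=
  Finset.single_le_sum (f := fun w : InfinitePlace F => w a) (fun w _ => apply_nonneg w a)
    (Finset.mem_univ w)

theorem tn_natCast_mul (n : ℕ) (a : F) : tn ((n : F) * a) = n * tn a := by
  unfold tn
  rw [Finset.mul_sum]
  refine Finset.sum_congr rfl fun w _ => ?_
  rw [map_mul]
  congr 1
  rw [← w.norm_embedding_eq, map_natCast, Complex.norm_natCast]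

open scoped Classical in
theorem norm_mixedEmbedding_le (a : F) : ‖mixedEmbedding F a‖ ≤ tn a := by
  rw [mixedEmbedding.norm_eq_sup'_normAtPlace]
  refine Finset.sup'_le _ _ fun w _ => ?_
  rw [mixedEmbedding.normAtPlace_apply]
  exact le_tn w a

/-- lattice sum over the ring of integers -/
theorem summable_ringOfIntegers {B : ℕ} (hB : Module.finrank ℚ F < B) :
    Summable fun a : 𝓞 F => ((1 + tn (a : F)) ^ B)⁻¹ := by
  classical
  set L := mixedEmbedding.integerLattice F with hL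
  have hr : Module.finrank ℤ L = Module.finrank ℚ F := by
    rw [ZLattice.rank ℝ L, mixedEmbedding.finrank]
  have h1 : Summable fun z : L => ‖(z : mixedEmbedding.mixedSpace F)‖ ^ (-(B : ℝ)) :=
    ZLattice.summable_norm_rpow L _ (by rw [hr]; exact neg_lt_neg (by exact_mod_cast hB))
  have hinj : Function.Injective fun a : 𝓞 F => (⟨mixedEmbedding F (a : F), ⟨a, rfl⟩⟩ : L) := by
    intro a b h
    have h' : mixedEmbedding F (a : F) = mixedEmbedding F (b : F) := congrArg Subtype.val h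
    exact RingOfIntegers.ext (mixedEmbedding_injective F h')
  have h2 := h1.comp_injective hinj
  refine (summable_of_finite_support (f := fun a : 𝓞 F => if a = 0 then (1 : ℝ) else 0)
    ((Set.finite_singleton (0 : 𝓞 F)).subset fun a ha => ?_) |>.add h2).of_nonneg_of_le
    (fun a => ?_) fun a => ?_
  · by_contra h
    apply ha
    exact if_neg h
  · have := tn_nonneg (a : F)
    positivity
  · have hT := tn_nonneg (a : F)
    by_cases ha : a = 0
    · subst ha
      rw [if_pos rfl]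
      have h3 : ((1 + tn ((0 : 𝓞 F) : F)) ^ B)⁻¹ ≤ 1 := inv_le_one_of_one_le₀
        (one_le_pow₀ (by linarith))
      have h4 : 0 ≤ ‖mixedEmbedding F ((0 : 𝓞 F) : F)‖ ^ (-(B : ℝ)) :=
        Real.rpow_nonneg (norm_nonneg _) _
      exact h3.trans (le_add_of_nonneg_right h4)
    · rw [if_neg ha, zero_add]
      have h3 : 0 < ‖mixedEmbedding F (a : F)‖ := by
        rw [norm_pos_iff, map_ne_zero]
        simpa using ha
      change _ ≤ ‖mixedEmbedding F (a : F)‖ ^ (-(B : ℝ))
      rw [Real.rpow_neg h3.le, Real.rpow_natCast]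
      refine inv_anti₀ (by positivity) (pow_le_pow_left₀ h3.le ?_ B)
      have := norm_mixedEmbedding_le (a : F)
      linarith

/-- lattice sum over a fractional ideal `N₀⁻¹ 𝓞` -/
theorem summable_frac {N₀ : ℕ} (h0 : N₀ ≠ 0) {B : ℕ} (hB : Module.finrank ℚ F < B) :
    Summable fun a : {a : F // IsIntegral ℤ ((N₀ : F) * a)} => ((1 + tn (a : F)) ^ B)⁻¹ := by
  have h1 := (summable_ringOfIntegers (F := F) hB).mul_left ((N₀ : ℝ) ^ B)
  have hN : (N₀ : F) ≠ 0 := Nat.cast_ne_zero.mpr h0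
  let f : {a : F // IsIntegral ℤ ((N₀ : F) * a)} → 𝓞 F := fun a => ⟨(N₀ : F) * a.1, a.2⟩
  have hf : Function.Injective f := by
    intro a b h
    have h' : (N₀ : F) * a.1 = (N₀ : F) * b.1 := congrArg (fun x : 𝓞 F => (x : F)) h
    exact Subtype.ext (mul_left_cancel₀ hN h')
  refine (h1.comp_injective hf).of_nonneg_of_le (fun a => ?_) fun a => ?_
  · have := tn_nonneg (a : F)
    positivity
  · have hT := tn_nonneg (a : F)
    have h2 : tn ((f a : 𝓞 F) : F) = N₀ * tn (a : F) := tn_natCast_mul N₀ a.1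
    change _ ≤ (N₀ : ℝ) ^ B * ((1 + tn ((f a : 𝓞 F) : F)) ^ B)⁻¹
    have hN1 : (1 : ℝ) ≤ N₀ := by exact_mod_cast Nat.one_le_iff_ne_zero.mpr h0
    rw [h2, ← div_eq_mul_inv, le_div_iff₀ (by positivity), inv_mul_le_iff₀ (by positivity),
      ← mul_pow]
    refine pow_le_pow_left₀ (by positivity) ?_ B
    nlinarith

end Trace


/-! ### The Whittaker function -/

section Wh

variable {F : Type*} [Field F] [NumberField F]

/-- `r y K₀(4π r y) ≤ C e^{-2π r y}` -/
theorem exists_norm_besselK_zero_le : ∃ C : ℝ, 0 < C ∧ ∀ r y : ℝ, 0 < r → 0 < y →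
    ‖(y : ℂ) * besselK 0 (4 * Real.pi * r * y)‖ ≤ C / r * Real.exp (-(2 * Real.pi * (r * y))) := by
  obtain ⟨C, hC, h⟩ := exists_bkR_le (σ := 0) (s := 1) (by norm_num)
  refine ⟨C / (4 * Real.pi), by positivity, fun r y hr hy => ?_⟩
  have hpi := Real.pi_pos
  set t : ℝ := 4 * Real.pi * r * y with ht
  have ht0 : 0 < t := by positivity
  have h1 : ‖besselK 0 t‖ ≤ Real.exp (-(t - t / 2)) * bkR 0 (t / 2) / 2 := by
    have := norm_besselK_le 0 t
    rw [Complex.zero_re] at this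
    have h2 := bkR_le_exp_mul 0 (half_pos ht0) (half_le_self ht0.le)
    linarith
  have h2 := h (t / 2) (half_pos ht0)
  rw [Real.rpow_neg_one] at h2
  rw [norm_mul, Complex.norm_real, Real.norm_of_nonneg hy.le]
  have h3 : t - t / 2 = 2 * Real.pi * (r * y) := by rw [ht]; ring
  rw [h3] at h1
  have h4 := (Real.exp_pos (-(2 * Real.pi * (r * y)))).le
  calc y * ‖besselK 0 t‖ ≤ y * (Real.exp (-(2 * Real.pi * (r * y))) * (C * (t / 2)⁻¹) / 2) := by
        refine mul_le_mul_of_nonneg_left (h1.trans ?_) hy.le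
        have := mul_le_mul_of_nonneg_left h2 h4
        linarith
    _ = C / (4 * Real.pi) / r * Real.exp (-(2 * Real.pi * (r * y))) := by
        rw [ht]
        field_simp

theorem exists_norm_wh_le [IsTotallyComplex F] {N₀ : ℕ} (h0 : N₀ ≠ 0) : ∃ C : ℝ, 0 < C ∧
    ∀ (P : Xi F) (ξ : F), ξ ≠ 0 → IsIntegral ℤ ((N₀ : F) * ξ) →
      ‖wh P ξ‖ ≤ C * Real.exp (-(2 * Real.pi * ∑ w : InfinitePlace F, w ξ * (P w).y)) := by
  obtain ⟨C, hC, h⟩ := exists_norm_besselK_zero_le
  set n := Fintype.card (InfinitePlace F) with hn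
  refine ⟨C ^ n * N₀ ^ n, by positivity, fun P ξ hξ hint => ?_⟩
  have hpos : ∀ w : InfinitePlace F, 0 < w ξ := fun w => w.pos_iff.mpr hξ
  have h1 : ‖wh P ξ‖ ≤ ∏ w : InfinitePlace F,
      (C / w ξ * Real.exp (-(2 * Real.pi * (w ξ * (P w).y)))) := by
    unfold wh
    rw [norm_prod]
    refine Finset.prod_le_prod (fun _ _ => norm_nonneg _) fun w _ => ?_
    rw [norm_mul]
    have h2 : ‖Complex.exp (2 * Real.pi * Complex.I *
        ((2 * (w.embedding ξ * (P w).z).re : ℝ) : ℂ))‖ = 1 := by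
      have : 2 * Real.pi * Complex.I * ((2 * (w.embedding ξ * (P w).z).re : ℝ) : ℂ) =
          ((2 * Real.pi * (2 * (w.embedding ξ * (P w).z).re) : ℝ) : ℂ) * Complex.I := by
        push_cast
        ring
      rw [this, Complex.norm_exp_ofReal_mul_I]
    rw [h2, mul_one, w.norm_embedding_eq]
    exact h _ _ (hpos w) (P w).y_pos
  refine h1.trans ?_
  rw [Finset.prod_mul_distrib, ← Real.exp_sum]
  have h3 : ∑ w : InfinitePlace F, -(2 * Real.pi * (w ξ * (P w).y)) =
      -(2 * Real.pi * ∑ w : InfinitePlace F, w ξ * (P w).y) := by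
    rw [Finset.sum_neg_distrib, Finset.mul_sum]
  rw [h3]
  refine mul_le_mul_of_nonneg_right ?_ (Real.exp_pos _).le
  rw [Finset.prod_div_distrib, Finset.prod_const, Finset.card_univ, ← hn, div_eq_mul_inv]
  refine mul_le_mul_of_nonneg_left ?_ (by positivity)
  have h4 : (1 : ℝ) ≤ ∏ w : InfinitePlace F, (N₀ * w ξ) := by
    have h5 := InfinitePlace.prod_eq_abs_norm ((N₀ : F) * ξ)
    have h6 : ∀ w : InfinitePlace F, w ((N₀ : F) * ξ) ^ w.mult = (N₀ * w ξ) ^ 2 := by
      intro w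
      rw [IsTotallyComplex.mult_eq, map_mul]
      congr 2
      rw [← w.norm_embedding_eq, map_natCast, Complex.norm_natCast]
    simp_rw [h6] at h5
    rw [Finset.prod_pow] at h5
    have h7 : (1 : ℝ) ≤ |(Algebra.norm ℚ ((N₀ : F) * ξ) : ℚ)| := by
      have hne : Algebra.norm ℚ ((N₀ : F) * ξ) ≠ 0 :=
        Algebra.norm_ne_zero_iff.mpr (mul_ne_zero (Nat.cast_ne_zero.mpr h0) hξ)
      obtain ⟨m, hm⟩ : ∃ m : ℤ, (m : ℚ) = Algebra.norm ℚ ((N₀ : F) * ξ) := by
        have := (Algebra.isIntegral_norm ℚ hint)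
        exact IsIntegrallyClosed.isIntegral_iff.mp this
      rw [← hm] at hne ⊢
      have : (1 : ℤ) ≤ |m| := Int.one_le_abs (by exact_mod_cast hne)
      exact_mod_cast this
    rw [← h5] at h7
    have h8 : (0 : ℝ) ≤ ∏ w : InfinitePlace F, (N₀ * w ξ) :=
      Finset.prod_nonneg fun w _ => mul_nonneg (Nat.cast_nonneg _) (hpos w).le
    nlinarith
  rw [Finset.prod_mul_distrib, Finset.prod_const, Finset.card_univ, ← hn] at h4
  have h9 : 0 < ∏ w : InfinitePlace F, w ξ := Finset.prod_pos fun w _ => hpos w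
  rw [inv_le_iff_one_le_mul₀ h9]
  linarith

/-- `∏_w max(1, 1/y_w)` -/
def lw (P : Xi F) : ℝ := ∏ w : InfinitePlace F, max 1 (P w).y⁻¹

theorem one_le_lw (P : Xi F) : 1 ≤ lw P :=
  Finset.one_le_prod fun _ _ => le_max_left _ _

theorem inv_lw_le (P : Xi F) (w : InfinitePlace F) : (lw P)⁻¹ ≤ (P w).y := by
  have h1 : (P w).y⁻¹ ≤ lw P := by
    refine (le_max_right 1 _).trans ?_
    classical
    rw [lw, ← Finset.mul_prod_erase _ _ (Finset.mem_univ w)]
    exact le_mul_of_one_le_right (zero_le_one.trans (le_max_left _ _))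
      (Finset.one_le_prod fun _ _ => le_max_left _ _)
  exact inv_le_of_inv_le₀ (P w).y_pos h1

theorem continuous_lw : Continuous (lw : (Xi F) → ℝ) := by
  unfold lw
  refine continuous_finset_prod _ fun w _ => continuous_const.max ?_
  exact (H3.continuous_y.comp (continuous_apply w)).inv₀ fun P => (P w).y_ne

theorem tn_div_le (P : Xi F) {M : ℝ} (hM : lw P ≤ M) (ξ : F) :
    tn ξ / M ≤ ∑ w : InfinitePlace F, w ξ * (P w).y := by
  have h0 : 0 < lw P := zero_lt_one.trans_le (one_le_lw P)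
  unfold tn
  rw [Finset.sum_div]
  refine Finset.sum_le_sum fun w _ => ?_
  rw [div_eq_mul_inv]
  refine mul_le_mul_of_nonneg_left ?_ (apply_nonneg w ξ)
  exact (inv_anti₀ h0 hM).trans (inv_lw_le P w)

theorem pow_mul_exp_le {k : ℕ} {M t : ℝ} (hM : 1 ≤ M) (ht : 0 ≤ t) :
    (1 + t) ^ k * Real.exp (-(2 * Real.pi * (t / M))) ≤ (k.factorial * Real.exp 1) * M ^ k := by
  have hM0 : 0 < M := by linarith
  set s : ℝ := t / M with hs
  have hs0 : 0 ≤ s := div_nonneg ht hM0.le
  have h1 : 1 + t ≤ M * (1 + s) := by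
    rw [hs, mul_add, mul_div_cancel₀ _ hM0.ne']
    linarith
  have h2 : (1 + s) ^ k ≤ k.factorial * Real.exp (1 + s) := by
    have := Real.pow_div_factorial_le_exp (1 + s) (by linarith) k
    rwa [div_le_iff₀' (by positivity)] at this
  have h3 : Real.exp (1 + s) * Real.exp (-(2 * Real.pi * s)) ≤ Real.exp 1 := by
    rw [← Real.exp_add]
    refine Real.exp_le_exp.mpr ?_
    have := Real.pi_gt_three
    nlinarith
  have h4 := (Real.exp_pos (-(2 * Real.pi * s))).le
  calc (1 + t) ^ k * Real.exp (-(2 * Real.pi * s))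
      ≤ (M * (1 + s)) ^ k * Real.exp (-(2 * Real.pi * s)) :=
        mul_le_mul_of_nonneg_right (pow_le_pow_left₀ (by linarith) h1 k) h4
    _ = M ^ k * ((1 + s) ^ k * Real.exp (-(2 * Real.pi * s))) := by rw [mul_pow]; ring
    _ ≤ M ^ k * ((k.factorial * Real.exp (1 + s)) * Real.exp (-(2 * Real.pi * s))) :=
        mul_le_mul_of_nonneg_left (mul_le_mul_of_nonneg_right h2 h4) (by positivity)
    _ = M ^ k * (k.factorial * (Real.exp (1 + s) * Real.exp (-(2 * Real.pi * s)))) := by ring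
    _ ≤ M ^ k * (k.factorial * Real.exp 1) :=
        mul_le_mul_of_nonneg_left (mul_le_mul_of_nonneg_left h3 (by positivity)) (by positivity)
    _ = _ := by ring

end Wh

/-! ### Families of coefficients -/

section Mass

variable {F : Type*} [Field F] [NumberField F] {ι : Type*}

/-- a family of coefficients of moderate growth, supported in `N₀⁻¹ 𝓞 ∖ 0` -/
structure Mass (N₀ : ℕ) (A : ℕ) (C₀ : ℝ) (ξ : ι → F) (c : ι → ℂ) : Prop where
  ne : ∀ i, c i ≠ 0 → ξ i ≠ 0
  int : ∀ i, c i ≠ 0 → IsIntegral ℤ ((N₀ : F) * ξ i)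
  mass : ∀ (a : F) (s : Finset ι), (∀ i ∈ s, ξ i = a) → ∑ i ∈ s, ‖c i‖ ≤ C₀ * (1 + tn a) ^ A

variable {N₀ A : ℕ} {C₀ : ℝ} {ξ : ι → F} {c : ι → ℂ}

theorem Mass.sum_le (h : Mass N₀ A C₀ ξ c) {g : F → ℝ} (hg : ∀ a, 0 ≤ g a)
    (hs : Summable fun a : {a : F // IsIntegral ℤ ((N₀ : F) * a)} => C₀ * (1 + tn (a : F)) ^ A * g a)
    (s : Finset ι) : ∑ i ∈ s, ‖c i‖ * g (ξ i) ≤
      ∑' a : {a : F // IsIntegral ℤ ((N₀ : F) * a)}, C₀ * (1 + tn (a : F)) ^ A * g a := by
  classical
  have hC : 0 ≤ C₀ := by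
    have := h.mass 0 ∅ (by simp)
    have h2 : tn (0 : F) = 0 := by simp [tn]
    rw [h2] at this
    simpa using this
  have h1 : ∑ i ∈ s, ‖c i‖ * g (ξ i) = ∑ i ∈ s.filter (fun i => c i ≠ 0), ‖c i‖ * g (ξ i) := by
    rw [Finset.sum_filter]
    refine Finset.sum_congr rfl fun i _ => ?_
    split_ifs with hc
    · rfl
    · rw [not_not] at hc
      rw [hc, norm_zero, zero_mul]
  rw [h1]
  set s' := s.filter (fun i => c i ≠ 0) with hs'
  have hmem : ∀ i ∈ s', IsIntegral ℤ ((N₀ : F) * ξ i) := by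
    intro i hi
    exact h.int i (Finset.mem_filter.mp hi).2
  set T : Finset F := s'.image ξ with hT
  have hTint : ∀ a ∈ T, IsIntegral ℤ ((N₀ : F) * a) := by
    intro a ha
    obtain ⟨i, hi, rfl⟩ := Finset.mem_image.mp ha
    exact hmem i hi
  rw [← Finset.sum_fiberwise_of_maps_to (t := T) (g := ξ)
    (fun i hi => Finset.mem_image_of_mem ξ hi)]
  have h2 : ∀ a ∈ T, ∑ i ∈ s' with ξ i = a, ‖c i‖ * g (ξ i) ≤ C₀ * (1 + tn a) ^ A * g a := by
    intro a _
    have h3 : ∑ i ∈ s' with ξ i = a, ‖c i‖ * g (ξ i) = (∑ i ∈ s' with ξ i = a, ‖c i‖) * g a := by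
      rw [Finset.sum_mul]
      refine Finset.sum_congr rfl fun i hi => ?_
      rw [(Finset.mem_filter.mp hi).2]
    rw [h3]
    exact mul_le_mul_of_nonneg_right (h.mass a _ fun i hi => (Finset.mem_filter.mp hi).2) (hg a)
  refine (Finset.sum_le_sum h2).trans ?_
  have h4 : ∑ a ∈ T, C₀ * (1 + tn a) ^ A * g a =
      ∑ a ∈ T.subtype (fun a => IsIntegral ℤ ((N₀ : F) * a)),
        C₀ * (1 + tn (a : F)) ^ A * g (a : F) := by
    rw [Finset.sum_subtype_of_mem (fun a => C₀ * (1 + tn a) ^ A * g a) hTint]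
  rw [h4]
  refine hs.sum_le_tsum _ fun a _ => ?_
  have := tn_nonneg (a : F)
  have := hg a
  positivity

theorem summable_majorant {N₀ : ℕ} (h0 : N₀ ≠ 0) (A : ℕ) (C₀ : ℝ) (hC : 0 ≤ C₀) : ∃ C : ℝ, 0 ≤ C ∧
    ∀ M : ℝ, 1 ≤ M → Summable (fun a : {a : F // IsIntegral ℤ ((N₀ : F) * a)} =>
      C₀ * (1 + tn (a : F)) ^ A * Real.exp (-(2 * Real.pi * (tn (a : F) / M)))) ∧
      ∑' a : {a : F // IsIntegral ℤ ((N₀ : F) * a)},
        C₀ * (1 + tn (a : F)) ^ A * Real.exp (-(2 * Real.pi * (tn (a : F) / M))) ≤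
        C * M ^ (A + (Module.finrank ℚ F + 1)) := by
  set B := Module.finrank ℚ F + 1 with hB
  have h1 := summable_frac (F := F) h0 (B := B) (Nat.lt_succ_self _)
  set K : ℝ := C₀ * ((A + B).factorial * Real.exp 1) with hK
  have hK0 : 0 ≤ K := by positivity
  have key : ∀ M : ℝ, 1 ≤ M → ∀ a : {a : F // IsIntegral ℤ ((N₀ : F) * a)},
      C₀ * (1 + tn (a : F)) ^ A * Real.exp (-(2 * Real.pi * (tn (a : F) / M))) ≤
        (K * M ^ (A + B)) * ((1 + tn (a : F)) ^ B)⁻¹ := by
    intro M hM a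
    have ht := tn_nonneg (a : F)
    have h2 := pow_mul_exp_le (k := A + B) hM ht
    rw [← div_eq_mul_inv, le_div_iff₀ (by positivity)]
    calc C₀ * (1 + tn (a : F)) ^ A * Real.exp (-(2 * Real.pi * (tn (a : F) / M))) *
          (1 + tn (a : F)) ^ B
        = C₀ * ((1 + tn (a : F)) ^ (A + B) * Real.exp (-(2 * Real.pi * (tn (a : F) / M)))) := by
          rw [pow_add]; ring
      _ ≤ C₀ * (((A + B).factorial * Real.exp 1) * M ^ (A + B)) :=
          mul_le_mul_of_nonneg_left h2 hC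
      _ = K * M ^ (A + B) := by rw [hK]; ring
  refine ⟨K * ∑' a : {a : F // IsIntegral ℤ ((N₀ : F) * a)}, ((1 + tn (a : F)) ^ B)⁻¹,
    mul_nonneg hK0 (tsum_nonneg fun a => ?_), fun M hM => ?_⟩
  · have := tn_nonneg (a : F)
    positivity
  · have hs : Summable (fun a : {a : F // IsIntegral ℤ ((N₀ : F) * a)} =>
        C₀ * (1 + tn (a : F)) ^ A * Real.exp (-(2 * Real.pi * (tn (a : F) / M)))) := by
      refine (h1.mul_left (K * M ^ (A + B))).of_nonneg_of_le (fun a => ?_) (key M hM)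
      have := tn_nonneg (a : F)
      positivity
    refine ⟨hs, (hs.tsum_le_tsum (key M hM) (h1.mul_left _)).trans_eq ?_⟩
    rw [tsum_mul_left]
    ring

theorem Mass.C₀_nonneg (h : Mass N₀ A C₀ ξ c) : 0 ≤ C₀ := by
  have := h.mass 0 ∅ (by simp)
  have h2 : tn (0 : F) = 0 := by simp [tn]
  rw [h2] at this
  simpa using this

/-- **(H1)** absolute convergence and moderate growth -/
theorem Mass.growth [IsTotallyComplex F] (h : Mass N₀ A C₀ ξ c) (h0 : N₀ ≠ 0) :
    ∃ C : ℝ, 0 ≤ C ∧ ∀ P : Xi F, Summable (fun i => ‖c i * wh P (ξ i)‖) ∧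
      ∑' i, ‖c i * wh P (ξ i)‖ ≤ C * lw P ^ (A + (Module.finrank ℚ F + 1)) := by
  obtain ⟨C, hC, hmaj⟩ := summable_majorant (F := F) h0 A C₀ h.C₀_nonneg
  obtain ⟨K, hK, hwh⟩ := exists_norm_wh_le (F := F) h0
  refine ⟨K * C, by positivity, fun P => ?_⟩
  obtain ⟨hs, hle⟩ := hmaj (lw P) (one_le_lw P)
  have h1 : ∀ i, ‖c i * wh P (ξ i)‖ ≤
      K * (‖c i‖ * Real.exp (-(2 * Real.pi * (tn (ξ i) / lw P)))) := by
    intro i
    by_cases hc : c i = 0
    · rw [hc, zero_mul, norm_zero, zero_mul, mul_zero]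
    · rw [norm_mul]
      have h2 := hwh P (ξ i) (h.ne i hc) (h.int i hc)
      have h3 : Real.exp (-(2 * Real.pi * ∑ w : InfinitePlace F, w (ξ i) * (P w).y)) ≤
          Real.exp (-(2 * Real.pi * (tn (ξ i) / lw P))) := by
        refine Real.exp_le_exp.mpr (neg_le_neg ?_)
        exact mul_le_mul_of_nonneg_left (tn_div_le P le_rfl (ξ i)) (by positivity)
      calc ‖c i‖ * ‖wh P (ξ i)‖ ≤ ‖c i‖ * (K * Real.exp (-(2 * Real.pi * (tn (ξ i) / lw P)))) :=
            mul_le_mul_of_nonneg_left (h2.trans (mul_le_mul_of_nonneg_left h3 hK.le))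
              (norm_nonneg _)
        _ = _ := by ring
  have h2 : ∀ s : Finset ι, ∑ i ∈ s, ‖c i * wh P (ξ i)‖ ≤
      K * C * lw P ^ (A + (Module.finrank ℚ F + 1)) := by
    intro s
    calc ∑ i ∈ s, ‖c i * wh P (ξ i)‖
        ≤ ∑ i ∈ s, K * (‖c i‖ * Real.exp (-(2 * Real.pi * (tn (ξ i) / lw P)))) :=
          Finset.sum_le_sum fun i _ => h1 i
      _ = K * ∑ i ∈ s, ‖c i‖ * Real.exp (-(2 * Real.pi * (tn (ξ i) / lw P))) := by
          rw [Finset.mul_sum]
      _ ≤ K * (C * lw P ^ (A + (Module.finrank ℚ F + 1))) := by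
          refine mul_le_mul_of_nonneg_left ?_ hK.le
          exact (h.sum_le (g := fun a => Real.exp (-(2 * Real.pi * (tn a / lw P))))
            (fun a => (Real.exp_pos _).le) hs s).trans hle
      _ = _ := by ring
  have h3 : Summable (fun i => ‖c i * wh P (ξ i)‖) :=
    summable_of_sum_le (fun i => norm_nonneg _) h2
  exact ⟨h3, h3.tsum_le_of_sum_le h2⟩

theorem continuous_wh {a : F} (ha : a ≠ 0) :
    Continuous fun P : Xi F => wh P a := by
  unfold wh
  refine continuous_finset_prod _ fun w _ => ?_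
  have hy : Continuous fun P : Xi F => (P w).y :=
    H3.continuous_y.comp (continuous_apply w)
  have hz : Continuous fun P : Xi F => (P w).z :=
    H3.continuous_z.comp (continuous_apply w)
  have hw : 0 < ‖w.embedding a‖ := by
    rw [norm_pos_iff, map_ne_zero]
    exact ha
  refine ((Complex.continuous_ofReal.comp hy).mul ?_).mul ?_
  · refine (continuousOn_besselK 0).comp_continuous (continuous_const.mul hy) fun P => ?_
    have := (P w).y_pos
    have := Real.pi_pos
    exact Set.mem_Ioi.mpr (by positivity)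
  · refine Complex.continuous_exp.comp (continuous_const.mul (Complex.continuous_ofReal.comp ?_))
    exact continuous_const.mul (Complex.continuous_re.comp (continuous_const.mul hz))

/-- **(H1)** continuity -/
theorem Mass.continuous [IsTotallyComplex F] (h : Mass N₀ A C₀ ξ c) (h0 : N₀ ≠ 0) :
    Continuous fun P : Xi F => ∑' i, c i * wh P (ξ i) := by
  obtain ⟨C, hC, hmaj⟩ := summable_majorant (F := F) h0 A C₀ h.C₀_nonneg
  obtain ⟨K, hK, hwh⟩ := exists_norm_wh_le (F := F) h0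
  rw [continuous_iff_continuousAt]
  intro P₀
  set M : ℝ := lw P₀ + 1 with hM
  have hM1 : 1 ≤ M := by
    have := one_le_lw P₀
    linarith
  have hopen : IsOpen {P : Xi F | lw P < M} :=
    isOpen_lt continuous_lw continuous_const
  have hP₀ : P₀ ∈ {P : Xi F | lw P < M} := by
    change lw P₀ < M
    linarith
  have hcon : ContinuousOn (fun P : Xi F => ∑' i, c i * wh P (ξ i))
      {P | lw P < M} := by
    obtain ⟨hs, -⟩ := hmaj M hM1
    refine continuousOn_tsum (u := fun i => K * (‖c i‖ * Real.exp (-(2 * Real.pi * (tn (ξ i) / M)))))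
      (fun i => ?_) ?_ fun i P hP => ?_
    · by_cases hc : c i = 0
      · simp only [hc, zero_mul]
        exact continuousOn_const
      · exact (continuous_const.mul (continuous_wh (h.ne i hc))).continuousOn
    · refine Summable.mul_left _ ?_
      exact summable_of_sum_le (fun i => by positivity)
        (h.sum_le (g := fun a => Real.exp (-(2 * Real.pi * (tn a / M))))
          (fun a => (Real.exp_pos _).le) hs)
    · by_cases hc : c i = 0
      · rw [hc, zero_mul, norm_zero, zero_mul, mul_zero]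
      · rw [norm_mul]
        have h2 := hwh P (ξ i) (h.ne i hc) (h.int i hc)
        have h3 : Real.exp (-(2 * Real.pi * ∑ w : InfinitePlace F, w (ξ i) * (P w).y)) ≤
            Real.exp (-(2 * Real.pi * (tn (ξ i) / M))) := by
          refine Real.exp_le_exp.mpr (neg_le_neg ?_)
          exact mul_le_mul_of_nonneg_left (tn_div_le P (le_of_lt hP) (ξ i)) (by positivity)
        calc ‖c i‖ * ‖wh P (ξ i)‖ ≤ ‖c i‖ * (K * Real.exp (-(2 * Real.pi * (tn (ξ i) / M)))) :=
              mul_le_mul_of_nonneg_left (h2.trans (mul_le_mul_of_nonneg_left h3 hK.le))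
                (norm_nonneg _)
          _ = _ := by ring
  exact hcon.continuousAt (hopen.mem_nhds hP₀)

end Mass

end Fermat.Agent.LT.B11
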