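import Fermat.Agent.LT.B11.Cj
import Fermat.Agent.LT.B11.Growth
import Fermat.Agent.LT.B11.Frame

/-!
# Convergence, continuity and growth of the family `F δ` and of its extension `Φ`
-/

set_option autoImplicit false
set_option linter.unusedSectionVars false

noncomputable section

namespace Fermat.Agent.LT.B11

open NumberField Matrix Fermat.Agent.LT.SAd

theorem lw_le {F : Type*} [Field F] [NumberField F] (P : Xi F) :
    lw P ≤ 2 ^ Fintype.card (InfinitePlace F) * cj P := by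
  unfold lw cj
  rw [← Finset.card_univ, ← Finset.prod_const, ← Finset.prod_mul_distrib]
  refine Finset.prod_le_prod (fun w _ => zero_le_one.trans (le_max_left _ _)) fun w _ => ?_
  refine max_le ?_ (inv_y_le _)
  have := H3.one_le_cu (P w) H3.j
  linarith

/-! ### The family -/

section Abs

variable {F E : Type*} [Field F] [NumberField F] [Field E] [NumberField E] {N : ℕ} [NeZero N]
  {k : ℕ}

theorem exists_integral (N : ℕ) [NeZero N] (δ : Fˣ) : ∃ N₀ : ℕ, N₀ ≠ 0 ∧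
    ∀ x : F, x ∈ RS F N → x * δ ∈ AS F N → IsIntegral ℤ ((N₀ : F) * x) := by
  obtain ⟨j, hj⟩ := exists_pow_mul_mem_AS N ((δ : F)⁻¹)
  refine ⟨N ^ j, pow_ne_zero _ (NeZero.ne N), fun x hx hxδ => isIntegral_of_mem (N := N) ?_ ?_⟩
  · exact (RS F N).mul_mem (natCast_mem _ _) hx
  · have h0 : (δ : F) ≠ 0 := δ.ne_zero
    have : ((N ^ j : ℕ) : F) * x = (x * δ) * ((N : F) ^ j * (δ : F)⁻¹) := by
      push_cast
      field_simp
    rw [this]
    exact (AS F N).mul_mem hxδ hj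

/-- What is used of the data. -/
structure IsAna (D : Dat Eˣ Fˣ (Xi F)) (N k : ℕ) : Prop where
  W_eq : ∀ P ξ, D.W P ξ = wh P (ξ : F)
  VB_mem : ∀ b ∈ D.VB, (b : F) ∈ AS F N
  xi_mem : ∀ p : D.Idx, D.cf p ≠ 0 → ((D.xi p : Fˣ) : F) ∈ RS F N
  mass : ∀ δ : Fˣ, ∃ C : ℝ, 0 ≤ C ∧ ∀ a : Fˣ, a * δ ∈ D.VB → ∀ s : Finset D.Idx,
    (∀ p ∈ s, D.xi p = a) → ∑ p ∈ s, ‖D.cf p‖ ≤ C * ∏ w : InfinitePlace F, (w (a : F)) ^ w.mult

theorem prod_mult_le (a : F) :
    ∏ w : InfinitePlace F, (w a) ^ w.mult ≤ (1 + tn a) ^ Module.finrank ℚ F := by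
  rw [← InfinitePlace.sum_mult_eq, ← Finset.prod_pow_eq_pow_sum]
  refine Finset.prod_le_prod (fun w _ => pow_nonneg (apply_nonneg w a) _) fun w _ => ?_
  refine pow_le_pow_left₀ (apply_nonneg w a) ?_ _
  have := le_tn w a
  linarith

variable {D : Dat Eˣ Fˣ (Xi F)}

open Classical in
/-- the coefficients of `F δ` -/
def cd (D : Dat Eˣ Fˣ (Xi F)) (δ : Fˣ) (p : D.Idx) : ℂ := if D.xi p * δ ∈ D.VB then D.cf p else 0

theorem IsAna.tm_eq (h : IsAna D N k) (δ : Fˣ) (P : Xi F) (p : D.Idx) :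
    D.tm δ P p = cd D δ p * wh P ((D.xi p : Fˣ) : F) := by
  unfold Dat.tm cd
  rw [h.W_eq]
  split_ifs
  · rfl
  · rw [zero_mul]

theorem IsAna.exists_mass (h : IsAna D N k) (δ : Fˣ) : ∃ (N₀ : ℕ) (C₀ : ℝ), N₀ ≠ 0 ∧
    Mass N₀ (Module.finrank ℚ F) C₀ (fun p : D.Idx => ((D.xi p : Fˣ) : F)) (cd D δ) := by
  classical
  obtain ⟨N₀, h0, hN₀⟩ := exists_integral (F := F) N δ
  obtain ⟨C, hC, hm⟩ := h.mass δ
  refine ⟨N₀, C, h0, fun p _ => (D.xi p).ne_zero, fun p hp => ?_, fun a s hs => ?_⟩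
  · unfold cd at hp
    split_ifs at hp with hV
    · refine hN₀ _ (h.xi_mem p hp) ?_
      exact h.VB_mem _ hV
    · exact absurd rfl hp
  · rcases s.eq_empty_or_nonempty with rfl | ⟨i, hi⟩
    · rw [Finset.sum_empty]
      have := tn_nonneg a
      positivity
    · have ha : ((D.xi i : Fˣ) : F) = a := hs i hi
      have hs' : ∀ p ∈ s, D.xi p = D.xi i := fun p hp => Units.ext ((hs p hp).trans ha.symm)
      by_cases hV : D.xi i * δ ∈ D.VB
      · have h1 : ∑ p ∈ s, ‖cd D δ p‖ = ∑ p ∈ s, ‖D.cf p‖ := by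
          refine Finset.sum_congr rfl fun p hp => ?_
          unfold cd
          rw [hs' p hp, if_pos hV]
        rw [h1, ← ha]
        exact (hm _ hV s hs').trans (mul_le_mul_of_nonneg_left (prod_mult_le _) hC)
      · have h1 : ∑ p ∈ s, ‖cd D δ p‖ = 0 := by
          refine Finset.sum_eq_zero fun p hp => ?_
          unfold cd
          rw [hs' p hp, if_neg hV, norm_zero]
        rw [h1]
        have := tn_nonneg a
        positivity

variable [IsTotallyComplex F]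

/-- **Absolute convergence and uniform bound.** -/
theorem IsAna.bound_tm (h : IsAna D N k) (δ : Fˣ) : ∃ (C : ℝ) (A : ℕ), 0 ≤ C ∧
    ∀ P : Xi F, Summable (fun p => ‖D.tm δ P p‖) ∧ ∑' p, ‖D.tm δ P p‖ ≤ C * cj P ^ A := by
  obtain ⟨N₀, C₀, h0, hM⟩ := h.exists_mass δ
  obtain ⟨C, hC, hg⟩ := hM.growth h0
  set A := Module.finrank ℚ F + (Module.finrank ℚ F + 1) with hA
  refine ⟨C * (2 ^ Fintype.card (InfinitePlace F)) ^ A, A, by positivity, fun P => ?_⟩
  simp_rw [h.tm_eq]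
  refine ⟨(hg P).1, (hg P).2.trans ?_⟩
  rw [mul_assoc, ← mul_pow]
  refine mul_le_mul_of_nonneg_left (pow_le_pow_left₀ ?_ (lw_le P) _) hC
  exact zero_le_one.trans (one_le_lw P)

theorem IsAna.summable_tm (h : IsAna D N k) (δ : Fˣ) (P : Xi F) : Summable (D.tm δ P) := by
  obtain ⟨C, A, -, hC⟩ := h.bound_tm δ
  exact (hC P).1.of_norm

/-- partial sums are bounded -/
theorem IsAna.sum_tm_le (h : IsAna D N k) (δ : Fˣ) : ∃ (C : ℝ) (A : ℕ), 0 ≤ C ∧
    ∀ (P : Xi F) (s : Finset D.Idx), ∑ p ∈ s, ‖D.tm δ P p‖ ≤ C * cj P ^ A := by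
  obtain ⟨C, A, hC, h1⟩ := h.bound_tm δ
  exact ⟨C, A, hC, fun P s => ((h1 P).1.sum_le_tsum s fun _ _ => norm_nonneg _).trans (h1 P).2⟩

/-- **Moderate growth.** -/
theorem IsAna.mod_FF (h : IsAna D N k) (δ : Fˣ) : Mod (D.FF δ) := by
  obtain ⟨C, A, hC, h1⟩ := h.bound_tm δ
  refine ⟨D.s δ * C, A, mul_nonneg (D.s_pos δ).le hC, fun P => ?_⟩
  rw [D.FF_eq_tsum (h.summable_tm δ P), norm_mul, Complex.norm_real,
    Real.norm_of_nonneg (D.s_pos δ).le, mul_assoc]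
  refine mul_le_mul_of_nonneg_left ?_ (D.s_pos δ).le
  exact (norm_tsum_le_tsum_norm (h1 P).1).trans (h1 P).2

/-- **Continuity.** -/
theorem IsAna.continuous_FF (h : IsAna D N k) (δ : Fˣ) : Continuous (D.FF δ) := by
  obtain ⟨N₀, C₀, h0, hM⟩ := h.exists_mass δ
  have h1 := (hM.continuous h0).const_mul (D.s δ : ℂ)
  refine h1.congr fun P => ?_
  rw [D.FF_eq_tsum (h.summable_tm δ P)]
  simp_rw [h.tm_eq]

end Abs

/-! ### The extension -/

section Ext

variable {F : Type*} [Field F] [NumberField F] {A R : Subring F} {ν : F} {k m : ℕ}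
  (Fm : Fam A R ν k m (Xi F) ℂ) (T : Two A R ν) (hk : 1 ≤ k) (hkm : k ≤ m)

theorem Fam.continuous_Phi (h : ∀ δ, Continuous (Fm.f δ)) (g : GL (Fin 2) F) :
    Continuous fun P => Fm.Phi T hk hkm P g := by
  unfold Fam.Phi
  exact (h _).comp (Xi.continuous_smul' _)

theorem Fam.mod_Phi (h : ∀ δ, Mod (Fm.f δ)) (g : GL (Fin 2) F) :
    Mod fun P => Fm.Phi T hk hkm P g := by
  unfold Fam.Phi
  exact (h _).smul _

end Ext

/-! ### The instance -/

section Inst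

open IsDedekindDomain
open Fermat.Agent.CFT.SUnits (ord)
open Fermat.Agent.CFT.Global (above normU)
open Fermat.Agent.LT.Psi

variable {F E M : Type} [Field F] [NumberField F] [Field E] [NumberField E] [Field M]
  [NumberField M] [Algebra F E] [Algebra E M] [Algebra F M] [IsScalarTower F E M]
  [IsTotallyComplex F] {N : ℕ} [NeZero N] (T : TowerData F E M (pl F N)) {n : ℕ}
  {ψ : HeightOneSpectrum (𝓞 E) → ZMod 4} (hψ : PsiChar (pl F N) T.c T.a n ψ)
  {k : ℕ} (hk : n + 1 ≤ k)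

/-- The data of a tower satisfy everything. -/
theorem isAna_datT : IsAna (datT T hψ hk) N k where
  W_eq := datT_W T hψ hk
  VB_mem b hb := hb.2.2.1
  xi_mem p hp := by
    have := T.galois_FE
    have h1 : p.2.out ∈ (datT T hψ hk).Op := by
      by_contra h
      exact hp (if_neg h)
    have h2 : ((p.2.out : Eˣ) : E) ∈ RS E N := h1
    have h3 : ((normU (K := F) E p.2.out : Fˣ) : F) ∈ RS F N := by
      refine mem_RS_of_map (E := E) ?_
      rw [map_normU T.finrank_FE T.c_ne_one]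
      exact (RS E N).mul_mem h2 (conj_mem_RS T.c h2)
    have h4 : ((p.1.out : (datT T hψ hk).EB) : Fˣ) ∈ RU F N :=
      mem_RU_iff.mpr (p.1.out : (datT T hψ hk).EB).2
    have h5 : (((datT T hψ hk).xi p : Fˣ) : F) = ((normU (K := F) E p.2.out : Fˣ) : F) *
        ((((p.1.out : (datT T hψ hk).EB) : Fˣ)⁻¹ : Fˣ) : F) := rfl
    rw [h5]
    exact (RS F N).mul_mem h3 h4.2
  mass := Coef.mass_of_tower T hψ (datT T hψ hk) (datT_q T hψ hk) (datT_Op T hψ hk)
    (datT_EA T hψ hk) (datT_EB T hψ hk) (datT_psi T hψ hk)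
    (fun b hb v hv => ord_of_mem_datT_VB T hψ hk hb v hv)

/-- (a) -/
theorem summable_tm (δ : Fˣ) (P : Xi F) : Summable ((datT T hψ hk).tm δ P) :=
  (isAna_datT T hψ hk).summable_tm δ P

/-- (a') -/
theorem sum_tm_le (δ : Fˣ) : ∃ (C : ℝ) (A : ℕ), 0 ≤ C ∧ ∀ (P : Xi F)
    (s : Finset (datT T hψ hk).Idx), ∑ p ∈ s, ‖(datT T hψ hk).tm δ P p‖ ≤ C * cj P ^ A :=
  (isAna_datT T hψ hk).sum_tm_le δ

/-- (b) -/
theorem continuous_FF (δ : Fˣ) : Continuous ((datT T hψ hk).FF δ) :=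
  (isAna_datT T hψ hk).continuous_FF δ

/-- (c) -/
theorem mod_FF (δ : Fˣ) : Mod ((datT T hψ hk).FF δ) := (isAna_datT T hψ hk).mod_FF δ

end Inst

end Fermat.Agent.LT.B11
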