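import Fermat.Agent.LT.B11.ExtNF
import Fermat.Agent.LT.Form

/-!
# The algebraic clauses of `IsFormA` for the function `Phi` of a family
-/

set_option autoImplicit false
set_option linter.unusedSectionVars false

noncomputable section

namespace Fermat.Agent.LT.B11

open IsDedekindDomain NumberField Matrix
open Fermat.Agent.LT.SAd

variable {F : Type*} [Field F] [NumberField F] {N : ℕ} {k m : ℕ}

omit [NumberField F] in
theorem mem_GLR_of {R : Subring F} {γ : GL (Fin 2) F} (h1 : ∀ i j, γ i j ∈ R)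
    (h2 : ∀ i j, γ⁻¹ i j ∈ R) : γ ∈ GLR R := by
  refine ⟨h1, ?_⟩
  rw [← map_inv, det_eq]
  exact R.sub_mem (R.mul_mem (h2 _ _) (h2 _ _)) (R.mul_mem (h2 _ _) (h2 _ _))

omit [NumberField F] in
theorem inK_of {A : Subring F} {ν : F} (hν : ν ∈ A) (hkm : k ≤ m) {κ : GL (Fin 2) F}
    (h : ∀ i j, ∃ t ∈ A, κ i j - (1 : Matrix (Fin 2) (Fin 2) F) i j = ν ^ m * t) :
    InK A ν k m κ := by
  have key : ∀ t ∈ A, ν ^ m * t = ν ^ k * (ν ^ (m - k) * t) := by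
    intro t _
    rw [← mul_assoc, ← pow_add, Nat.add_sub_cancel' hkm]
  refine ⟨?_, ?_, ?_, ?_⟩
  · obtain ⟨t, ht, e⟩ := h 0 0
    refine ⟨ν ^ (m - k) * t, A.mul_mem (A.pow_mem hν _) ht, ?_⟩
    rw [← key t ht, ← e, Matrix.one_apply_eq]
    ring
  · obtain ⟨t, ht, e⟩ := h 1 1
    refine ⟨ν ^ (m - k) * t, A.mul_mem (A.pow_mem hν _) ht, ?_⟩
    rw [← key t ht, ← e, Matrix.one_apply_eq]
    ring
  · obtain ⟨t, ht, e⟩ := h 0 1
    rw [Matrix.one_apply_ne (by decide), sub_zero] at e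
    rw [e]
    exact A.mul_mem (A.pow_mem hν _) ht
  · obtain ⟨t, ht, e⟩ := h 1 0
    rw [Matrix.one_apply_ne (by decide), sub_zero] at e
    exact ⟨t, ht, e⟩

/-- **`IsFormA` from the analytic clauses.** -/
theorem isFormA_of (hN : 2 ≤ N) (Tw : Two (AS F N) (RS F N) (N : F)) (hk1 : 1 ≤ k) (hkm : k ≤ m)
    (Fm : Fam (AS F N) (RS F N) (N : F) k m (Xi F) ℂ) {x : HeightOneSpectrum (𝓞 F) → ℝ}
    (cont : ∀ g, Continuous fun P => Fm.Phi Tw hk1 hkm P g)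
    (growth : ∀ g, ∃ (C : ℝ) (A : ℕ), ∀ P, ‖Fm.Phi Tw hk1 hkm P g‖ ≤
      C * ∏ w, H3.cu (P w) H3.j ^ A)
    (hecke : ∀ v : HeightOneSpectrum (𝓞 F), (N : 𝓞 F) ∉ v.asIdeal →
      ∀ (π : F) (hπ : π ≠ 0), (∀ t ∈ SAd.RS F N, (∃ t' ∈ SAd.RS F N, t = π * t') ↔
        v.valuation F t < 1) → π ∈ SAd.RS F N →
      ∀ B : Finset F, IsReps (SAd.RS F N) π B → ∀ P g,
      (∑ b ∈ B, Fm.Phi Tw hk1 hkm
        (GeneralLinearGroup.mkOfDetNeZero !![1, b; 0, π] (by simpa using hπ) • P)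
        (GeneralLinearGroup.mkOfDetNeZero !![1, b; 0, π] (by simpa using hπ) * g)) +
      Fm.Phi Tw hk1 hkm (GeneralLinearGroup.mkOfDetNeZero !![π, 0; 0, 1] (by simpa using hπ) • P)
        (GeneralLinearGroup.mkOfDetNeZero !![π, 0; 0, 1] (by simpa using hπ) * g) =
      ((√(Ideal.absNorm v.asIdeal) * x v : ℝ) : ℂ) * Fm.Phi Tw hk1 hkm P g)
    (radial : ∀ (w : InfinitePlace F) (k' : ℝ → ℂ), H3.IsKer k' → ∀ P g,
      ∫ Q : H3, k' (H3.cu (P w) Q) * Fm.Phi Tw hk1 hkm (P.upd w Q) g =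
        H3.sph 0 k' * Fm.Phi Tw hk1 hkm P g)
    (ne : ∃ δ P, Fm.f δ P ≠ 0) : IsFormA F N m x (Fm.Phi Tw hk1 hkm) where
  N_ne := by omega
  left γ h1 h2 P g := Fm.Phi_smul Tw hk1 hkm (mem_GLR_of h1 h2) P g
  right κ h1 _ P g := Fm.Phi_mul_K Tw hk1 hkm (inK_of Tw.mem hkm h1) P g
  center z P g := by
    rw [scalar_eq_sc, sc_comm]
    exact Fm.Phi_mul_sc Tw hk1 hkm z P g
  cont := cont
  growth := growth
  hecke := hecke
  radial := radial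
  ne := by
    obtain ⟨δ, P, h⟩ := ne
    exact ⟨P, dg δ, by rwa [Fm.Phi_dg Tw hk1 hkm]⟩

end Fermat.Agent.LT.B11
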