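import Fermat.Agent.LT.Red.Siegel
import Fermat.Agent.LT.Red.Weight
import Fermat.Agent.LT.CT
import Fermat.Agent.LT.Auto.Space
import Fermat.Agent.LT.H3.Spherical

/-!
# From moderate growth to `L²`

`f : Xi F × D → ℂ` invariant, of moderate growth, with the gain property `hstep` (a cuspidal
eigenfunction of a kernel operator, `C2`): then `f` is rapidly decreasing on Siegel sets, bounded,
and defines an element of `autL2 (PG F) ν`, which is not zero if `f ≠ 0`.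
-/

set_option autoImplicit false
set_option linter.unusedSectionVars false

noncomputable section

namespace Fermat.Agent.LT.B11

open MeasureTheory NumberField H3 Matrix
open scoped ENNReal

section Growth

variable {F : Type*} [Field F] [NumberField F] {D : Type*} [MulAction (GL (Fin 2) F) D]

/-- Moderate growth in the first variable, for every `d`. -/
def ModGr (f : Xi F × D → ℂ) : Prop :=
  ∀ d, ∃ (C : ℝ) (A : ℕ), ∀ x : Xi F, ‖f (x, d)‖ ≤ C * ∏ w, cu (x w) j ^ A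

theorem cu_j_le {c : ℝ} (hc : 1 ≤ c) {P : H3} (hz : ‖P.z‖ ≤ c) (hy : c⁻¹ ≤ P.y) :
    cu P j ≤ 2 * c ^ 4 * P.y := by
  have hc0 : 0 < c := by linarith
  have hy0 := P.y_pos
  have h1 : 1 ≤ c * P.y := by
    have := mul_le_mul_of_nonneg_left hy hc0.le
    rwa [mul_inv_cancel₀ hc0.ne'] at this
  have h2 : Complex.normSq (P.z - j.z) ≤ c ^ 2 := by
    rw [z_j, sub_zero, Complex.normSq_eq_norm_sq]
    exact pow_le_pow_left₀ (norm_nonneg _) hz 2
  unfold cu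
  rw [div_le_iff₀ (by simp only [y_j]; positivity)]
  simp only [y_j, mul_one, one_pow]
  have h3 : 1 ≤ (c * P.y) ^ 2 := one_le_pow₀ h1
  have h4 : c ^ 2 ≤ c ^ 4 * P.y ^ 2 := by
    have := mul_le_mul_of_nonneg_left h3 (sq_nonneg c)
    nlinarith
  have h5 : (1 : ℝ) ≤ c ^ 4 := one_le_pow₀ hc
  have h6 : 1 ≤ c ^ 4 * P.y ^ 2 := by
    have h7 : (1 : ℝ) ≤ c ^ 2 := one_le_pow₀ hc
    linarith
  have h8 : P.y ^ 2 ≤ c ^ 4 * P.y ^ 2 := le_mul_of_one_le_left (sq_nonneg _) h5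
  nlinarith

/-- Moderate growth on Siegel sets, in terms of one height. -/
theorem ModGr.sieg {f : Xi F × D → ℂ} (h : ModGr f) (T : Finset D) :
    ∃ p : ℕ, ∀ c : ℝ, 1 ≤ c → ∃ C : ℝ, 0 ≤ C ∧ ∀ z ∈ Sieg F c (T : Set D), ∀ w,
      ‖f z‖ ≤ C * (z.1 w).y ^ (p : ℤ) := by
  classical
  choose Cd Ad hd using h
  set A := T.sup Ad with hA
  set K := ∑ d ∈ T, |Cd d| with hK
  have hK0 : 0 ≤ K := Finset.sum_nonneg fun _ _ => abs_nonneg _
  refine ⟨A * Fintype.card (InfinitePlace F), fun c hc => ?_⟩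
  have hc0 : 0 < c := by linarith
  refine ⟨K * (2 * c ^ 5) ^ (A * Fintype.card (InfinitePlace F)), by positivity, ?_⟩
  rintro ⟨x, d⟩ ⟨hdT, hz, hy, hyy⟩ w
  simp only at hdT hz hy hyy ⊢
  have hdT' : d ∈ T := by exact_mod_cast hdT
  have h1 : ∀ v, cu (x v) j ^ Ad d ≤ (2 * c ^ 5 * (x w).y) ^ A := by
    intro v
    have h2 : cu (x v) j ≤ 2 * c ^ 5 * (x w).y := by
      refine (cu_j_le hc (hz v) (hy v)).trans ?_
      have h3 := hyy v w
      have h4 : 0 ≤ 2 * c ^ 4 := by positivity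
      calc 2 * c ^ 4 * (x v).y ≤ 2 * c ^ 4 * (c * (x w).y) := mul_le_mul_of_nonneg_left h3 h4
        _ = 2 * c ^ 5 * (x w).y := by ring
    have h5 := one_le_cu (x v) j
    calc cu (x v) j ^ Ad d ≤ cu (x v) j ^ A :=
          pow_le_pow_right₀ h5 (Finset.le_sup (f := Ad) hdT')
      _ ≤ _ := pow_le_pow_left₀ (by linarith) h2 A
  have h6 : ∏ v, cu (x v) j ^ Ad d ≤
      ((2 * c ^ 5 * (x w).y) ^ A) ^ Fintype.card (InfinitePlace F) := by
    refine (Finset.prod_le_prod (fun v _ => by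
      have := one_le_cu (x v) j; positivity) fun v _ => h1 v).trans ?_
    rw [Finset.prod_const, Finset.card_univ]
  have h7 : Cd d ≤ K := (le_abs_self _).trans
    (Finset.single_le_sum (f := fun d => |Cd d|) (fun _ _ => abs_nonneg _) hdT')
  have h8 : 0 ≤ ∏ v, cu (x v) j ^ Ad d := Finset.prod_nonneg fun v _ => by
    have := one_le_cu (x v) j; positivity
  calc ‖f (x, d)‖ ≤ Cd d * ∏ v, cu (x v) j ^ Ad d := hd d x
    _ ≤ K * ∏ v, cu (x v) j ^ Ad d := mul_le_mul_of_nonneg_right h7 h8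
    _ ≤ K * ((2 * c ^ 5 * (x w).y) ^ A) ^ Fintype.card (InfinitePlace F) :=
        mul_le_mul_of_nonneg_left h6 hK0
    _ = _ := by rw [← pow_mul, mul_pow, zpow_natCast]; ring

theorem zpow_le_of_comparable {a b c : ℝ} (ha : 0 < a) (hb : 0 < b) (hc : 1 ≤ c)
    (h1 : a ≤ c * b) (h2 : b ≤ c * a) (p : ℤ) : a ^ p ≤ c ^ |p| * b ^ p := by
  have hc0 : 0 < c := by linarith
  rcases le_or_gt 0 p with hp | hp
  · rw [abs_of_nonneg hp, ← mul_zpow]
    exact zpow_le_zpow_left₀ hp ha.le h1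
  · obtain ⟨n, rfl⟩ : ∃ n : ℕ, p = -n := ⟨p.natAbs, by omega⟩
    rw [abs_neg, Nat.abs_cast, _root_.zpow_neg, _root_.zpow_neg, zpow_natCast, zpow_natCast, zpow_natCast]
    have h3 : b ^ n ≤ c ^ n * a ^ n := by
      rw [← mul_pow]; exact pow_le_pow_left₀ hb.le h2 n
    rw [← div_eq_mul_inv, le_div_iff₀ (pow_pos hb n), inv_mul_le_iff₀ (pow_pos ha n)]
    linarith

/-- The gain property of `f` on Siegel sets over `T` (from `C2`). -/
def Gain (f : Xi F × D → ℂ) (T : Finset D) : Prop :=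
  ∀ c : ℝ, 1 ≤ c → ∃ c' C : ℝ, 1 ≤ c' ∧ 0 ≤ C ∧ ∀ z ∈ Sieg F c (T : Set D), ∀ M : ℝ,
    (∀ z' ∈ Sieg F c' (T : Set D), z'.2 = z.2 →
      (∀ w, (z.1 w).y ≤ c' * (z'.1 w).y ∧ (z'.1 w).y ≤ c' * (z.1 w).y) → ‖f z'‖ ≤ M) →
    ∀ w, ‖f z‖ ≤ C * M / (z.1 w).y

/-- From the kernel form of `C2` and the eigenvalue equation. -/
theorem Gain.of_eigen {f g : Xi F × D → ℂ} {T : Finset D} {lam : ℂ} (hl : lam ≠ 0)
    (hg : ∀ z, g z = lam * f z)
    (h : ∀ c : ℝ, 1 ≤ c → ∃ c' C : ℝ, 1 ≤ c' ∧ 0 ≤ C ∧ ∀ z ∈ Sieg F c (T : Set D), ∀ M : ℝ,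
      (∀ z' ∈ Sieg F c' (T : Set D), z'.2 = z.2 →
        (∀ w, (z.1 w).y ≤ c' * (z'.1 w).y ∧ (z'.1 w).y ≤ c' * (z.1 w).y) → ‖f z'‖ ≤ M) →
      ∀ w, ‖g z‖ ≤ C * M / (z.1 w).y) : Gain f T := by
  intro c hc
  obtain ⟨c', C, hc', hC, H⟩ := h c hc
  have hl0 : 0 < ‖lam‖ := norm_pos_iff.mpr hl
  refine ⟨c', C / ‖lam‖, hc', by positivity, fun z hz M hM w => ?_⟩
  have h1 := H z hz M hM w
  rw [hg, norm_mul] at h1
  have h2 : ‖f z‖ ≤ (C * M / (z.1 w).y) / ‖lam‖ := by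
    rw [le_div_iff₀ hl0]; linarith
  refine h2.trans (le_of_eq ?_)
  ring

/-- One step: the exponent drops by one. -/
theorem Gain.step {f : Xi F × D → ℂ} {T : Finset D} (h : Gain f T) {p : ℤ}
    (hp : ∀ c : ℝ, 1 ≤ c → ∃ C : ℝ, 0 ≤ C ∧ ∀ z ∈ Sieg F c (T : Set D), ∀ w,
      ‖f z‖ ≤ C * (z.1 w).y ^ p) :
    ∀ c : ℝ, 1 ≤ c → ∃ C : ℝ, 0 ≤ C ∧ ∀ z ∈ Sieg F c (T : Set D), ∀ w,
      ‖f z‖ ≤ C * (z.1 w).y ^ (p - 1) := by
  intro c hc
  obtain ⟨c', C, hc', hC, H⟩ := h c hc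
  obtain ⟨C₁, hC₁, H₁⟩ := hp c' hc'
  have hc0 : 0 < c' := by linarith
  refine ⟨C * (C₁ * c' ^ |p|), by positivity, fun z hz w => ?_⟩
  have hy := (z.1 w).y_pos
  refine (H z hz (C₁ * c' ^ |p| * (z.1 w).y ^ p) (fun z' hz' _ hcomp => ?_) w).trans
    (le_of_eq ?_)
  · refine (H₁ z' hz' w).trans ?_
    rw [mul_assoc]
    exact mul_le_mul_of_nonneg_left
      (zpow_le_of_comparable (z'.1 w).y_pos hy hc' (hcomp w).2 (hcomp w).1 p) hC₁
  · rw [zpow_sub_one₀ hy.ne']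
    field_simp

/-- **Rapid decay on Siegel sets.** -/
theorem Gain.decay {f : Xi F × D → ℂ} (hm : ModGr f) (h : ∀ T : Finset D, Gain f T)
    (T : Finset D) (B : ℕ) : ∀ c : ℝ, 1 ≤ c → ∃ C : ℝ, 0 ≤ C ∧ ∀ z ∈ Sieg F c (T : Set D), ∀ w,
      ‖f z‖ ≤ C * (z.1 w).y ^ (-(B : ℤ)) := by
  obtain ⟨p, hp⟩ := hm.sieg T
  have key : ∀ k : ℕ, ∀ c : ℝ, 1 ≤ c → ∃ C : ℝ, 0 ≤ C ∧ ∀ z ∈ Sieg F c (T : Set D), ∀ w,
      ‖f z‖ ≤ C * (z.1 w).y ^ ((p : ℤ) - k) := by
    intro k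
    induction k with
    | zero => simpa using hp
    | succ k ih =>
      have := (h T).step ih
      have e : (p : ℤ) - k - 1 = (p : ℤ) - ((k + 1 : ℕ) : ℤ) := by push_cast; ring
      rwa [e] at this
  have := key (p + B)
  have e : (p : ℤ) - ((p + B : ℕ) : ℤ) = -(B : ℤ) := by push_cast; ring
  rwa [e] at this

variable [IsTotallyComplex F] [IsLevel F D]

/-- **Boundedness.** -/
theorem Gain.bounded {f : Xi F × D → ℂ} (hinv : ∀ (g : GL (Fin 2) F) z, f (g • z) = f z)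
    (hm : ModGr f) (h : ∀ T : Finset D, Gain f T) : ∃ B : ℝ, 0 ≤ B ∧ ∀ z, ‖f z‖ ≤ B := by
  obtain ⟨c, T, hc, hs⟩ := exists_siegel F D
  obtain ⟨C, hC, H⟩ := Gain.decay hm h T 0 c hc
  refine ⟨C, hC, fun z => ?_⟩
  obtain ⟨g, hg⟩ := hs z
  obtain ⟨w⟩ : Nonempty (InfinitePlace F) := inferInstance
  have h1 := H _ hg w
  rw [hinv] at h1
  simpa using h1

end Growth

section LTwo

variable {F : Type*} [Field F] [NumberField F] [IsTotallyComplex F] {D : Type*}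
  [MulAction (GL (Fin 2) F) D] [IsLevel F D] [MeasurableSpace D] [DiscreteMeasurableSpace D]
  [Countable D]

theorem measurable_of_cont {f : Xi F × D → ℂ} (hc : ∀ d, Continuous fun x => f (x, d)) :
    Measurable f :=
  measurable_from_prod_countable_left fun d => (hc d).measurable

variable {w : Xi F × D → ℝ≥0∞}

/-- **The element of `L²(G \ Z)`.** -/
theorem memLp_of_bounded (hw : IsWeight (PG F) w) {f : Xi F × D → ℂ}
    (hc : ∀ d, Continuous fun x => f (x, d)) {B : ℝ} (hB : ∀ z, ‖f z‖ ≤ B) :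
    MemLp f 2 ((muZ F D).withDensity w) := by
  have := isFiniteMeasure_weight F D hw
  exact MemLp.of_bound (measurable_of_cont hc).aestronglyMeasurable B
    (Filter.Eventually.of_forall hB)

theorem pg_inv {f : Xi F × D → ℂ} (hinv : ∀ (g : GL (Fin 2) F) z, f (g • z) = f z) (g : PG F)
    (z : Xi F × D) : f (g • z) = f z := by
  obtain ⟨g, rfl⟩ := QuotientGroup.mk_surjective g
  exact hinv g z

instance : (volume : Measure (Xi F)).IsOpenPosMeasure :=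
  inferInstanceAs (Measure.pi fun _ : InfinitePlace F => (volume : Measure H3)).IsOpenPosMeasure

/-- an invariant continuous function which vanishes almost everywhere vanishes. -/
theorem eq_zero_of_ae (hw : IsWeight (PG F) w) {f : Xi F × D → ℂ}
    (hinv : ∀ (g : GL (Fin 2) F) z, f (g • z) = f z) (hc : ∀ d, Continuous fun x => f (x, d))
    (h0 : f =ᵐ[(muZ F D).withDensity w] 0) : f = 0 := by
  have h1 : f =ᵐ[muZ F D] 0 := hw.ae_eq_of_inv (measurable_of_cont hc) measurable_zero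
    (pg_inv hinv) (fun _ _ => rfl) h0
  have h2 : ∀ᵐ d ∂(Measure.count : Measure D), ∀ᵐ x ∂(volume : Measure (Xi F)), f (x, d) = 0 := by
    have h3 : ∀ᵐ z ∂((volume : Measure (Xi F)).prod (Measure.count : Measure D)), f z = 0 := h1
    have h4 := Measure.ae_ae_of_ae_prod (Measure.measurePreserving_swap
      (μ := (Measure.count : Measure D)) (ν := (volume : Measure (Xi F)))
      |>.quasiMeasurePreserving.ae h3)
    exact h4
  rw [Measure.ae_count_iff] at h2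
  funext z
  obtain ⟨x, d⟩ := z
  have h5 : (fun x => f (x, d)) = fun _ => 0 :=
    (Continuous.ae_eq_iff_eq (volume : Measure (Xi F)) (hc d) continuous_const).mp (h2 d)
  exact congrFun h5 x

end LTwo

end Fermat.Agent.LT.B11
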