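import Fermat.Agent.LT.B11.Cusp
import Fermat.Agent.LT.Red.Growth

/-!
# Cuspidal eigenfunctions of moderate growth are bounded and square integrable
-/

set_option autoImplicit false
set_option linter.unusedSectionVars false

noncomputable section

namespace Fermat.Agent.LT.B11

open MeasureTheory NumberField H3 Matrix
open scoped ENNReal

section Cusp

variable {F : Type*} [Field F] [NumberField F] [IsTotallyComplex F] {D : Type*}
  [MulAction (GL (Fin 2) F) D] [IsLevel F D] [MeasurableSpace D] [DiscreteMeasurableSpace D]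
  {κ : Xi F → Xi F → ℂ} {R Λ : ℝ} {f : Xi F × D → ℂ} {lam : ℂ}

/-- The gain property of a cuspidal eigenfunction. -/
theorem gain_of_eigen (hκ : HKer κ R Λ) (hf : Measurable f)
    (hinv : ∀ (g : GL (Fin 2) F) z, f (g • z) = f z) (hcusp : IsCusp f) (hl : lam ≠ 0)
    (heig : ∀ z : Xi F × D, ∫ x', κ z.1 x' * f (x', z.2) = lam * f z) (T : Finset D) :
    Gain f T := by
  refine Gain.of_eigen (g := fun z => ∫ x', κ z.1 x' * f (x', z.2)) hl heig fun c hc => ?_
  obtain ⟨c', C, hc', hC, H⟩ := cusp_growth hκ c hc T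
  exact ⟨c', C, hc', hC, fun z hz M hM w => H f hf hinv hcusp z hz M hM w⟩

/-- **Rapid decay** of a cuspidal eigenfunction of moderate growth. -/
theorem decay_of_eigen (hκ : HKer κ R Λ) (hf : Measurable f)
    (hinv : ∀ (g : GL (Fin 2) F) z, f (g • z) = f z) (hcusp : IsCusp f) (hmod : ModGr f)
    (hl : lam ≠ 0) (heig : ∀ z : Xi F × D, ∫ x', κ z.1 x' * f (x', z.2) = lam * f z)
    (T : Finset D) (B : ℕ) (c : ℝ) (hc : 1 ≤ c) : ∃ C : ℝ, 0 ≤ C ∧
      ∀ z ∈ Sieg F c (T : Set D), ∀ w, ‖f z‖ ≤ C * (z.1 w).y ^ (-(B : ℤ)) :=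
  Gain.decay hmod (gain_of_eigen hκ hf hinv hcusp hl heig) T B c hc

/-- **Boundedness** of a cuspidal eigenfunction of moderate growth. -/
theorem bounded_of_eigen (hκ : HKer κ R Λ) (hf : Measurable f)
    (hinv : ∀ (g : GL (Fin 2) F) z, f (g • z) = f z) (hcusp : IsCusp f) (hmod : ModGr f)
    (hl : lam ≠ 0) (heig : ∀ z : Xi F × D, ∫ x', κ z.1 x' * f (x', z.2) = lam * f z) :
    ∃ B : ℝ, 0 ≤ B ∧ ∀ z, ‖f z‖ ≤ B :=
  Gain.bounded hinv hmod (gain_of_eigen hκ hf hinv hcusp hl heig)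

variable [Countable D] {w : Xi F × D → ℝ≥0∞}

/-- **The vector of `L²(G \ Z)`.** -/
theorem exists_autL2 (hκ : HKer κ R Λ) (hc : ∀ d, Continuous fun x => f (x, d))
    (hinv : ∀ (g : GL (Fin 2) F) z, f (g • z) = f z) (hcusp : IsCusp f) (hmod : ModGr f)
    (hl : lam ≠ 0) (heig : ∀ z : Xi F × D, ∫ x', κ z.1 x' * f (x', z.2) = lam * f z)
    (hne : f ≠ 0) (hw : IsWeight (PG F) w) :
    ∃ (hmem : MemLp f 2 ((muZ F D).withDensity w)),
      (autMk f (measurable_of_cont hc) (pg_inv hinv) hmem : autL2 (PG F) _) ≠ 0 ∧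
      arep (autMk f (measurable_of_cont hc) (pg_inv hinv) hmem : autL2 (PG F) _) =ᵐ[muZ F D] f := by
  obtain ⟨B, -, hB⟩ := bounded_of_eigen hκ (measurable_of_cont hc) hinv hcusp hmod hl heig
  refine ⟨memLp_of_bounded hw hc hB, ?_, ?_⟩
  · intro h0
    apply hne
    refine eq_zero_of_ae hw hinv hc ?_
    refine (coeFn_autMk f (measurable_of_cont hc) (pg_inv hinv)
      (memLp_of_bounded hw hc hB)).symm.trans ?_
    rw [h0]
    exact Lp.coeFn_zero _ _ _
  · refine hw.ae_eq_of_inv (measurable_arep _) (measurable_of_cont hc) (arep_smul _)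
      (pg_inv hinv) (arep_autMk _ _ _ _)

end Cusp

end Fermat.Agent.LT.B11
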