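import Fermat.Agent.LT.B11.Regroup

/-!
# The family `F δ` : abstract resummation

`A = Eˣ`, `B = Fˣ`, `q` the norm, `ι` the inclusion, `Op` the non-zero elements of `𝓞 E [1/N]`,
`EA`, `EB` the groups of `N`-units, `VA`, `VB` the congruence subgroups, `X` the space on which the
functions live (`Ξ F`), `W P ξ` the Whittaker function, `ψ` the Hecke character.
-/

set_option autoImplicit false

noncomputable section

namespace Fermat.Agent.LT.B11

/-- The abstract data. -/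
structure Dat (A B X : Type*) [CommGroup A] [CommGroup B] where
  /-- the norm -/
  q : A →* B
  /-- the inclusion -/
  ι : B →* A
  q_ι : ∀ b, q (ι b) = b ^ 2
  /-- the non-zero integral elements of `E` -/
  Op : Set A
  /-- units of `E` -/
  EA : Subgroup A
  /-- units of `F` -/
  EB : Subgroup B
  q_mem : ∀ e ∈ EA, q e ∈ EB
  Op_mul : ∀ e ∈ EA, ∀ x ∈ Op, x * e ∈ Op
  /-- congruence subgroup of `E` -/
  VA : Subgroup A
  /-- congruence subgroup of `F` -/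
  VB : Subgroup B
  q_VA : ∀ v ∈ VA, q v ∈ VB
  /-- the Hecke character -/
  ψ : A → ℂ
  ψ_mul : ∀ x y, ψ (x * y) = ψ x * ψ y
  ψ_EA : ∀ e ∈ EA, ψ e = 1
  ψ_VA : ∀ v ∈ VA, ψ v = 1
  /-- the unramified quadratic character -/
  η : B → ℂ
  η_mul : ∀ d, η d * ψ (ι d) = 1
  /-- `|δ|_S ^ (1/2)` -/
  s : B → ℝ
  s_pos : ∀ b, 0 < s b
  s_mul : ∀ b c, s (b * c) = s b * s c
  /-- the product of the absolute values at the complex places -/
  nI : B → ℝ
  nI_pos : ∀ b, 0 < nI b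
  nI_mul : ∀ b c, nI (b * c) = nI b * nI c
  /-- product formula -/
  s_nI : ∀ e ∈ EB, s e * nI e = 1
  s_VB : ∀ v ∈ VB, s v = 1
  /-- the action of `diag(b,1)` -/
  act : B → X → X
  act_mul : ∀ b c P, act (b * c) P = act b (act c P)
  act_one : ∀ P, act 1 P = P
  /-- the Whittaker function -/
  W : X → B → ℂ
  W_act : ∀ b P ξ, W (act b P) ξ = nI b * W P (b * ξ)

namespace Dat

variable {A B X : Type*} [CommGroup A] [CommGroup B] (D : Dat A B X)

theorem s_one : D.s 1 = 1 := by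
  have h := D.s_mul 1 1
  rw [mul_one] at h
  have h1 := D.s_pos 1
  nlinarith [h, h1, mul_pos h1 h1]

theorem nI_one : D.nI 1 = 1 := by
  have h := D.nI_mul 1 1
  rw [mul_one] at h
  have h1 := D.nI_pos 1
  nlinarith [h, h1, mul_pos h1 h1]

/-- the norm one units -/
def U : Subgroup A := D.EA ⊓ D.q.ker

theorem q_U {u : A} (hu : u ∈ D.U) : D.q u = 1 := hu.2

theorem Op_iff {e : A} (he : e ∈ D.EA) (x : A) : x * e ∈ D.Op ↔ x ∈ D.Op := by
  refine ⟨fun h => ?_, D.Op_mul e he x⟩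
  have := D.Op_mul e⁻¹ (D.EA.inv_mem he) _ h
  rwa [mul_assoc, mul_inv_cancel, mul_one] at this

open Classical in
/-- the sum over one class: `x ∈ h (1 + N^k A_S)` modulo the small units of norm one -/
def G (h : A) (P : X) : ℂ :=
  qsum (D.U ⊓ D.VA) fun x => if x ∈ D.Op ∧ x * h⁻¹ ∈ D.VA then D.W P (D.q x) else 0

open Classical in
/-- the summand of `TH` -/
def fTH (δ : B) (P : X) (x : A) : ℂ :=
  if x ∈ D.Op ∧ D.q x * δ ∈ D.VB then D.ψ x * D.W P (D.q x) else 0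

/-- the theta part of `F δ` -/
def TH (δ : B) (P : X) : ℂ := D.s δ * qsum D.U (D.fTH δ P)

theorem inv_fTH (δ : B) (P : X) : Inv D.U (D.fTH δ P) := by
  intro u hu x
  unfold fTH
  rw [map_mul, D.q_U hu, mul_one, D.Op_iff hu.1, D.ψ_mul, D.ψ_EA u hu.1, mul_one]

theorem G_mul_V {v : A} (hv : v ∈ D.VA) (h : A) (P : X) : D.G (h * v) P = D.G h P := by
  unfold G
  refine qsum_congr _ fun x => ?_
  have : x * (h * v)⁻¹ ∈ D.VA ↔ x * h⁻¹ ∈ D.VA := by
    rw [mul_inv_rev, mul_comm v⁻¹, ← mul_assoc]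
    exact D.VA.mul_mem_cancel_right (D.VA.inv_mem hv)
  rw [this]

open Classical in
theorem inv_fG (h : A) (P : X) : Inv (D.U ⊓ D.VA)
    (fun x => if x ∈ D.Op ∧ x * h⁻¹ ∈ D.VA then D.W P (D.q x) else 0) := by
  intro u hu x
  simp only
  have h1 : x * u * h⁻¹ ∈ D.VA ↔ x * h⁻¹ ∈ D.VA := by
    rw [mul_right_comm]
    exact D.VA.mul_mem_cancel_right hu.2
  rw [map_mul, D.q_U hu.1, mul_one, D.Op_iff hu.1.1, h1]

theorem G_mul_U {u : A} (hu : u ∈ D.U) (h : A) (P : X) : D.G (h * u) P = D.G h P := by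
  classical
  have h1 := qsum_mul (D.U ⊓ D.VA) (D.inv_fG (h * u) P) u
  unfold G
  rw [← h1]
  refine qsum_congr _ fun x => ?_
  have h2 : x * u * (h * u)⁻¹ = x * h⁻¹ := by
    rw [mul_inv_rev, mul_assoc, ← mul_assoc u, mul_inv_cancel, one_mul]
  rw [h2, map_mul, D.q_U hu, mul_one, D.Op_iff hu.1]

open Classical in
/-- the summand over classes -/
def fH (δ : B) (P : X) (h : A) : ℂ := if D.q h * δ ∈ D.VB then D.ψ h * D.G h P else 0

theorem inv_fH (δ : B) (P : X) : Inv (D.U ⊔ D.VA) (D.fH δ P) := by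
  intro w hw h
  obtain ⟨u, hu, v, hv, rfl⟩ := Subgroup.mem_sup.mp hw
  unfold fH
  have h1 : D.q (h * (u * v)) * δ ∈ D.VB ↔ D.q h * δ ∈ D.VB := by
    rw [map_mul, map_mul, D.q_U hu, one_mul, mul_right_comm]
    exact D.VB.mul_mem_cancel_right (D.q_VA v hv)
  rw [h1, D.ψ_mul, D.ψ_mul, D.ψ_EA u hu.1, D.ψ_VA v hv, ← mul_assoc h u v, D.G_mul_V hv,
    D.G_mul_U hu, mul_one, mul_one]

theorem TH_eq (δ : B) (P : X) (hs : Summable fun c : A ⧸ D.U => D.fTH δ P c.out) :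
    D.TH δ P = D.s δ * qsum (D.U ⊔ D.VA) (D.fH δ P) := by
  classical
  unfold TH
  rw [qsum_regroup D.U D.VA (D.inv_fTH δ P) hs]
  congr 1
  unfold qsum
  refine tsum_congr fun b => ?_
  unfold fH G
  by_cases hb : D.q b.out * δ ∈ D.VB
  · rw [if_pos hb, ← qsum_mul_left]
    refine tsum_congr fun c => ?_
    beta_reduce
    by_cases hc : c.out * (b.out)⁻¹ ∈ D.VA
    · have h1 : D.q c.out * δ ∈ D.VB := by
        have h2 : D.q c.out * δ = D.q (c.out * (b.out)⁻¹) * (D.q b.out * δ) := by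
          rw [map_mul, map_inv]
          group
        rw [h2]
        exact D.VB.mul_mem (D.q_VA _ hc) hb
      have h3 : D.ψ c.out = D.ψ b.out := by
        have h4 := D.ψ_mul (c.out * (b.out)⁻¹) b.out
        rw [mul_assoc, inv_mul_cancel, mul_one, D.ψ_VA _ hc, one_mul] at h4
        exact h4
      rw [if_pos hc]
      unfold fTH
      by_cases hO : c.out ∈ D.Op
      · rw [if_pos ⟨hO, h1⟩, if_pos ⟨hO, hc⟩, h3]
      · rw [if_neg (fun h => hO h.1), if_neg (fun h => hO h.1), mul_zero]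
    · rw [if_neg hc, if_neg (fun h => hc h.2), mul_zero]
  · rw [if_neg hb]
    have h1 : ∀ c : A ⧸ (D.U ⊓ D.VA),
        (if c.out * (b.out)⁻¹ ∈ D.VA then D.fTH δ P c.out else 0) = 0 := by
      intro c
      split_ifs with hc
      · unfold fTH
        rw [if_neg]
        rintro ⟨-, h2⟩
        apply hb
        have h3 : D.q b.out * δ = (D.q (c.out * (b.out)⁻¹))⁻¹ * (D.q c.out * δ) := by
          rw [map_mul, map_inv]
          group
        rw [h3]
        exact D.VB.mul_mem (D.VB.inv_mem (D.q_VA _ hc)) h2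
      · rfl
    rw [tsum_congr h1, tsum_zero]

/-- **The law of the theta part**, from the law of the class sums. -/
theorem TH_law {δ d : B} {P P' : X} (hG : ∀ h, D.q h * δ ∈ D.VB →
      D.G h P' = (D.s d ^ 2 : ℝ) * D.η d * D.G (h * (D.ι d)⁻¹) P)
    (hs' : Summable fun c : A ⧸ D.U => D.fTH δ P' c.out)
    (hs : Summable fun c : A ⧸ D.U => D.fTH (δ * d ^ 2) P c.out) :
    D.TH δ P' = D.TH (δ * d ^ 2) P := by
  classical
  rw [D.TH_eq δ P' hs', D.TH_eq _ P hs,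
    ← qsum_mul (D.U ⊔ D.VA) (D.inv_fH (δ * d ^ 2) P) (D.ι d)⁻¹]
  have h1 : ∀ h, D.fH δ P' h =
      ((D.s d ^ 2 : ℝ) : ℂ) * D.fH (δ * d ^ 2) P (h * (D.ι d)⁻¹) := by
    intro h
    unfold fH
    have h2 : D.q (h * (D.ι d)⁻¹) * (δ * d ^ 2) = D.q h * δ := by
      rw [map_mul, map_inv, D.q_ι]
      rw [mul_assoc, mul_comm δ, ← mul_assoc _ _ δ, inv_mul_cancel, one_mul]
    rw [h2]
    split_ifs with hh
    · rw [hG h hh]
      have h3 : D.ψ h = D.ψ (h * (D.ι d)⁻¹) * D.ψ (D.ι d) := by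
        rw [← D.ψ_mul, mul_assoc, inv_mul_cancel, mul_one]
      rw [h3]
      have h4 := D.η_mul d
      linear_combination (D.ψ (h * (D.ι d)⁻¹) * (D.s d ^ 2 : ℝ) * D.G (h * (D.ι d)⁻¹) P) * h4
    · rw [mul_zero]
  rw [qsum_congr _ h1, qsum_mul_left, ← mul_assoc]
  congr 1
  rw [pow_two d, D.s_mul, D.s_mul]
  push_cast
  ring

/-! ### The family -/

/-- norms of units -/
def QE : Subgroup D.EB := (D.EA.map D.q).subgroupOf D.EB

theorem TH_act_q {e : A} (he : e ∈ D.EA) (δ : B) (P : X) :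
    D.TH (D.q e * δ) (D.act (D.q e) P) = D.TH δ P := by
  classical
  unfold TH
  rw [← qsum_mul D.U (D.inv_fTH δ P) e]
  have h1 : ∀ x, D.fTH (D.q e * δ) (D.act (D.q e) P) x = (D.nI (D.q e) : ℂ) * D.fTH δ P (x * e) := by
    intro x
    unfold fTH
    rw [D.Op_iff he, map_mul, D.ψ_mul, D.ψ_EA e he, mul_one, D.W_act, mul_assoc (D.q x),
      mul_comm (D.q e) (D.q x)]
    split_ifs
    · ring
    · rw [mul_zero]
  rw [qsum_congr _ h1, qsum_mul_left, ← mul_assoc, D.s_mul]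
  have h2 := D.s_nI (D.q e) (D.q_mem e he)
  have h3 : ((D.s (D.q e) * D.s δ : ℝ) : ℂ) * (D.nI (D.q e) : ℂ) = (D.s δ : ℂ) := by
    rw [← Complex.ofReal_mul]
    congr 1
    linear_combination D.s δ * h2
  rw [h3]

theorem TH_mul_VB {v : B} (hv : v ∈ D.VB) (δ : B) (P : X) : D.TH (δ * v) P = D.TH δ P := by
  unfold TH
  rw [D.s_mul, D.s_VB v hv, mul_one]
  congr 1
  refine qsum_congr _ fun x => ?_
  unfold fTH
  rw [← mul_assoc, D.VB.mul_mem_cancel_right hv]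

/-- the summand over the classes of units -/
def gF (δ : B) (P : X) (u : D.EB) : ℂ := D.TH (δ * (u : B)⁻¹) (D.act (u : B)⁻¹ P)

theorem inv_gF (δ : B) (P : X) : Inv D.QE (D.gF δ P) := by
  intro w hw u
  obtain ⟨e, he, hew⟩ := (Subgroup.mem_map.mp (Subgroup.mem_subgroupOf.mp hw))
  unfold gF
  have h1 : δ * (((u * w : D.EB) : B))⁻¹ = D.q e⁻¹ * (δ * (u : B)⁻¹) := by
    rw [map_inv, hew, Subgroup.coe_mul, mul_inv_rev]
    rw [← mul_assoc, ← mul_assoc, mul_comm δ]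
  have h2 : (((u * w : D.EB) : B))⁻¹ = D.q e⁻¹ * (u : B)⁻¹ := by
    rw [map_inv, hew, Subgroup.coe_mul, mul_inv_rev]
  rw [h1, h2, D.act_mul, D.TH_act_q (D.EA.inv_mem he)]

/-- **The family** `F δ`. -/
def FF (δ : B) (P : X) : ℂ := qsum D.QE (D.gF δ P)

/-- (F1) -/
theorem FF_mul_VB {v : B} (hv : v ∈ D.VB) (δ : B) (P : X) : D.FF (δ * v) P = D.FF δ P := by
  unfold FF
  refine qsum_congr _ fun u => ?_
  unfold gF
  rw [mul_right_comm, D.TH_mul_VB hv]

/-- (F2) -/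
theorem FF_act {ε : B} (hε : ε ∈ D.EB) (δ : B) (P : X) : D.FF (ε * δ) (D.act ε P) = D.FF δ P := by
  unfold FF
  rw [← qsum_mul D.QE (D.inv_gF δ P) (⟨ε, hε⟩⁻¹ : D.EB)]
  refine qsum_congr _ fun u => ?_
  unfold gF
  have h1 : ((u * (⟨ε, hε⟩⁻¹ : D.EB) : D.EB) : B)⁻¹ = (u : B)⁻¹ * ε := by
    rw [Subgroup.coe_mul, mul_inv_rev, Subgroup.coe_inv, inv_inv, mul_comm]
  rw [h1, D.act_mul]
  congr 1
  rw [mul_comm ε δ, mul_assoc, mul_comm ε]

/-- (F3), from the law of the theta parts -/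
theorem FF_law {δ d : B} {P P' : X}
    (h : ∀ u ∈ D.EB, D.TH (δ * u⁻¹) (D.act u⁻¹ P') = D.TH (δ * u⁻¹ * d ^ 2) (D.act u⁻¹ P)) :
    D.FF δ P' = D.FF (δ * d ^ 2) P := by
  unfold FF
  refine qsum_congr _ fun u => ?_
  unfold gF
  rw [h u u.2, mul_right_comm]

/-! ### The expansion -/

/-- indices of the expansion: unit classes and elements of `E` modulo units of norm one, i.e. pairs
(element of `F`, ideal of `E`) -/
abbrev Idx : Type _ := (D.EB ⧸ D.QE) × (A ⧸ D.U)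

/-- the element of `F` -/
def xi (p : D.Idx) : B := D.q p.2.out * ((p.1.out : D.EB) : B)⁻¹

open Classical in
/-- the coefficient -/
def cf (p : D.Idx) : ℂ := if p.2.out ∈ D.Op then D.ψ p.2.out else 0

/-- the coefficients of the family -/
def lam (ξ : B) : ℂ := ∑' p : {p : D.Idx // D.xi p = ξ}, D.cf p.1

open Classical in
/-- the terms of the expansion -/
def tm (δ : B) (P : X) (p : D.Idx) : ℂ := if D.xi p * δ ∈ D.VB then D.cf p * D.W P (D.xi p) else 0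

theorem s_mul_fTH (δ : B) (P : X) (p : D.Idx) :
    (D.s (δ * ((p.1.out : D.EB) : B)⁻¹) : ℂ) *
      D.fTH (δ * ((p.1.out : D.EB) : B)⁻¹) (D.act ((p.1.out : D.EB) : B)⁻¹ P) p.2.out =
      D.s δ * D.tm δ P p := by
  classical
  set u : B := ((p.1.out : D.EB) : B) with hu
  have huE : u ∈ D.EB := (p.1.out : D.EB).2
  unfold fTH tm cf
  have h1 : D.xi p = D.q p.2.out * u⁻¹ := rfl
  have h2 : D.xi p * δ ∈ D.VB ↔ D.q p.2.out * (δ * u⁻¹) ∈ D.VB := by
    rw [h1, mul_assoc, mul_comm u⁻¹]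
  have h3 : D.W (D.act u⁻¹ P) (D.q p.2.out) = D.nI u⁻¹ * D.W P (D.xi p) := by
    rw [D.W_act, h1, mul_comm u⁻¹]
  have h4 : ((D.s (δ * u⁻¹) : ℝ) : ℂ) * (D.nI u⁻¹ : ℂ) = D.s δ := by
    rw [D.s_mul, ← Complex.ofReal_mul]
    congr 1
    linear_combination D.s δ * D.s_nI u⁻¹ (D.EB.inv_mem huE)
  rw [h2, h3]
  by_cases hO : p.2.out ∈ D.Op <;> by_cases hV : D.q p.2.out * (δ * u⁻¹) ∈ D.VB
  · rw [if_pos ⟨hO, hV⟩, if_pos hV, if_pos hO]
    linear_combination (D.ψ p.2.out * D.W P (D.xi p)) * h4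
  · rw [if_neg (fun h => hV h.2), if_neg hV, mul_zero, mul_zero]
  · rw [if_neg (fun h => hO h.1), if_pos hV, if_neg hO, mul_zero, zero_mul, mul_zero]
  · rw [if_neg (fun h => hO h.1), if_neg hV, mul_zero, mul_zero]

theorem summable_fTH {δ : B} {P : X} (hs : Summable (D.tm δ P)) (c : D.EB ⧸ D.QE) :
    Summable fun x : A ⧸ D.U =>
      D.fTH (δ * ((c.out : D.EB) : B)⁻¹) (D.act ((c.out : D.EB) : B)⁻¹ P) x.out := by
  have h1 : Summable fun x : A ⧸ D.U => (D.s δ : ℂ) * D.tm δ P (c, x) :=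
    (hs.comp_injective (fun x y h => (Prod.mk.inj h).2)).mul_left _
  have h2 : ((D.s (δ * ((c.out : D.EB) : B)⁻¹) : ℝ) : ℂ) ≠ 0 :=
    Complex.ofReal_ne_zero.mpr (D.s_pos _).ne'
  refine (summable_mul_left_iff h2).mp ?_
  refine h1.congr fun x => ?_
  rw [← D.s_mul_fTH δ P (c, x)]

theorem FF_eq_tsum {δ : B} {P : X} (hs : Summable (D.tm δ P)) :
    D.FF δ P = D.s δ * ∑' p, D.tm δ P p := by
  rw [← tsum_mul_left]
  have hs' : Summable fun p : D.Idx => (D.s δ : ℂ) * D.tm δ P p := hs.mul_left _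
  rw [hs'.tsum_prod]
  unfold FF qsum
  refine tsum_congr fun c => ?_
  unfold gF TH qsum
  rw [← tsum_mul_left]
  refine tsum_congr fun x => ?_
  exact D.s_mul_fTH δ P (c, x)

open Classical in
/-- **The expansion of the family.** -/
theorem FF_eq {δ : B} {P : X} (hs : Summable (D.tm δ P)) :
    D.FF δ P = D.s δ * ∑' ξ : B, if ξ * δ ∈ D.VB then D.lam ξ * D.W P ξ else 0 := by
  rw [D.FF_eq_tsum hs]
  congr 1
  rw [← (Equiv.sigmaFiberEquiv D.xi).tsum_eq]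
  have hs' : Summable fun p : Σ ξ : B, {p : D.Idx // D.xi p = ξ} =>
      D.tm δ P (Equiv.sigmaFiberEquiv D.xi p) := (Equiv.sigmaFiberEquiv D.xi).summable_iff.mpr hs
  rw [hs'.tsum_sigma]
  refine tsum_congr fun ξ => ?_
  have h1 : ∀ p : {p : D.Idx // D.xi p = ξ},
      D.tm δ P (Equiv.sigmaFiberEquiv D.xi ⟨ξ, p⟩) =
        (if ξ * δ ∈ D.VB then D.W P ξ else 0) * D.cf p.1 := by
    intro p
    have h2 : Equiv.sigmaFiberEquiv D.xi ⟨ξ, p⟩ = p.1 := rfl
    rw [h2]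
    unfold tm
    rw [p.2]
    split_ifs
    · ring
    · rw [zero_mul]
  rw [tsum_congr h1, tsum_mul_left]
  unfold lam
  split_ifs
  · ring
  · rw [zero_mul]

end Dat

end Fermat.Agent.LT.B11
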