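import Fermat.Agent.LT.B11.Residue
import Fermat.Agent.LT.B11.Wh
import Fermat.Agent.LT.B11.ExtNF
import Fermat.Agent.LT.Coef.Lam
import Fermat.Agent.LT.Theta11.HeckeF
import Fermat.Agent.LT.Theta

/-!
# The Hecke operators on the function `Φ` of B11 (G)

* `wh_nn` : the Whittaker function under `n(x)`;
* `hasSum_FF` : the expansion of `FF δ` as a `HasSum` over `Fˣ`;
* `sum_reps` : the sum over any system of representatives modulo `π`;
* `hecke` : `T_v Φ = √(N v) x_v Φ` for helper37's `Fam.Phi`, every place `v ∤ N`, every generator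
  `π`, every system of representatives.
-/

set_option autoImplicit false
set_option linter.unusedSectionVars false

noncomputable section

namespace Fermat.Agent.LT.B11.Hk

open Matrix NumberField IsDedekindDomain
open Fermat.Agent.LT.SAd
open Fermat.Agent.CFT.SUnits (ord ord_mul ord_inv ord_div)

/-! ### bridges between the elements of `HeckeT` and those of `Ext` -/

section Bridge

variable {F : Type*} [Field F]

theorem dg_eq (δ : Fˣ) : (HeckeT.dg δ 1 : GL (Fin 2) F) = dg δ := by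
  apply ext4 <;> rfl

theorem nn_eq (b : F) : (HeckeT.nn b : GL (Fin 2) F) = nn b := by
  apply ext4 <;> rfl

theorem sc_eq (z : Fˣ) : (HeckeT.dg z z : GL (Fin 2) F) = sc z := by
  apply ext4 <;> rfl

theorem ainf_eq (π : Fˣ) : (HeckeT.ainf π : GL (Fin 2) F) = dg π := dg_eq π

/-- `α_b = (1 b; 0 π)`. -/
def alp (b : F) (π : Fˣ) : GL (Fin 2) F := up 1 b π one_ne_zero π.ne_zero

@[simp] theorem alp_apply00 (b : F) (π : Fˣ) : alp b π 0 0 = 1 := rfl
@[simp] theorem alp_apply01 (b : F) (π : Fˣ) : alp b π 0 1 = b := rfl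
@[simp] theorem alp_apply10 (b : F) (π : Fˣ) : alp b π 1 0 = 0 := rfl
@[simp] theorem alp_apply11 (b : F) (π : Fˣ) : alp b π 1 1 = π := rfl

theorem ab_eq (π : Fˣ) (b : F) : (HeckeT.ab π b : GL (Fin 2) F) = alp b π := by
  have h := HeckeT.val_ab π b
  apply ext4
  · exact congrFun (congrFun h 0) 0
  · exact congrFun (congrFun h 0) 1
  · exact congrFun (congrFun h 1) 0
  · exact congrFun (congrFun h 1) 1

theorem alp_add (b t : F) (π : Fˣ) : alp (b + t * π) π = nn t * alp b π := by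
  apply ext4 <;> simp [coe_mul_apply]

end Bridge

/-! ### the Whittaker function -/

section Wh

variable {F : Type*} [Field F] [NumberField F]

theorem map_nn_apply (w : InfinitePlace F) (b : F) (i j : Fin 2) :
    (GeneralLinearGroup.map (n := Fin 2) w.embedding (nn b)) i j = w.embedding (nn b i j) := rfl

theorem z_nn_smul (b : F) (P : Xi F) (w : InfinitePlace F) :
    ((nn b • P) w).z = (P w).z + w.embedding b := by
  rw [Xi.smul_apply, H3.z_smul_of_upper (by rw [map_nn_apply, nn_apply10, map_zero])]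
  rw [map_nn_apply, map_nn_apply, map_nn_apply, nn_apply00, nn_apply01, nn_apply11,
    map_one, div_one, one_mul]

theorem y_nn_smul (b : F) (P : Xi F) (w : InfinitePlace F) :
    ((nn b • P) w).y = (P w).y := by
  rw [Xi.smul_apply, H3.y_smul_of_upper (by rw [map_nn_apply, nn_apply10, map_zero])]
  rw [map_nn_apply, map_nn_apply, nn_apply00, nn_apply11, map_one, div_one, norm_one, one_mul]

theorem sum_re_eq_trace [IsTotallyComplex F] (x : F) :
    ∑ w : InfinitePlace F, 2 * (w.embedding x).re = (Algebra.trace ℚ F x : ℝ) := by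
  have h := Chr.trI_diagI (Chr.isHalf_infinitePlace (F := F)) x
  rw [← h]
  rfl

theorem wh_nn [IsTotallyComplex F] (x : F) (P : Xi F) (ξ : F) :
    wh (nn x • P) ξ = HeckeT.eQ (Algebra.trace ℚ F (ξ * x)) * wh P ξ := by
  unfold wh
  have h1 : HeckeT.eQ (Algebra.trace ℚ F (ξ * x)) = ∏ w : InfinitePlace F,
      Complex.exp (2 * Real.pi * Complex.I * ((2 * (w.embedding (ξ * x)).re : ℝ) : ℂ)) := by
    rw [← Complex.exp_sum, ← Finset.mul_sum, ← Complex.ofReal_sum, sum_re_eq_trace]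
    unfold HeckeT.eQ
    congr 1
  rw [h1, ← Finset.prod_mul_distrib]
  refine Finset.prod_congr rfl fun w _ => ?_
  rw [z_nn_smul, y_nn_smul, mul_add, Complex.add_re, mul_add, Complex.ofReal_add, mul_add,
    Complex.exp_add, map_mul]
  ring

end Wh

/-! ### the expansion of the family -/

section Exp

variable {A B X : Type*} [CommGroup A] [CommGroup B] (D : Dat A B X)

open Classical in
/-- **The expansion of `FF δ`** as a sum over `B`. -/
theorem hasSum_FF {δ : B} {P : X} (hs : Summable (D.tm δ P)) :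
    HasSum (fun ξ : B => (D.s δ : ℂ) * (if ξ * δ ∈ D.VB then D.lam ξ * D.W P ξ else 0))
      (D.FF δ P) := by
  rw [D.FF_eq_tsum hs]
  refine HasSum.mul_left _ ?_
  have hs' : Summable fun p : Σ ξ : B, {p : D.Idx // D.xi p = ξ} =>
      D.tm δ P (Equiv.sigmaFiberEquiv D.xi p) := (Equiv.sigmaFiberEquiv D.xi).summable_iff.mpr hs
  have h0 := hs'.hasSum
  rw [(Equiv.sigmaFiberEquiv D.xi).tsum_eq (D.tm δ P)] at h0
  refine h0.sigma fun ξ => ?_
  have h1 := (hs'.sigma_factor ξ).hasSum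
  have h2 : ∑' p : {p : D.Idx // D.xi p = ξ}, D.tm δ P (Equiv.sigmaFiberEquiv D.xi ⟨ξ, p⟩) =
      if ξ * δ ∈ D.VB then D.lam ξ * D.W P ξ else 0 := by
    have h3 : ∀ p : {p : D.Idx // D.xi p = ξ},
        D.tm δ P (Equiv.sigmaFiberEquiv D.xi ⟨ξ, p⟩) =
          (if ξ * δ ∈ D.VB then D.W P ξ else 0) * D.cf p.1 := by
      intro p
      have h4 : Equiv.sigmaFiberEquiv D.xi ⟨ξ, p⟩ = p.1 := rfl
      rw [h4]
      unfold Dat.tm
      rw [p.2]
      split_ifs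
      · ring
      · rw [zero_mul]
    rw [tsum_congr h3, tsum_mul_left]
    unfold Dat.lam
    split_ifs
    · ring
    · rw [zero_mul]
  rw [← h2]
  exact h1

end Exp

/-! ### the Hecke operator -/

section Main

variable {F : Type*} [Field F] [NumberField F] {N : ℕ} [NeZero N]

/-- a system of representatives of `RS F N` modulo `v`. -/
structure IsRepsN (N : ℕ) (v : HeightOneSpectrum (𝓞 F)) (B : Finset F) : Prop where
  mem : ∀ b ∈ B, b ∈ RS F N
  exU : ∀ x ∈ RS F N, ∃! b, b ∈ B ∧ v.valuation F (x - b) < 1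

variable {v : HeightOneSpectrum (𝓞 F)} (hv : (N : 𝓞 F) ∉ v.asIdeal) {π : Fˣ} (h1 : ord v π = 1)
  (h0 : ∀ w : HeightOneSpectrum (𝓞 F), (N : 𝓞 F) ∉ w.asIdeal → w ≠ v → ord w π = 0)
  {X : Type*} [MulAction (GL (Fin 2) F) X]

include hv h1 h0 in
/-- the sum over any system of representatives. -/
theorem sum_reps {Φ : X → GL (Fin 2) F → ℂ}
    (hl : ∀ r ∈ RS F N, ∀ P g, Φ (nn r • P) (nn r * g) = Φ P g)
    {p : RS F N} (hp : (p : F) = π) [Fintype (RS F N ⧸ Ideal.span {p})]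
    {B : Finset F} (hB : IsRepsN N v B) (P : X) (g : GL (Fin 2) F) :
    HeckeT.tt p π Φ P g =
      Φ (dg π • P) (dg π * g) + ∑ b ∈ B, Φ (alp b π • P) (alp b π * g) := by
  classical
  have hmap : ∀ g : GL (Fin 2) F, GeneralLinearGroup.map (algebraMap F F) g = g := by
    intro g
    apply Units.ext
    ext i j
    rfl
  unfold HeckeT.tt HeckeT.tr
  simp only [hmap, ainf_eq, ab_eq]
  congr 1
  have hval : ∀ (c : RS F N ⧸ Ideal.span {p}) (b : F), b ∈ B →
      v.valuation F ((c.out : RS F N) - b) < 1 → ∃ t ∈ RS F N, ((c.out : RS F N) : F) = b + t * π := by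
    intro c b hb h
    obtain ⟨t, ht, he⟩ := (Res.exists_mul_iff_val_lt hv h1 h0
      ((RS F N).sub_mem (c.out : RS F N).2 (hB.mem b hb))).mpr h
    exact ⟨t, ht, by linear_combination he⟩
  choose r hr hru using hB.exU
  refine Finset.sum_bij (fun c _ => r ((c.out : RS F N) : F) (c.out : RS F N).2) ?_ ?_ ?_ ?_
  · intro c _
    exact (hr _ _).1
  · intro c _ c' _ h
    obtain ⟨t, ht, he⟩ := hval c _ (hr _ (c.out : RS F N).2).1 (hr _ (c.out : RS F N).2).2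
    obtain ⟨t', ht', he'⟩ := hval c' _ (hr _ (c'.out : RS F N).2).1 (hr _ (c'.out : RS F N).2).2
    rw [← Ideal.Quotient.mk_out c, ← Ideal.Quotient.mk_out c', Ideal.Quotient.eq,
      Ideal.mem_span_singleton]
    refine ⟨⟨t - t', (RS F N).sub_mem ht ht'⟩, Subtype.ext ?_⟩
    show ((c.out : RS F N) : F) - ((c'.out : RS F N) : F) = (p : F) * (t - t')
    rw [hp]
    linear_combination he - he' + h
  · intro b hb
    refine ⟨Ideal.Quotient.mk _ ⟨b, hB.mem b hb⟩, Finset.mem_univ _, ?_⟩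
    set c : RS F N ⧸ Ideal.span {p} := Ideal.Quotient.mk _ ⟨b, hB.mem b hb⟩ with hc
    have h2 : v.valuation F (((c.out : RS F N) : F) - b) < 1 := by
      rw [← Res.exists_mul_iff_val_lt hv h1 h0
        ((RS F N).sub_mem (c.out : RS F N).2 (hB.mem b hb))]
      have h3 : (c.out : RS F N) - ⟨b, hB.mem b hb⟩ ∈ Ideal.span {p} := by
        rw [← Ideal.Quotient.eq, Ideal.Quotient.mk_out]
      obtain ⟨t, ht⟩ := Ideal.mem_span_singleton.mp h3
      refine ⟨t, t.2, ?_⟩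
      rw [← hp]
      exact congrArg Subtype.val ht
    exact (hru _ (c.out : RS F N).2 b ⟨hb, h2⟩).symm
  · intro c _
    obtain ⟨t, ht, he⟩ := hval c _ (hr _ (c.out : RS F N).2).1 (hr _ (c.out : RS F N).2).2
    have e : alp ((c.out : RS F N) : F) π =
        nn t * alp (r ((c.out : RS F N) : F) (c.out : RS F N).2) π := by
      rw [← alp_add]
      exact congrArg (fun y => alp y π) he
    show Φ (alp ((c.out : RS F N) : F) π • P) (alp ((c.out : RS F N) : F) π * g) = _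
    rw [e, mul_smul, mul_assoc, hl t ht]

variable {A : Type*} [CommGroup A] {k m : ℕ}

theorem toF_mem_GLR (γ : GL (Fin 2) (RS F N)) : HeckeT.toF (F := F) γ ∈ GLR (RS F N) := by
  have h1 : ∀ (γ : GL (Fin 2) (RS F N)) (i j : Fin 2), HeckeT.toF (F := F) γ i j ∈ RS F N :=
    fun γ i j => (γ i j).2
  refine ⟨h1 γ, ?_⟩
  rw [← map_inv, det_eq, ← map_inv]
  exact (RS F N).sub_mem ((RS F N).mul_mem (h1 _ _ _) (h1 _ _ _))
    ((RS F N).mul_mem (h1 _ _ _) (h1 _ _ _))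

theorem exists_toF {γ : GL (Fin 2) F} (hγ : γ ∈ SLR (RS F N)) :
    ∃ γ' : GL (Fin 2) (RS F N), HeckeT.toF (F := F) γ' = γ := by
  have hdet : γ 0 0 * γ 1 1 - γ 0 1 * γ 1 0 = 1 := by rw [← det_eq, hγ.1]; rfl
  refine ⟨HeckeT.mk4 ⟨γ 0 0, hγ.2 _ _⟩ ⟨γ 0 1, hγ.2 _ _⟩ ⟨γ 1 0, hγ.2 _ _⟩ ⟨γ 1 1, hγ.2 _ _⟩ 1
    (Subtype.ext hdet), ?_⟩
  apply ext4 <;> rfl

/-- **`T_v Φ = √(N v) x_v Φ`** (abstract family with an expansion). -/
theorem hecke_abs {m₀ : ℕ} (hD : DiffBound F N m₀)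
    (D : Dat A Fˣ X) (H : HeckeT.DatOK N D)
    (T : Two (AS F N) (RS F N) (N : F)) (hk : 1 ≤ k) (hkm : k ≤ m)
    (Fm : Fam (AS F N) (RS F N) (N : F) k m X ℂ) (hFm : ∀ δ P, Fm.f δ P = D.FF δ P)
    (hs : ∀ δ P, Summable (D.tm δ P))
    {S : Finset (HeightOneSpectrum (𝓞 F))} (hS : ∀ v, v ∈ S ↔ (N : 𝓞 F) ∈ v.asIdeal)
    {x : HeightOneSpectrum (𝓞 F) → ℂ} (hlam : ∀ ξ, D.lam ξ = Coef.lam S x ξ)
    (hmm : ∀ d : Fˣ, D.s d * D.nI d = Real.sqrt (nR F N d))
    {B : Finset F} (hB : IsRepsN N v B) (hv : (N : 𝓞 F) ∉ v.asIdeal) (h1 : ord v π = 1)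
    (h0 : ∀ w : HeightOneSpectrum (𝓞 F), (N : 𝓞 F) ∉ w.asIdeal → w ≠ v → ord w π = 0)
    (P : X) (g : GL (Fin 2) F) :
    Fm.Phi T hk hkm (dg π • P) (dg π * g) +
      ∑ b ∈ B, Fm.Phi T hk hkm (alp b π • P) (alp b π * g) =
      (Real.sqrt (Ideal.absNorm v.asIdeal) : ℂ) * x v * Fm.Phi T hk hkm P g := by
  classical
  have hfin := Res.finite_resRS hv h1 h0
  have : Fintype (RS F N ⧸ Ideal.span {(⟨π, Res.unif_mem_RS hv h1 h0⟩ : RS F N)}) :=
    Fintype.ofFinite _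
  have hΓ : ∀ (γ : GL (Fin 2) (RS F N)) (P : X) (g : GL (Fin 2) F),
      Fm.Phi T hk hkm (HeckeT.toF (F := F) γ • P) (HeckeT.toF (F := F) γ * g) =
        Fm.Phi T hk hkm P g := fun γ P g => Fm.Phi_smul T hk hkm (toF_mem_GLR γ) P g
  have hl : ∀ r ∈ RS F N, ∀ P g, Fm.Phi T hk hkm (nn r • P) (nn r * g) = Fm.Phi T hk hkm P g :=
    fun r hr P g => Fm.Phi_smul_SL T hk hkm (nn_mem_SLR hr) P g
  rw [← sum_reps hv h1 h0 hl (p := ⟨π, Res.unif_mem_RS hv h1 h0⟩) rfl hB]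
  have hmmπ : HeckeT.mm D π = (Real.sqrt (Ideal.absNorm v.asIdeal) : ℂ) := by
    unfold HeckeT.mm
    rw [← Complex.ofReal_mul, hmm, Res.nR_unif hv h1 h0]
  have key := HeckeT.tt_Phi (N := N) (D := D) (π := π) hD H (Φ := Fm.Phi T hk hkm) hΓ ?_
    {u | InK (AS F N) (N : F) k m u} ?_ ?_ ?_ ?_ (Res.isMaximal_span hv h1 h0) rfl ?_
    (x := x v) ?_ P g
  · rw [key, hmmπ]
  · intro P g z
    rw [sc_eq]
    exact Fm.Phi_mul_sc T hk hkm z P g
  · intro u hu P g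
    exact Fm.Phi_mul_K T hk hkm hu P g
  · intro a ha
    rw [nn_eq]
    exact ⟨⟨0, (AS F N).zero_mem, by simp⟩, ⟨0, (AS F N).zero_mem, by simp⟩, by simpa using ha,
      ⟨0, (AS F N).zero_mem, by simp⟩⟩
  · intro g
    obtain ⟨γ, κ, h⟩ := Fam.exists_dec (A := AS F N) (R := RS F N) (ν := (N : F)) T hk hkm g
    obtain ⟨γ', rfl⟩ := exists_toF h.mem
    refine ⟨γ', 0, GeneralLinearGroup.det g, 1, κ, h.inK, ?_⟩
    rw [h.eq, dg_eq, nn_eq, sc_eq, nn_zero, one_mul, sc_one, mul_one, mul_one]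
  · intro P δ
    have h2 := hasSum_FF D (hs δ P)
    rw [← hFm, ← Fm.Phi_dg T hk hkm δ P, ← dg_eq] at h2
    refine HeckeT.hasSum_of_eq h2 (fun ξ => ?_)
    unfold HeckeT.tmU
    rw [mul_zero, AddChar.map_zero_eq_one, mul_one]
  · rw [hmmπ, ← Nat.card_eq_fintype_card, Res.card_resRS hv h1 h0, ← Complex.ofReal_pow,
      Real.sq_sqrt (Nat.cast_nonneg _)]
    norm_num
  · intro ξ hξ
    have hvS : v ∉ S := fun h => hv ((hS v).mp h)
    have h2 := Coef.lam_hecke (S := S) (x := x) hvS h1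
      (fun w hw hwv => h0 w (fun h => hw ((hS w).mpr h)) hwv)
      (ξ := ξ) (mem_RS_iff_ord.mp hξ v hv)
    rw [hlam, hlam, hlam, mul_comm ξ π, ← div_eq_mul_inv]
    exact h2

/-- support of the coefficients. -/
theorem lam_supp {S : Finset (HeightOneSpectrum (𝓞 F))}
    (hS : ∀ v, v ∈ S ↔ (N : 𝓞 F) ∈ v.asIdeal) {x : HeightOneSpectrum (𝓞 F) → ℂ} {ξ : Fˣ}
    (h : Coef.lam S x ξ ≠ 0) : (ξ : F) ∈ RS F N := by
  rw [mem_RS_iff_ord]
  intro v hv
  by_contra hcon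
  exact h (Coef.lam_eq_zero (fun h => hv ((hS v).mp h)) (not_le.mp hcon))

end Main

/-! ### the concrete form on `Xi F` with the Whittaker function `wh` -/

section Conc

variable {F : Type*} [Field F] [NumberField F] [IsTotallyComplex F] {N : ℕ} [NeZero N]
  {A : Type*} [CommGroup A]

theorem datOK (D : Dat A Fˣ (Xi F)) (hact : ∀ b P, D.act b P = dg b • P)
    (hW : ∀ P (ξ : Fˣ), D.W P ξ = wh P (ξ : F)) {k : ℕ} (hVB : D.VB = VN F N k)
    {S : Finset (HeightOneSpectrum (𝓞 F))} (hS : ∀ v, v ∈ S ↔ (N : 𝓞 F) ∈ v.asIdeal)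
    {x : HeightOneSpectrum (𝓞 F) → ℂ} (hlam : ∀ ξ, D.lam ξ = Coef.lam S x ξ) :
    HeckeT.DatOK N D where
  act_eq b P := by rw [hact, dg_eq]
  scalar_smul z P := by
    rw [sc_eq, ← scalar_eq_sc]
    exact TrivScalar.scalar_smul z P
  W_nn y P ξ := by
    rw [nn_eq, hW, hW, wh_nn]
  VB_AS u hu := by
    rw [hVB, mem_VN] at hu
    exact hu.2.2.1
  lam_supp ξ h := lam_supp hS (by rwa [← hlam])

/-- **The clause `hecke` of B11.** -/
theorem hecke {m₀ : ℕ} (hD : DiffBound F N m₀)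
    (D : Dat A Fˣ (Xi F)) (hact : ∀ b P, D.act b P = dg b • P)
    (hW : ∀ P (ξ : Fˣ), D.W P ξ = wh P (ξ : F)) {k m k' : ℕ} (hVB : D.VB = VN F N k')
    (T : Two (AS F N) (RS F N) (N : F)) (hk : 1 ≤ k) (hkm : k ≤ m)
    (Fm : Fam (AS F N) (RS F N) (N : F) k m (Xi F) ℂ) (hFm : ∀ δ P, Fm.f δ P = D.FF δ P)
    (hs : ∀ δ P, Summable (D.tm δ P))
    {x : HeightOneSpectrum (𝓞 F) → ℂ} (hlam : ∀ ξ, D.lam ξ = Coef.lam (pl F N) x ξ)
    (hmm : ∀ d : Fˣ, D.s d * D.nI d = Real.sqrt (nR F N d))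
    {v : HeightOneSpectrum (𝓞 F)} (hv : (N : 𝓞 F) ∉ v.asIdeal) {π : Fˣ} (h1 : ord v π = 1)
    (h0 : ∀ w : HeightOneSpectrum (𝓞 F), (N : 𝓞 F) ∉ w.asIdeal → w ≠ v → ord w π = 0)
    {B : Finset F} (hB : IsRepsN N v B) (P : Xi F) (g : GL (Fin 2) F) :
    Fm.Phi T hk hkm (dg π • P) (dg π * g) +
      ∑ b ∈ B, Fm.Phi T hk hkm (alp b π • P) (alp b π * g) =
      (Real.sqrt (Ideal.absNorm v.asIdeal) : ℂ) * x v * Fm.Phi T hk hkm P g :=
  hecke_abs hD D (datOK D hact hW hVB (fun _ => mem_pl) hlam) T hk hkm Fm hFm hs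
    (fun _ => mem_pl) hlam hmm hB hv h1 h0 P g

end Conc

end Fermat.Agent.LT.B11.Hk

end
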