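import Fermat.Agent.LT.B11.Hecke
import Fermat.Agent.LT.B11.Frame
import Fermat.Agent.LT.Form

/-!
# The clause `hecke` of `LT.IsFormA` for the theta family of a tower (helper58)
-/

set_option autoImplicit false
set_option linter.unusedSectionVars false

noncomputable section

namespace Fermat.Agent.LT.B11.Hk

open IsDedekindDomain NumberField Matrix WithZero
open Fermat.Agent.CFT.Places
open Fermat.Agent.CFT.SUnits (ord valuation_eq_exp_neg_ord)
open Fermat.Agent.LT.Psi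
open Fermat.Agent.LT.SAd

section Gen

variable {F : Type*} [Field F] [NumberField F] {N : ℕ} [NeZero N]

/-- the orders of a generator, from the divisibility criterion. -/
theorem ord_of_crit {v : HeightOneSpectrum (𝓞 F)} {π : Fˣ} (hv : (N : 𝓞 F) ∉ v.asIdeal)
    (h : ∀ t ∈ RS F N, (∃ t' ∈ RS F N, t = π * t') ↔ v.valuation F t < 1)
    (hπ : (π : F) ∈ RS F N) :
    ord v π = 1 ∧ ∀ w : HeightOneSpectrum (𝓞 F), (N : 𝓞 F) ∉ w.asIdeal → w ≠ v → ord w π = 0 := by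
  have hint : ∀ y : 𝓞 F, (y : F) ∈ RS F N := fun y => mem_RS_of_isIntegral y.2
  constructor
  · have h1 : v.valuation F (π : F) < 1 := (h π hπ).mp ⟨1, (RS F N).one_mem, by rw [mul_one]⟩
    rw [valuation_eq_exp_neg_ord, ← exp_zero, exp_lt_exp] at h1
    obtain ⟨y, hy⟩ := v.intValuation_exists_uniformizer
    have h2 : v.valuation F (y : F) = exp (-1 : ℤ) := by
      rw [← hy]
      exact v.valuation_of_algebraMap y
    obtain ⟨t', ht', he⟩ := (h (y : F) (hint y)).mpr (by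
      rw [h2, ← exp_zero, exp_lt_exp]; norm_num)
    have h3 := congrArg (v.valuation F) he
    rw [map_mul, h2] at h3
    have h4 : exp (-1 : ℤ) ≤ v.valuation F (π : F) := by
      rw [h3]
      exact mul_le_of_le_one_right' (mem_RS_iff.mp ht' v hv)
    rw [valuation_eq_exp_neg_ord, exp_le_exp] at h4
    omega
  · intro w hw hwv
    have h1 : 0 ≤ ord w π := mem_RS_iff_ord.mp hπ w hw
    by_contra hne
    obtain ⟨y, hyv, hyw⟩ : ∃ y : 𝓞 F, y ∈ v.asIdeal ∧ y ∉ w.asIdeal := by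
      by_contra hcon
      push Not at hcon
      have h2 : v.asIdeal ≤ w.asIdeal := hcon
      have h3 := v.isMaximal.eq_of_le w.isPrime.ne_top h2
      exact hwv (HeightOneSpectrum.ext h3.symm)
    have h2 : v.valuation F (y : F) < 1 := (v.valuation_lt_one_iff_mem (K := F) y).mpr hyv
    obtain ⟨t', ht', he⟩ := (h (y : F) (hint y)).mpr h2
    have h3 := congrArg (w.valuation F) he
    have h4 : w.valuation F (y : F) < 1 := by
      rw [h3, map_mul]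
      refine lt_of_le_of_lt (mul_le_of_le_one_right' (mem_RS_iff.mp ht' w hw)) ?_
      rw [valuation_eq_exp_neg_ord, ← exp_zero, exp_lt_exp]
      omega
    exact hyw ((w.valuation_lt_one_iff_mem (K := F) y).mp h4)

theorem mkOfDetNeZero_eq_alp {b : F} {π : Fˣ} (h : det !![1, b; 0, (π : F)] ≠ 0) :
    GeneralLinearGroup.mkOfDetNeZero !![1, b; 0, (π : F)] h = alp b π := by
  apply ext4 <;> rfl

theorem mkOfDetNeZero_eq_dg {π : Fˣ} (h : det !![(π : F), 0; 0, 1] ≠ 0) :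
    GeneralLinearGroup.mkOfDetNeZero !![(π : F), 0; 0, 1] h = dg π := by
  apply ext4 <;> rfl

/-- **from the form with `ord` to the literal form of `LT.IsFormA`.** -/
theorem hecke_of_ord {Φ : Xi F → GL (Fin 2) F → ℂ} {c : HeightOneSpectrum (𝓞 F) → ℂ}
    (h : ∀ v : HeightOneSpectrum (𝓞 F), (N : 𝓞 F) ∉ v.asIdeal → ∀ π : Fˣ, ord v π = 1 →
      (∀ v' : HeightOneSpectrum (𝓞 F), (N : 𝓞 F) ∉ v'.asIdeal → v' ≠ v → ord v' π = 0) →
      ∀ B : Finset F, IsRepsN N v B → ∀ (P : Xi F) (g : GL (Fin 2) F),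
        Φ (dg π • P) (dg π * g) + ∑ b ∈ B, Φ (alp b π • P) (alp b π * g) = c v * Φ P g) :
    ∀ v : HeightOneSpectrum (𝓞 F), (N : 𝓞 F) ∉ v.asIdeal →
    ∀ (π : F) (hπ : π ≠ 0), (∀ t ∈ SAd.RS F N, (∃ t' ∈ SAd.RS F N, t = π * t') ↔
        v.valuation F t < 1) → π ∈ SAd.RS F N →
    ∀ B : Finset F, IsReps (SAd.RS F N) π B → ∀ P g,
      (∑ b ∈ B, Φ (GeneralLinearGroup.mkOfDetNeZero !![1, b; 0, π] (by simpa using hπ) • P)
        (GeneralLinearGroup.mkOfDetNeZero !![1, b; 0, π] (by simpa using hπ) * g)) +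
      Φ (GeneralLinearGroup.mkOfDetNeZero !![π, 0; 0, 1] (by simpa using hπ) • P)
        (GeneralLinearGroup.mkOfDetNeZero !![π, 0; 0, 1] (by simpa using hπ) * g) =
      c v * Φ P g := by
  intro v hv π hπ hcrit hmem B hB P g
  obtain ⟨π, rfl⟩ : ∃ u : Fˣ, (u : F) = π := ⟨Units.mk0 π hπ, rfl⟩
  obtain ⟨h1, h0⟩ := ord_of_crit hv hcrit hmem
  have hB' : IsRepsN N v B := by
    refine ⟨hB.1, fun x hx => ?_⟩
    obtain ⟨b, ⟨hb, hbt⟩, hu⟩ := hB.2 x hx
    refine ⟨b, ⟨hb, (hcrit _ ((RS F N).sub_mem hx (hB.1 b hb))).mp hbt⟩, ?_⟩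
    rintro b' ⟨hb', hlt⟩
    exact hu b' ⟨hb', (hcrit _ ((RS F N).sub_mem hx (hB.1 b' hb'))).mpr hlt⟩
  have key := h v hv π h1 h0 B hB' P g
  rw [add_comm] at key
  rw [← key]
  congr 1

end Gen

section Tower

variable {F E M : Type} [Field F] [NumberField F] [Field E] [NumberField E] [Field M]
  [NumberField M] [Algebra F E] [Algebra E M] [Algebra F M] [IsScalarTower F E M]
  [IsTotallyComplex F] {N : ℕ} [NeZero N] (T : TowerData F E M (pl F N)) {n : ℕ}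
  {ψ : HeightOneSpectrum (𝓞 E) → ZMod 4} (hψ : PsiChar (pl F N) T.c T.a n ψ)
  {k : ℕ} (hk : n + 1 ≤ k)
  (h1 : ∀ P : HeightOneSpectrum (𝓞 E), P.under (𝓞 F) ∉ pl F N → conj T.c P = P →
    ip (ψ P) = -1 ∧ T.xw (P.under (𝓞 F)) = 0)
  (h3 : ∀ P : HeightOneSpectrum (𝓞 E), P.under (𝓞 F) ∉ pl F N → conj T.c P ≠ P →
    ip (ψ P) * ip (ψ (conj T.c P)) = 1 ∧
    ip (ψ P) + ip (ψ (conj T.c P)) = T.xw (P.under (𝓞 F)))

include h1 h3 in
theorem datT_lam (ξ : Fˣ) : (datT T hψ hk).lam ξ =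
    Coef.lam (pl F N) (fun v => (T.xw v : ℂ)) ξ :=
  Coef.lam_eq_xw T h1 h3 hψ (datT T hψ hk) (datT_q T hψ hk) (datT_Op T hψ hk)
    (datT_EA T hψ hk) (datT_EB T hψ hk) (datT_psi T hψ hk) ξ

theorem datT_s_nI (d : Fˣ) :
    (datT T hψ hk).s d * (datT T hψ hk).nI d = Real.sqrt (nR F N d) := by
  rw [datT_s, datT_nI, div_mul_cancel₀ _ (nI_pos d).ne']

include h1 h3 in
/-- **The clause `hecke` of `LT.IsFormA`**, literally. -/
theorem hecke_formA {m₀ : ℕ} (hDF : DiffBound F N m₀) (hN : 2 ≤ N)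
    {k' m : ℕ} (hk1 : 1 ≤ k') (hkm : k' ≤ m)
    (Fm : Fam (AS F N) (RS F N) (N : F) k' m (Xi F) ℂ)
    (hFm : ∀ δ P, Fm.f δ P = (datT T hψ hk).FF δ P)
    (hs : ∀ δ P, Summable ((datT T hψ hk).tm δ P))
    {x : HeightOneSpectrum (𝓞 F) → ℝ} (hx : ∀ v, (N : 𝓞 F) ∉ v.asIdeal → x v = T.xw v) :
    ∀ v : HeightOneSpectrum (𝓞 F), (N : 𝓞 F) ∉ v.asIdeal →
    ∀ (π : F) (hπ : π ≠ 0), (∀ t ∈ SAd.RS F N, (∃ t' ∈ SAd.RS F N, t = π * t') ↔
        v.valuation F t < 1) → π ∈ SAd.RS F N →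
    ∀ B : Finset F, IsReps (SAd.RS F N) π B → ∀ P g,
      (∑ b ∈ B, Fm.Phi (two N hN) hk1 hkm
        (GeneralLinearGroup.mkOfDetNeZero !![1, b; 0, π] (by simpa using hπ) • P)
        (GeneralLinearGroup.mkOfDetNeZero !![1, b; 0, π] (by simpa using hπ) * g)) +
      Fm.Phi (two N hN) hk1 hkm
        (GeneralLinearGroup.mkOfDetNeZero !![π, 0; 0, 1] (by simpa using hπ) • P)
        (GeneralLinearGroup.mkOfDetNeZero !![π, 0; 0, 1] (by simpa using hπ) * g) =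
      ((√(Ideal.absNorm v.asIdeal) * x v : ℝ) : ℂ) * Fm.Phi (two N hN) hk1 hkm P g := by
  intro v hv
  rw [hx v hv]
  refine hecke_of_ord (Φ := Fm.Phi (two N hN) hk1 hkm)
    (c := fun v => ((√(Ideal.absNorm v.asIdeal) * (T.xw v : ℝ) : ℝ) : ℂ)) ?_ v hv
  intro v hv π hπ hπ' B hB P g
  have key := hecke hDF (datT T hψ hk) (datT_act T hψ hk) (datT_W T hψ hk) (datT_VB T hψ hk)
    (two N hN) hk1 hkm Fm hFm hs (datT_lam T hψ hk h1 h3) (datT_s_nI T hψ hk) hv hπ hπ' hB P g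
  rw [Complex.ofReal_mul, Complex.ofReal_intCast]
  exact key

end Tower

end Fermat.Agent.LT.B11.Hk

end
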