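import Mathlib

/-!
# Sums over quotients of a commutative group

`A` a commutative group, `U`, `V'` subgroups, `V = U ⊓ V'`.  A sum over `A ⧸ U` of a `U`-invariant
function is a double sum over `A ⧸ (U ⊔ V')` and over the `V`-classes in the cosets of `V'`.
-/

set_option autoImplicit false

noncomputable section

namespace Fermat.Agent.LT.B11

variable {A : Type*} [CommGroup A]

/-- the sum over `A ⧸ U` of a `U`-invariant function -/
def qsum (U : Subgroup A) (f : A → ℂ) : ℂ := ∑' c : A ⧸ U, f c.out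

/-- invariance -/
def Inv (U : Subgroup A) (f : A → ℂ) : Prop := ∀ u ∈ U, ∀ x, f (x * u) = f x

theorem Inv.out {U : Subgroup A} {f : A → ℂ} (h : Inv U f) (x : A) :
    f ((QuotientGroup.mk x : A ⧸ U).out) = f x := by
  have h1 : (QuotientGroup.mk ((QuotientGroup.mk x : A ⧸ U).out) : A ⧸ U) = QuotientGroup.mk x :=
    QuotientGroup.out_eq' _
  rw [QuotientGroup.eq] at h1
  have h2 := h _ (U.inv_mem h1) x
  rw [← h2]
  congr 1
  group

theorem Inv.mono {U V : Subgroup A} {f : A → ℂ} (h : Inv U f) (hV : V ≤ U) : Inv V f :=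
  fun u hu x => h u (hV hu) x

/-- reindexing by a translation -/
theorem qsum_mul (U : Subgroup A) {f : A → ℂ} (h : Inv U f) (a : A) :
    qsum U (fun x => f (x * a)) = qsum U f := by
  unfold qsum
  rw [← (Equiv.mulRight (QuotientGroup.mk a : A ⧸ U)).tsum_eq (fun c : A ⧸ U => f c.out)]
  refine tsum_congr fun c => ?_
  have h1 : (Equiv.mulRight (QuotientGroup.mk a : A ⧸ U)) c = QuotientGroup.mk (c.out * a) := by
    rw [Equiv.coe_mulRight, QuotientGroup.mk_mul, QuotientGroup.out_eq']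
  rw [h1, h.out]

theorem qsum_congr (U : Subgroup A) {f g : A → ℂ} (h : ∀ x, f x = g x) : qsum U f = qsum U g := by
  unfold qsum
  exact tsum_congr fun c => h _

theorem qsum_mul_left (U : Subgroup A) (f : A → ℂ) (a : ℂ) :
    qsum U (fun x => a * f x) = a * qsum U f := by
  unfold qsum
  exact tsum_mul_left

open Classical in
/-- **Regrouping.** -/
theorem qsum_regroup (U V' : Subgroup A) {f : A → ℂ} (h : Inv U f)
    (hs : Summable fun c : A ⧸ U => f c.out) :
    qsum U f = ∑' b : A ⧸ (U ⊔ V'), qsum (U ⊓ V')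
      (fun x => if x * (b.out)⁻¹ ∈ V' then f x else 0) := by
  set π : A ⧸ U → A ⧸ (U ⊔ V') := fun c => QuotientGroup.mk c.out with hπ
  have hπmk : ∀ x : A, π (QuotientGroup.mk x) = QuotientGroup.mk x := by
    intro x
    rw [hπ]
    simp only
    rw [QuotientGroup.eq]
    have h1 : (QuotientGroup.mk ((QuotientGroup.mk x : A ⧸ U).out) : A ⧸ U) = QuotientGroup.mk x :=
      QuotientGroup.out_eq' _
    rw [QuotientGroup.eq] at h1
    exact (le_sup_left : U ≤ U ⊔ V') h1
  have e1 : qsum U f = ∑' b : A ⧸ (U ⊔ V'), ∑' c : {c : A ⧸ U // π c = b}, f (c.1.out) := by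
    unfold qsum
    rw [← (Equiv.sigmaFiberEquiv π).tsum_eq]
    have hs' : Summable fun p : Σ b : A ⧸ (U ⊔ V'), {c : A ⧸ U // π c = b} =>
        f ((Equiv.sigmaFiberEquiv π p).out) := (Equiv.sigmaFiberEquiv π).summable_iff.mpr hs
    rw [hs'.tsum_sigma]
    rfl
  rw [e1]
  refine tsum_congr fun b => ?_
  unfold qsum
  set S : Set (A ⧸ (U ⊓ V')) := {c | c.out * (b.out)⁻¹ ∈ V'} with hS
  have e2 : (∑' c : A ⧸ (U ⊓ V'), if c.out * (b.out)⁻¹ ∈ V' then f c.out else 0) =
      ∑' c : S, f (c : A ⧸ (U ⊓ V')).out := by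
    rw [tsum_subtype S (fun c : A ⧸ (U ⊓ V') => f c.out)]
    refine tsum_congr fun c => ?_
    rw [Set.indicator_apply]
    rfl
  rw [e2]
  have hmk : ∀ c : A ⧸ (U ⊓ V'), (QuotientGroup.mk c.out : A ⧸ (U ⊓ V')) = c := fun c =>
    QuotientGroup.out_eq' c
  -- the bijection
  let φ : S → {c : A ⧸ U // π c = b} := fun c => ⟨QuotientGroup.mk (c : A ⧸ (U ⊓ V')).out, by
    rw [hπmk]
    have h1 : (c : A ⧸ (U ⊓ V')).out * (b.out)⁻¹ ∈ V' := c.2
    conv_rhs => rw [← QuotientGroup.out_eq' b]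
    rw [QuotientGroup.eq]
    have h2 := V'.inv_mem h1
    have h3 : ((c : A ⧸ (U ⊓ V')).out * (b.out)⁻¹)⁻¹ = ((c : A ⧸ (U ⊓ V')).out)⁻¹ * b.out := by
      rw [mul_inv_rev, inv_inv, mul_comm]
    rw [h3] at h2
    exact (le_sup_right : V' ≤ U ⊔ V') h2⟩
  have hφ : Function.Bijective φ := by
    constructor
    · intro c c' hc
      have h1 := congrArg Subtype.val hc
      simp only [φ] at h1
      rw [QuotientGroup.eq] at h1
      apply Subtype.ext
      rw [← hmk c.1, ← hmk c'.1, QuotientGroup.eq]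
      refine ⟨h1, ?_⟩
      have h2 : (c : A ⧸ (U ⊓ V')).out * (b.out)⁻¹ ∈ V' := c.2
      have h3 : (c' : A ⧸ (U ⊓ V')).out * (b.out)⁻¹ ∈ V' := c'.2
      have h4 := V'.mul_mem (V'.inv_mem h2) h3
      have h5 : ((c : A ⧸ (U ⊓ V')).out * (b.out)⁻¹)⁻¹ * ((c' : A ⧸ (U ⊓ V')).out * (b.out)⁻¹) =
          ((c : A ⧸ (U ⊓ V')).out)⁻¹ * (c' : A ⧸ (U ⊓ V')).out := by
        rw [mul_inv_rev, inv_inv, mul_comm (b.out) _, mul_assoc, mul_comm (b.out), mul_assoc,
          inv_mul_cancel, mul_one]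
      rwa [h5] at h4
    · rintro ⟨c, hc⟩
      have h1 : (QuotientGroup.mk c.out : A ⧸ (U ⊔ V')) = QuotientGroup.mk b.out := by
        rw [QuotientGroup.out_eq' b]
        exact hc
      rw [QuotientGroup.eq] at h1
      obtain ⟨u, hu, v, hv, huv⟩ := Subgroup.mem_sup.mp h1
      -- `b.out = c.out * u * v`, take `x = b.out * v⁻¹ = c.out * u`
      have h2 : b.out = c.out * u * v := by
        rw [mul_assoc, huv, ← mul_assoc, mul_inv_cancel, one_mul]
      set x := c.out * u with hx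
      have hxb : x * (b.out)⁻¹ ∈ V' := by
        rw [h2, mul_inv_rev, mul_comm v⁻¹, ← mul_assoc, mul_inv_cancel, one_mul]
        exact V'.inv_mem hv
      have hxS : (QuotientGroup.mk x : A ⧸ (U ⊓ V')) ∈ S := by
        rw [hS, Set.mem_ofPred_eq]
        have h3 : (QuotientGroup.mk ((QuotientGroup.mk x : A ⧸ (U ⊓ V')).out) : A ⧸ (U ⊓ V')) =
          QuotientGroup.mk x := QuotientGroup.out_eq' _
        rw [QuotientGroup.eq] at h3
        have h4 := V'.mul_mem (V'.inv_mem h3.2) hxb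
        have h5 : (((QuotientGroup.mk x : A ⧸ (U ⊓ V')).out)⁻¹ * x)⁻¹ * (x * (b.out)⁻¹) =
            (QuotientGroup.mk x : A ⧸ (U ⊓ V')).out * (b.out)⁻¹ := by
          rw [mul_inv_rev, inv_inv, mul_comm x⁻¹, mul_assoc, ← mul_assoc x⁻¹, inv_mul_cancel,
            one_mul]
        rwa [h5] at h4
      refine ⟨⟨QuotientGroup.mk x, hxS⟩, ?_⟩
      apply Subtype.ext
      simp only [φ]
      have h3 : (QuotientGroup.mk ((QuotientGroup.mk x : A ⧸ (U ⊓ V')).out) : A ⧸ (U ⊓ V')) =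
          QuotientGroup.mk x := QuotientGroup.out_eq' _
      rw [QuotientGroup.eq] at h3
      have h6 : (QuotientGroup.mk ((QuotientGroup.mk x : A ⧸ (U ⊓ V')).out) : A ⧸ U) =
          QuotientGroup.mk x := by
        rw [QuotientGroup.eq]
        exact h3.1
      rw [h6, hx]
      conv_rhs => rw [← QuotientGroup.out_eq' c]
      rw [QuotientGroup.eq, mul_inv_rev, mul_assoc, inv_mul_cancel, mul_one]
      exact U.inv_mem hu
  rw [← (Equiv.ofBijective φ hφ).tsum_eq]
  refine tsum_congr fun c => ?_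
  rw [Equiv.ofBijective_apply]
  simp only [φ]
  rw [h.out]

end Fermat.Agent.LT.B11
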