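import Fermat.Agent.LT.B11.Inst
import Fermat.Agent.LT.Theta11.SLaw
import Fermat.Agent.LT.Theta11.SSign
import Fermat.Agent.LT.Torus.Coset

/-!
# The law `D1law` of the class sums
-/

set_option autoImplicit false
set_option linter.unusedSectionVars false

noncomputable section

namespace Fermat.Agent.LT.B11

open IsDedekindDomain NumberField WithZero Matrix
open Fermat.Agent.CFT.Places
open Fermat.Agent.CFT.Global (mem_E above mem_above normU ClTrivial cong mem_cong)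
open Fermat.Agent.LT.SAd
open Fermat.Agent.LT.Psi (PsiChar)

section Good

variable {F E : Type} [Field F] [NumberField F] [Field E] [NumberField E] [Algebra F E]
  {N : ℕ} [NeZero N]

theorem mem_AS_of_mem_VN {k : ℕ} {v : Fˣ} (hv : v ∈ VN F N k) :
    (v : F) ∈ AS F N ∧ ((v⁻¹ : Fˣ) : F) ∈ AS F N := ⟨hv.2.2.1, hv.2.2.2⟩

/-- The hypotheses of the law, from those of (F3). -/
theorem good_of_law {k m₀ : ℕ} {γ : GL (Fin 2) F} (hγ : γ ∈ SLR (RS F N)) {d δ : Fˣ}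
    (hd : γ 1 1 = d) (hb : γ 0 1 / (d * δ) ∈ AS F N)
    (hc : ∃ a ∈ AS F N, γ 1 0 * d * δ = (N : F) ^ (2 * k + 2 * m₀) * a) {h : Eˣ}
    (hh : normU (K := F) E h * δ ∈ VN F N k) :
    Good N k m₀ (γ 0 0) (γ 0 1) (γ 1 0) (d : F) (h : E) where
  a_mem := hγ.2 0 0
  b_mem := hγ.2 0 1
  c_mem := hγ.2 1 0
  d_mem := by rw [← hd]; exact hγ.2 1 1
  det := by rw [← hd, ← det_eq, hγ.1]; rfl
  d_ne := d.ne_zero
  h_ne := h.ne_zero
  hb := by
    have e : γ 0 1 * Algebra.norm F (h : E) / d =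
        γ 0 1 / (d * δ) * ((normU (K := F) E h * δ : Fˣ) : F) := by
      rw [Units.val_mul]
      change _ = _ * (Algebra.norm F (h : E) * δ)
      have h1 := d.ne_zero
      have h2 := δ.ne_zero
      field_simp
    rw [e]
    exact (AS F N).mul_mem hb (mem_AS_of_mem_VN hh).1
  hc := by
    obtain ⟨a, ha, e⟩ := hc
    refine ⟨a * (((normU (K := F) E h * δ)⁻¹ : Fˣ) : F), (AS F N).mul_mem ha
      (mem_AS_of_mem_VN hh).2, ?_⟩
    rw [← mul_assoc, ← e]
    have hn : ((normU (K := F) E h : Fˣ) : F) = Algebra.norm F (h : E) := rfl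
    rw [← hn, Units.val_inv_eq_inv_val, Units.val_mul]
    have h1 := (normU (K := F) E h).ne_zero
    have h2 := δ.ne_zero
    field_simp

end Good

section Law

variable {F E : Type} [Field F] [NumberField F] [Field E] [NumberField E] [Algebra F E]
  [IsGalois F E] {N : ℕ} [NeZero N] (h2 : Module.finrank F E = 2) {c : E ≃ₐ[F] E} (hc : c ≠ 1)
  [IsTotallyComplex F] {a : Fˣ} {n : ℕ} {ψ : HeightOneSpectrum (𝓞 E) → ZMod 4}
  (hψ : PsiChar (pl F N) c a n ψ) {k : ℕ} (hk : n + 1 ≤ k) (χ : AddChar (ZMod 4) ℂ)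

omit [IsGalois F E] [IsTotallyComplex F] in
theorem E_above_eq_RU : CFT.Global.E (above E (pl F N)) = RU E N := by
  ext x
  rw [mem_RU_iff, above_pl]

open Classical in
theorem datE_G (h : Eˣ) (P : Xi F) : (datE h2 hc hψ hk χ).G h P =
    qsum ((RU E N ⊓ (Units.map (Algebra.norm F : E →* F)).ker) ⊓ VN E N k)
      (fun x : Eˣ => if (x : E) ∈ RS E N ∧ x * h⁻¹ ∈ VN E N k
        then wh P (Algebra.norm F (x : E)) else 0) := by
  rw [← E_above_eq_RU (F := F)]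
  rfl

/-- **The law of the class sums.** -/
theorem d1law {m₀ m₁ : ℕ} (hN : 2 ≤ N) (hD : DiffBound E N m₀) (hDF : DiffBound F N m₁)
    (hun : ∀ w : HeightOneSpectrum (𝓞 E), (N : 𝓞 E) ∉ w.asIdeal → ∀ σ : E ≃ₐ[F] E, σ ≠ 1 →
      ∃ x : 𝓞 E, x - Th.NF.cI σ x ∉ w.asIdeal)
    (hη : ∀ d : Fˣ, (d : F) ∈ RS F N →
      Th.QD.chi (𝓞 E) (dId N (d : F)) = (datE h2 hc hψ hk χ).η d) :
    D1law (datE h2 hc hψ hk χ) N (2 * k + 2 * m₀) := by
  intro γ hγ d hd δ hb hc' h hh P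
  obtain ⟨Q⟩ := Torus.nonempty_quad (L := F) (E := E) h2
  have H : Good N k m₀ (γ 0 0) (γ 0 1) (γ 1 0) (d : F) (h : E) :=
    good_of_law hγ hd hb hc' hh
  have hγ' : (γ : Matrix (Fin 2) (Fin 2) F) = !![γ 0 0, γ 0 1; γ 1 0, (d : F)] := by
    rw [← hd]
    exact (Matrix.eta_fin_two _)
  rw [datE_G, datE_G]
  refine Q.qsum_law h2 hN (by omega) fun t ht => ?_
  have h1 := H.theta_law' h2 Q hD hDF (fun w hw => hun w hw Q.c Q.c_ne) hγ' P ht
  rw [hη d H.d_mem] at h1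
  have e : ((h * ((datE h2 hc hψ hk χ).ι d)⁻¹ : Eˣ) : E) = (h : E) / algebraMap F E d := by
    rw [Units.val_mul, Units.val_inv_eq_inv_val, div_eq_mul_inv]
    rfl
  rw [e]
  exact h1

end Law

end Fermat.Agent.LT.B11
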