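import Fermat.Agent.LT.B11.Uniq
import Fermat.Agent.LT.B11.Fam

/-!
# Non-vanishing of the family `F δ`
-/

set_option autoImplicit false

noncomputable section

namespace Fermat.Agent.LT.B11

open NumberField Fermat.Agent.LT

variable {F : Type*} [Field F] [NumberField F] {A : Type*} [CommGroup A] (D : Dat A Fˣ (Xi F))
  {N₀ B : ℕ} {C₀ : ℝ} {δ : Fˣ}

open Classical in
/-- the coefficients of the terms of `F δ` over the index set -/
def cIdx (δ : Fˣ) (p : D.Idx) : ℂ := if D.xi p * δ ∈ D.VB then D.cf p else 0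

open Classical in
/-- the coefficients of the expansion of `F δ` -/
def cLam (δ : Fˣ) (ξ : Fˣ) : ℂ := if ξ * δ ∈ D.VB then D.lam ξ else 0

variable {D}

theorem tm_eq (hW : ∀ P (ξ : Fˣ), D.W P ξ = wh P (ξ : F)) (P : Xi F) (p : D.Idx) :
    D.tm δ P p = cIdx D δ p * wh P (D.xi p : F) := by
  classical
  unfold Dat.tm cIdx
  rw [hW]
  split_ifs
  · rfl
  · rw [zero_mul]

theorem summable_tm_of_mass [IsTotallyComplex F] (hW : ∀ P (ξ : Fˣ), D.W P ξ = wh P (ξ : F))
    (h0 : N₀ ≠ 0) (h : Mass N₀ B C₀ (fun p : D.Idx => (D.xi p : F)) (cIdx D δ)) (P : Xi F) :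
    Summable (D.tm δ P) := by
  obtain ⟨C, -, hC⟩ := h.growth h0
  refine Summable.of_norm ((hC P).1.congr fun p => ?_)
  rw [tm_eq hW]

/-- from the index set to `Fˣ` -/
theorem mass_lam (h : Mass N₀ B C₀ (fun p : D.Idx => (D.xi p : F)) (cIdx D δ)) :
    Mass N₀ B C₀ (fun ξ : Fˣ => (ξ : F)) (cLam D δ) := by
  classical
  have key : ∀ ξ : Fˣ, ξ * δ ∈ D.VB → Summable (fun p : {p : D.Idx // D.xi p = ξ} => D.cf p.1) ∧
      ‖D.lam ξ‖ ≤ C₀ * (1 + tn (ξ : F)) ^ B := by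
    intro ξ hξ
    have h1 : ∀ s : Finset {p : D.Idx // D.xi p = ξ}, ∑ p ∈ s, ‖D.cf p.1‖ ≤
        C₀ * (1 + tn (ξ : F)) ^ B := by
      intro s
      have h2 := h.mass (ξ : F) (s.map ⟨Subtype.val, Subtype.val_injective⟩) (by
        intro p hp
        obtain ⟨q, -, rfl⟩ := Finset.mem_map.mp hp
        exact congrArg Units.val q.2)
      rw [Finset.sum_map] at h2
      refine le_trans (le_of_eq (Finset.sum_congr rfl fun p _ => ?_)) h2
      change ‖D.cf p.1‖ = ‖cIdx D δ p.1‖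
      unfold cIdx
      rw [if_pos (by rw [p.2]; exact hξ)]
    have h3 : Summable (fun p : {p : D.Idx // D.xi p = ξ} => ‖D.cf p.1‖) :=
      summable_of_sum_le (fun _ => norm_nonneg _) h1
    exact ⟨h3.of_norm, (norm_tsum_le_tsum_norm h3).trans (h3.tsum_le_of_sum_le h1)⟩
  refine ⟨fun ξ _ => ξ.ne_zero, fun ξ hc => ?_, fun a s hs => ?_⟩
  · have hV : ξ * δ ∈ D.VB := by
      by_contra hV
      exact hc (if_neg hV)
    have hl : D.lam ξ ≠ 0 := by
      intro hl
      apply hc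
      unfold cLam
      rw [if_pos hV, hl]
    obtain ⟨p, hp⟩ : ∃ p : {p : D.Idx // D.xi p = ξ}, D.cf p.1 ≠ 0 := by
      by_contra! hcon
      apply hl
      unfold Dat.lam
      rw [tsum_congr hcon, tsum_zero]
    have := h.int p.1 (by
      unfold cIdx
      rw [p.2, if_pos hV]
      exact hp)
    rwa [p.2] at this
  · have hC : 0 ≤ C₀ * (1 + tn a) ^ B := by
      have := h.mass a ∅ (by simp)
      simpa using this
    rcases s.eq_empty_or_nonempty with rfl | ⟨ξ, hξ⟩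
    · rw [Finset.sum_empty]
      exact hC
    · have h1 : s = {ξ} := by
        refine Finset.eq_singleton_iff_unique_mem.mpr ⟨hξ, fun η hη => Units.ext ?_⟩
        rw [hs η hη, hs ξ hξ]
      rw [h1, Finset.sum_singleton]
      unfold cLam
      split_ifs with hV
      · rw [← hs ξ hξ]
        exact (key ξ hV).2
      · rw [norm_zero]
        exact hC

theorem FF_eq_cLam [IsTotallyComplex F] (hW : ∀ P (ξ : Fˣ), D.W P ξ = wh P (ξ : F))
    (h0 : N₀ ≠ 0) (h : Mass N₀ B C₀ (fun p : D.Idx => (D.xi p : F)) (cIdx D δ)) (P : Xi F) :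
    D.FF δ P = D.s δ * ∑' ξ : Fˣ, cLam D δ ξ * wh P (ξ : F) := by
  classical
  rw [D.FF_eq (summable_tm_of_mass hW h0 h P)]
  congr 1
  refine tsum_congr fun ξ => ?_
  unfold cLam
  rw [hW]
  split_ifs
  · rfl
  · rw [zero_mul]

/-- **Non-vanishing.** -/
theorem exists_FF_ne [IsTotallyComplex F] (hW : ∀ P (ξ : Fˣ), D.W P ξ = wh P (ξ : F))
    (h0 : N₀ ≠ 0) (h : Mass N₀ B C₀ (fun p : D.Idx => (D.xi p : F)) (cIdx D δ)) {ξ : Fˣ}
    (hξ : ξ * δ ∈ D.VB) (hl : D.lam ξ ≠ 0) : ∃ P : Xi F, D.FF δ P ≠ 0 := by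
  by_contra! hcon
  have h1 := (mass_lam h).eq_zero h0 (fun a b hab => Units.ext hab) (fun P => by
    have h2 := hcon P
    rw [FF_eq_cLam hW h0 h] at h2
    exact (mul_eq_zero.mp h2).resolve_left (Complex.ofReal_ne_zero.mpr (D.s_pos δ).ne')) ξ
  unfold cLam at h1
  rw [if_pos hξ] at h1
  exact hl h1

end Fermat.Agent.LT.B11
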