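import Fermat.Agent.LT.B11.Fam
import Fermat.Agent.LT.B11.Wh
import Fermat.Agent.LT.H3.WhitSum

/-!
# Clause `radial`: the radial kernels act on the family `F δ` and on `Φ`

`∫ Q, k (cu (P w) Q) * Φ (update P w Q) g = sph 0 k * Φ P g` for every continuous radial kernel of
compact support (`sph 0 k = ∫ t, abel k t`).
-/

set_option autoImplicit false
set_option linter.unusedSectionVars false

noncomputable section

namespace Fermat.Agent.LT.B11

open NumberField Matrix MeasureTheory Set
open scoped Real

variable {F : Type*} [Field F] [NumberField F]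

theorem countable_field (F : Type*) [Field F] [NumberField F] : Countable F :=
  (Module.finBasis ℚ F).equivFun.injective.countable

theorem countable_units (F : Type*) [Field F] [NumberField F] : Countable Fˣ := by
  have := countable_field F
  exact Function.Injective.countable (f := fun u : Fˣ => (u : F)) Units.val_injective

/-- change of one coordinate -/
def upd [DecidableEq (InfinitePlace F)] (P : Xi F) (w : InfinitePlace F) (Q : H3) : Xi F :=
  Function.update P w Q

theorem smul_upd [DecidableEq (InfinitePlace F)] (γ : GL (Fin 2) F) (P : Xi F)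
    (w : InfinitePlace F) (Q : H3) :
    γ • upd P w Q = upd (γ • P) w ((GeneralLinearGroup.map (n := Fin 2) w.embedding γ) • Q) := by
  refine Xi.ext fun v => ?_
  rw [Xi.smul_apply]
  unfold upd
  by_cases h : v = w
  · subst h
    rw [Function.update_self, Function.update_self]
  · rw [Function.update_of_ne h, Function.update_of_ne h, Xi.smul_apply]

/-- isometry invariance of the radial clause -/
theorem radial_smul [DecidableEq (InfinitePlace F)] {f : Xi F → ℂ} {k : ℝ → ℂ} {lam : ℂ}
    {w : InfinitePlace F}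
    (h : ∀ P : Xi F, ∫ Q : H3, k (H3.cu (P w) Q) * f (Function.update P w Q) = lam * f P)
    (γ : GL (Fin 2) F) (P : Xi F) :
    ∫ Q : H3, k (H3.cu (P w) Q) * f (γ • upd P w Q) = lam * f (γ • P) := by
  have h1 := H3.integral_ker_smul k (fun Q : H3 => f (upd (γ • P) w Q))
    (GeneralLinearGroup.map (n := Fin 2) w.embedding γ) (P w)
  have h2 : (∫ Q : H3, k (H3.cu (P w) Q) * f (γ • upd P w Q)) =
      ∫ Q : H3, k (H3.cu (P w) Q) * f (upd (γ • P) w
        ((GeneralLinearGroup.map (n := Fin 2) w.embedding γ) • Q)) :=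
    integral_congr_ae (ae_of_all _ fun Q => congrArg (fun t => k (H3.cu (P w) Q) * f t)
      (smul_upd γ P w Q))
  exact h2.trans (h1.trans (h (γ • P)))

section Dat

variable {A : Type*} [CommGroup A] [Countable A] (D : Dat A Fˣ (Xi F))

open Classical in
theorem Dat.tm_eq (hW : ∀ (P : Xi F) (ξ : Fˣ), D.W P ξ = wh P (ξ : F)) (δ : Fˣ) (P : Xi F)
    (p : D.Idx) : D.tm δ P p =
      (if D.xi p * δ ∈ D.VB then D.cf p else 0) * wh P (D.xi p : F) := by
  unfold Dat.tm
  rw [hW]
  split_ifs
  · rfl
  · rw [zero_mul]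

theorem Dat.countable_Idx : Countable D.Idx := by
  have := countable_units F
  have h1 : Countable D.EB := inferInstance
  have h2 : Countable (D.EB ⧸ D.QE) := (QuotientGroup.mk_surjective (s := D.QE)).countable
  have h3 : Countable (A ⧸ D.U) := (QuotientGroup.mk_surjective (s := D.U)).countable
  exact inferInstanceAs (Countable ((D.EB ⧸ D.QE) × (A ⧸ D.U)))

/-- **The radial clause for the family.** -/
theorem Dat.radial [DecidableEq (InfinitePlace F)]
    (hW : ∀ (P : Xi F) (ξ : Fˣ), D.W P ξ = wh P (ξ : F)) {δ : Fˣ}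
    (hB : ∃ B : Xi F → ℝ, Continuous B ∧ ∀ P, Summable (fun p => ‖D.tm δ P p‖) ∧
      ∑' p, ‖D.tm δ P p‖ ≤ B P)
    {k : ℝ → ℂ} (hk : H3.IsKer k) (w : InfinitePlace F) (P : Xi F) :
    ∫ Q : H3, k (H3.cu (P w) Q) * D.FF δ (Function.update P w Q) = H3.sph 0 k * D.FF δ P := by
  classical
  have := D.countable_Idx
  obtain ⟨B, hBc, hB⟩ := hB
  have hS : ∀ P, Summable (D.tm δ P) := fun P => (hB P).1.of_norm
  have e1 : ∀ P, D.FF δ P = D.s δ * ∑' p, D.tm δ P p := fun P => D.FF_eq_tsum (hS P)
  simp_rw [e1, D.tm_eq hW]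
  have key := H3.integral_ker_whit_tsum' hk (J := InfinitePlace F) (ι := D.Idx) 0
    (fun p => if D.xi p * δ ∈ D.VB then D.cf p else 0)
    (fun p v => v.embedding (D.xi p : F)) (fun p _ v => by
      rw [ne_eq, map_eq_zero]
      exact Units.ne_zero _)
    (fun P x => ∏ v : InfinitePlace F,
      (((P v).y : ℂ) * besselK 0 (4 * π * ‖x v‖ * (P v).y)) *
        Complex.exp (2 * π * Complex.I * ((2 * (x v * (P v).z).re : ℝ) : ℂ)))
    (fun _ _ => rfl) P w ?_
  · have e2 : ∀ Q : H3, k (H3.cu (P w) Q) * (D.s δ * ∑' p,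
        (if D.xi p * δ ∈ D.VB then D.cf p else 0) * wh (Function.update P w Q) (D.xi p : F)) =
        D.s δ * (k (H3.cu (P w) Q) * ∑' p,
        (if D.xi p * δ ∈ D.VB then D.cf p else 0) * wh (Function.update P w Q) (D.xi p : F)) :=
      fun Q => by ring
    simp_rw [e2]
    rw [integral_const_mul]
    have e3 : (∫ Q : H3, k (H3.cu (P w) Q) * ∑' p,
        (if D.xi p * δ ∈ D.VB then D.cf p else 0) * wh (Function.update P w Q) (D.xi p : F)) =
        H3.sph 0 k * ∑' p, (if D.xi p * δ ∈ D.VB then D.cf p else 0) * wh P (D.xi p : F) := key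
    rw [e3]
    ring
  · intro C
    have hc : Continuous fun Q : H3 => B (Function.update P w Q) := by
      refine hBc.comp ?_
      have : Continuous fun Q : H3 => (Function.update P w Q : InfinitePlace F → H3) :=
        continuous_const.update w continuous_id
      exact this
    obtain ⟨M, hM⟩ := (H3.isCompact_ball (P w) C).exists_bound_of_continuousOn hc.continuousOn
    refine ⟨M, fun Q hQ s => ?_⟩
    have h1 := hB (Function.update P w Q)
    have h2 : ∀ p, ‖(if D.xi p * δ ∈ D.VB then D.cf p else 0) *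
        wh (Function.update P w Q) (D.xi p : F)‖ = ‖D.tm δ (Function.update P w Q) p‖ := by
      intro p
      rw [D.tm_eq hW]
    have h3 : ∑ p ∈ s, ‖(if D.xi p * δ ∈ D.VB then D.cf p else 0) *
        wh (Function.update P w Q) (D.xi p : F)‖ ≤ M := by
      simp_rw [h2]
      refine (h1.1.sum_le_tsum s fun p _ => norm_nonneg _).trans (h1.2.trans ?_)
      exact (le_abs_self _).trans (hM Q hQ)
    exact h3

end Dat

section Fam

variable {A R : Subring F} {ν : F} {k m : ℕ} (Fm : Fam A R ν k m (Xi F) ℂ)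
  (T : Two A R ν) (hk : 1 ≤ k) (hkm : k ≤ m)

/-- **The radial clause for `Φ`**, from the radial clause for the family. -/
theorem Fam.radial [DecidableEq (InfinitePlace F)] {κ : ℝ → ℂ} {lam : ℂ} {w : InfinitePlace F}
    (h : ∀ (δ : Fˣ) (P : Xi F), ∫ Q : H3, κ (H3.cu (P w) Q) * Fm.f δ (Function.update P w Q) =
      lam * Fm.f δ P) (P : Xi F) (g : GL (Fin 2) F) :
    ∫ Q : H3, κ (H3.cu (P w) Q) * Fm.Phi T hk hkm (Function.update P w Q) g =
      lam * Fm.Phi T hk hkm P g :=
  radial_smul (h (GeneralLinearGroup.det g)) _ P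

end Fam

end Fermat.Agent.LT.B11
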