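import Fermat.Agent.LT.B11.Alg
import Fermat.Agent.LT.B11.Ana
import Fermat.Agent.LT.B11.Frame
import Fermat.Agent.LT.B11.HeckeA
import Fermat.Agent.LT.B11.Law
import Fermat.Agent.LT.B11.NonZero
import Fermat.Agent.LT.B11.Radial
import Fermat.Agent.LT.Th.Eta
import Fermat.Agent.LT.Theta11.SDiff

/-!
# Block B11: the theta lift
-/

set_option autoImplicit false
set_option linter.unusedSectionVars false

noncomputable section

namespace Fermat.Agent.LT.B11

open IsDedekindDomain NumberField Matrix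
open Fermat.Agent.CFT.Places
open Fermat.Agent.CFT.SUnits (ord)
open Fermat.Agent.LT.Psi
open Fermat.Agent.LT.SAd
open Fermat.Agent.LT.Coef (chi4 chi4_apply)

variable {F E M : Type} [Field F] [NumberField F] [Field E] [NumberField E] [Field M]
  [NumberField M] [Algebra F E] [Algebra E M] [Algebra F M] [IsScalarTower F E M]
  [IsTotallyComplex F] {N : ℕ} [NeZero N] (T : TowerData F E M (pl F N))

section

variable {n : ℕ} {ψ : HeightOneSpectrum (𝓞 E) → ZMod 4} (hψ : PsiChar (pl F N) T.c T.a n ψ)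
  {k : ℕ} (hk : n + 1 ≤ k)

theorem d1law_datT {m₀ m₁ : ℕ} (hN : 2 ≤ N) (hD : DiffBound E N m₀) (hDF : DiffBound F N m₁) :
    D1law (datT T hψ hk) N (2 * k + 2 * m₀) := by
  have := T.galois_FE
  refine d1law T.finrank_FE T.c_ne_one hψ hk chi4 hN hD hDF ?_ ?_
  · intro w hw σ hσ
    obtain ⟨Q⟩ := Torus.nonempty_quad (L := F) (E := E) T.finrank_FE
    have h1 : σ = T.c := by
      rw [(Q.aut σ).resolve_left hσ, (Q.aut T.c).resolve_left T.c_ne_one]
    rw [h1]
    exact Th.NF.tower_hN T w hw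
  · intro d hd
    exact Th.NF.chi_dId T hd

end

theorem continuous_cj_aux : Continuous (cj : Xi F → ℝ) := by
  unfold cj
  refine continuous_finsetProd _ fun w _ => ?_
  have h1 : Continuous fun P : Xi F => P w := continuous_apply (A := fun _ => H3) w
  exact H3.continuous_cu.comp (h1.prodMk continuous_const)

omit [NumberField F] [IsTotallyComplex F] in
open scoped Classical in
theorem upd_eq (P : Xi F) (w : InfinitePlace F) (Q : H3) :
    P.upd w Q = Function.update P w Q := by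
  funext v
  by_cases h : v = w
  · subst h
    exact (if_pos rfl).trans (Function.update_self (β := fun _ => H3) v Q P).symm
  · exact (if_neg h).trans (Function.update_of_ne (β := fun _ => H3) h Q P).symm

/-- **The theta lift.** -/
theorem exists_isFormA (hN : 2 ≤ N) (hD : DiffBound E N 1) (hDF : DiffBound F N 1)
    {x : HeightOneSpectrum (𝓞 F) → ℝ} (hx : ∀ v, v ∉ pl F N → x v = T.xw v) :
    ∃ (m : ℕ) (Φ : Xi F → GL (Fin 2) F → ℂ), IsFormA F N m x Φ := by
  obtain ⟨n, ψ, hψ, h1, h3⟩ := T.exists_psi_trace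
  set k := n + 1 with hkdef
  have hk : n + 1 ≤ k := le_rfl
  set D := datT T hψ hk with hDdef
  set m := 2 * k + 2 * 1 with hm
  have hk1 : 1 ≤ k := by omega
  have hkm : k ≤ m := by omega
  have := T.galois_FE
  let Fm : Fam (AS F N) (RS F N) (N : F) k m (Xi F) ℂ :=
    famE T.finrank_FE T.c_ne_one hψ hk chi4 (summable_tm T hψ hk) (d1law_datT T hψ hk hN hD hDF)
  have hFm : ∀ δ P, Fm.f δ P = (datT T hψ hk).FF δ P := fun δ P => rfl
  have hx' : ∀ v, (N : 𝓞 F) ∉ v.asIdeal → x v = T.xw v := fun v hv => hx v (fun h => hv (mem_pl.mp h))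
  refine ⟨m, Fm.Phi (two N hN) hk1 hkm, isFormA_of hN (two N hN) hk1 hkm Fm ?_ ?_ ?_ ?_ ?_⟩
  · exact Fam.continuous_Phi Fm (two N hN) hk1 hkm (continuous_FF T hψ hk)
  · intro g
    obtain ⟨C, A, -, h⟩ := Fam.mod_Phi Fm (two N hN) hk1 hkm (mod_FF T hψ hk) g
    refine ⟨C, A, fun P => (h P).trans (le_of_eq ?_)⟩
    rw [cj, Finset.prod_pow]
  · exact Hk.hecke_formA T hψ hk h1 h3 hDF hN hk1 hkm Fm hFm (summable_tm T hψ hk) hx'
  · intro w κ hκ P g
    classical
    simp_rw [upd_eq]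
    refine Fam.radial Fm (two N hN) hk1 hkm (fun δ P => ?_) P g
    have := countable_units E
    refine Dat.radial (datT T hψ hk) (datT_W T hψ hk) ?_ hκ w P
    obtain ⟨C, A, -, h⟩ := (isAna_datT T hψ hk).bound_tm δ
    exact ⟨fun P => C * cj P ^ A, continuous_const.mul (continuous_cj_aux.pow A), h⟩
  · obtain ⟨N₀, C₀, h0, hM⟩ := (isAna_datT T hψ hk).exists_mass 1
    obtain ⟨P, hP⟩ := exists_FF_ne (D := datT T hψ hk) (ξ := 1) (δ := 1) (datT_W T hψ hk) h0 hM
      (by rw [mul_one]; exact (datT T hψ hk).VB.one_mem)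
      (by
        rw [Coef.lam_one_of_tower T hψ (datT T hψ hk) (datT_q T hψ hk) (datT_Op T hψ hk)
          (datT_EA T hψ hk) (datT_EB T hψ hk) (datT_psi T hψ hk)]
        exact one_ne_zero)
    exact ⟨1, P, hP⟩

end Fermat.Agent.LT.B11
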