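import Fermat.Agent.LT.B11.Rings

/-!
# Residue fields of `RS F N` (helper58)
-/

set_option autoImplicit false
set_option linter.unusedSectionVars false

namespace Fermat.Agent.LT.B11.Res

open NumberField IsDedekindDomain WithZero
open Fermat.Agent.LT.SAd
open Fermat.Agent.CFT.SUnits (ord valuation_eq_exp_neg_ord ord_nonneg_iff ord_eq_zero_iff)

variable {F : Type*} [Field F] [NumberField F] {N : ℕ} [NeZero N]

variable {v : HeightOneSpectrum (𝓞 F)} (hv : (N : 𝓞 F) ∉ v.asIdeal) {π : Fˣ} (h1 : ord v π = 1)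
  (h0 : ∀ w : HeightOneSpectrum (𝓞 F), (N : 𝓞 F) ∉ w.asIdeal → w ≠ v → ord w π = 0)

include hv h1 h0 in
theorem unif_mem_RS : (π : F) ∈ RS F N := by
  rw [mem_RS_iff_ord]
  intro w hw
  by_cases hwv : w = v
  · rw [hwv, h1]; exact zero_le_one
  · rw [h0 w hw hwv]

include hv h1 h0 in
/-- divisibility by the uniformizer in `RS` -/
theorem exists_mul_iff_val_lt {x : F} (hx : x ∈ RS F N) :
    (∃ t ∈ RS F N, x = π * t) ↔ v.valuation F x < 1 := by
  have hπ : v.valuation F (π : F) = exp (-1 : ℤ) := by rw [valuation_eq_exp_neg_ord, h1]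
  constructor
  · rintro ⟨t, ht, rfl⟩
    rw [map_mul, hπ]
    refine lt_of_le_of_lt (mul_le_of_le_one_right' (mem_RS_iff.mp ht v hv)) ?_
    rw [← exp_zero, exp_lt_exp]
    norm_num
  · intro h
    refine ⟨x / π, mem_RS_iff.mpr fun w hw => ?_, by field_simp⟩
    rw [map_div₀]
    by_cases hwv : w = v
    · subst hwv
      rw [hπ]
      by_cases hx0 : x = 0
      · simp [hx0]
      · have h2 := valuation_eq_exp_neg_ord (K := F) w (Units.mk0 x hx0)
        rw [Units.val_mk0] at h2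
        rw [h2] at h ⊢
        rw [← exp_zero, exp_lt_exp] at h
        rw [← exp_sub, ← exp_zero, exp_le_exp]
        omega
    · have h3 : w.valuation F (π : F) = 1 := (ord_eq_zero_iff F w π).mp (h0 w hw hwv)
      rw [h3, div_one]
      exact mem_RS_iff.mp hx w hw

include hv in
/-- every element of `RS` is congruent to an algebraic integer. -/
theorem exists_int_near {x : F} (hx : x ∈ RS F N) :
    ∃ y : 𝓞 F, v.valuation F (x - (y : F)) < 1 := by
  obtain ⟨j, hj⟩ := id hx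
  obtain ⟨n, hn⟩ : ∃ n : 𝓞 F, n * (N : 𝓞 F) ^ j - 1 ∈ v.asIdeal := by
    have h2 : (N : 𝓞 F) ^ j ∉ v.asIdeal := fun h => hv (v.isPrime.mem_of_pow_mem _ h)
    obtain ⟨n, i, hi, hni⟩ := v.isMaximal.exists_inv h2
    refine ⟨n, ?_⟩
    have : n * (N : 𝓞 F) ^ j - 1 = -i := by linear_combination hni
    rw [this]
    exact v.asIdeal.neg_mem hi
  refine ⟨n * ⟨(N : F) ^ j * x, hj⟩, ?_⟩
  have h3 : x - ((n * ⟨(N : F) ^ j * x, hj⟩ : 𝓞 F) : F) =
      -(x * ((n * (N : 𝓞 F) ^ j - 1 : 𝓞 F) : F)) := by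
    push_cast
    show x - (n : F) * ((N : F) ^ j * x) = _
    ring
  rw [h3, Valuation.map_neg, map_mul]
  have h4 := (v.valuation_lt_one_iff_mem (K := F) _).mpr hn
  exact lt_of_le_of_lt (mul_le_of_le_one_left' (mem_RS_iff.mp hx v hv)) h4

variable (N) in
/-- `𝓞 F → RS F N` -/
def toRS : 𝓞 F →+* RS F N where
  toFun y := ⟨y, mem_RS_of_isIntegral y.2⟩
  map_one' := rfl
  map_mul' _ _ := rfl
  map_zero' := rfl
  map_add' _ _ := rfl

include hv h1 h0 in
theorem ker_toRS : RingHom.ker ((Ideal.Quotient.mk (Ideal.span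
    {(⟨π, unif_mem_RS hv h1 h0⟩ : RS F N)})).comp (toRS N)) = v.asIdeal := by
  ext y
  rw [RingHom.mem_ker, RingHom.comp_apply, Ideal.Quotient.eq_zero_iff_mem,
    Ideal.mem_span_singleton, ← v.valuation_lt_one_iff_mem (K := F)]
  refine Iff.trans ?_ (exists_mul_iff_val_lt hv h1 h0 (toRS N y).2)
  constructor
  · rintro ⟨t, ht⟩
    exact ⟨t, t.2, congrArg Subtype.val ht⟩
  · rintro ⟨t, ht, h⟩
    exact ⟨⟨t, ht⟩, Subtype.ext h⟩

include hv h1 h0 in
theorem surj_toRS : Function.Surjective ((Ideal.Quotient.mk (Ideal.span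
    {(⟨π, unif_mem_RS hv h1 h0⟩ : RS F N)})).comp (toRS N)) := by
  intro c
  obtain ⟨x, rfl⟩ := Ideal.Quotient.mk_surjective c
  obtain ⟨y, hy⟩ := exists_int_near hv x.2
  refine ⟨y, ?_⟩
  rw [RingHom.comp_apply, eq_comm, Ideal.Quotient.eq, Ideal.mem_span_singleton]
  obtain ⟨t, ht, h⟩ := (exists_mul_iff_val_lt hv h1 h0
    ((RS F N).sub_mem x.2 (toRS N y).2)).mpr hy
  exact ⟨⟨t, ht⟩, Subtype.ext h⟩

/-- `𝓞 F / v ≃ RS / π`. -/
noncomputable def resRS : (𝓞 F ⧸ v.asIdeal) ≃+*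
    (RS F N ⧸ Ideal.span {(⟨π, unif_mem_RS hv h1 h0⟩ : RS F N)}) :=
  (Ideal.quotEquivOfEq (ker_toRS hv h1 h0).symm).trans
    (RingHom.quotientKerEquivOfSurjective (surj_toRS hv h1 h0))

include hv h1 h0 in
theorem isMaximal_span :
    (Ideal.span {(⟨π, unif_mem_RS hv h1 h0⟩ : RS F N)}).IsMaximal := by
  have h := v.isMaximal
  rw [Ideal.Quotient.maximal_ideal_iff_isField_quotient] at h ⊢
  exact (resRS hv h1 h0).symm.toMulEquiv.isField h

include hv h1 h0 in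
theorem card_resRS : Nat.card (RS F N ⧸ Ideal.span {(⟨π, unif_mem_RS hv h1 h0⟩ : RS F N)}) =
    Ideal.absNorm v.asIdeal := by
  rw [← Nat.card_congr (resRS hv h1 h0).toEquiv]
  rfl

include hv h1 h0 in
theorem finite_resRS : Finite (RS F N ⧸ Ideal.span {(⟨π, unif_mem_RS hv h1 h0⟩ : RS F N)}) := by
  have : Finite (𝓞 F ⧸ v.asIdeal) := Ideal.finiteQuotientOfFreeOfNeBot _ v.ne_bot
  exact Finite.of_equiv _ (resRS hv h1 h0).toEquiv

/-- the norm outside `N` of a generator. -/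
theorem nR_unif (hv : (N : 𝓞 F) ∉ v.asIdeal) (h1 : ord v π = 1)
    (h0 : ∀ w : HeightOneSpectrum (𝓞 F), (N : 𝓞 F) ∉ w.asIdeal → w ≠ v → ord w π = 0) :
    nR F N π = Ideal.absNorm v.asIdeal := by
  unfold nR
  rw [toAdd_rayVal_of_single (w := v) _ _ (by rwa [mem_pl])
    (fun w hw hwv => h0 w (by rwa [mem_pl] at hw) hwv), h1, one_smul, Real.exp_log]
  have : 0 < Ideal.absNorm v.asIdeal := Nat.pos_of_ne_zero (by
    rw [Ne, Ideal.absNorm_eq_zero_iff]
    exact v.ne_bot)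
  exact_mod_cast this

end Fermat.Agent.LT.B11.Res
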