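import Fermat.Agent.LT.B11.Growth
import Fermat.Agent.LT.Theta

/-!
# Uniqueness of the coefficients of Fourier-Bessel expansions
-/

set_option autoImplicit false

noncomputable section

namespace Fermat.Agent.LT.B11

open NumberField Fermat.Agent.LT
open Fermat.Agent.LT.Chr (trI_diagI isHalf_infinitePlace trI diagI_apply)
open scoped Topology

/-! ### Absolutely convergent exponential sums -/

section Exp

/-- `exp(2πi s / M)` -/
def ue (M : ℕ) (s : ℤ) : ℂ := Complex.exp (2 * Real.pi * Complex.I * (s / M : ℝ))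

theorem norm_ue (M : ℕ) (s : ℤ) : ‖ue M s‖ = 1 := by
  unfold ue
  have : 2 * Real.pi * Complex.I * ((s / M : ℝ) : ℂ) = ((2 * Real.pi * (s / M) : ℝ) : ℂ) *
      Complex.I := by
    push_cast
    ring
  rw [this, Complex.norm_exp_ofReal_mul_I]

theorem ue_sub (M : ℕ) (s t : ℤ) : ue M (s - t) = ue M s * (ue M t)⁻¹ := by
  unfold ue
  rw [← Complex.exp_neg, ← Complex.exp_add]
  congr 1
  push_cast
  ring

theorem ue_pow (M : ℕ) (s : ℤ) (m : ℕ) : ue M s ^ m =
    Complex.exp (2 * Real.pi * Complex.I * (s * (m / M) : ℝ)) := by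
  unfold ue
  rw [← Complex.exp_nat_mul]
  congr 1
  push_cast
  ring

theorem ue_pow_self {M : ℕ} (hM : M ≠ 0) (s : ℤ) : ue M s ^ M = 1 := by
  rw [ue_pow, Complex.exp_eq_one_iff]
  refine ⟨s, ?_⟩
  have : (M : ℂ) ≠ 0 := Nat.cast_ne_zero.mpr hM
  push_cast
  field_simp

theorem ue_ne_one {M : ℕ} {s : ℤ} (hs : s ≠ 0) (h : s.natAbs < M) : ue M s ≠ 1 := by
  intro h1
  unfold ue at h1
  rw [Complex.exp_eq_one_iff] at h1
  obtain ⟨n, hn⟩ := h1
  have hpi : (2 * Real.pi * Complex.I : ℂ) ≠ 0 := Complex.two_pi_I_ne_zero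
  have h2 : ((s / M : ℝ) : ℂ) = ((n : ℝ) : ℂ) := by
    apply mul_left_cancel₀ hpi
    rw [hn]
    push_cast
    ring
  have h3 : (s / M : ℝ) = n := Complex.ofReal_injective h2
  have hM0 : (M : ℝ) ≠ 0 := by
    have : M ≠ 0 := by omega
    exact Nat.cast_ne_zero.mpr this
  rw [div_eq_iff hM0] at h3
  have h4 : s = n * M := by exact_mod_cast h3
  have h5 : (M : ℤ) ∣ s := ⟨n, by rw [h4]; ring⟩
  have h6 : M ∣ s.natAbs := Int.natCast_dvd.mp h5
  have h7 := Nat.le_of_dvd (Int.natAbs_pos.mpr hs) h6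
  omega

/-- the average over the `M`-th roots of unity -/
def av (M : ℕ) (s : ℤ) : ℂ := (M : ℂ)⁻¹ * ∑ m ∈ Finset.range M, ue M s ^ m

theorem av_zero {M : ℕ} (hM : M ≠ 0) : av M 0 = 1 := by
  have : (M : ℂ) ≠ 0 := Nat.cast_ne_zero.mpr hM
  have h1 : ue M 0 = 1 := by simp [ue]
  unfold av
  rw [h1]
  simp only [one_pow, Finset.sum_const, Finset.card_range, nsmul_eq_mul, mul_one]
  exact inv_mul_cancel₀ this

theorem av_eq_zero {M : ℕ} {s : ℤ} (hs : s ≠ 0) (h : s.natAbs < M) : av M s = 0 := by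
  have hM : M ≠ 0 := by omega
  unfold av
  rw [geom_sum_eq (ue_ne_one hs h), ue_pow_self hM, sub_self, zero_div, mul_zero]

theorem norm_av_le (M : ℕ) (s : ℤ) : ‖av M s‖ ≤ 1 := by
  unfold av
  rw [norm_mul, norm_inv, Complex.norm_natCast]
  by_cases hM : M = 0
  · subst hM
    simp
  have h1 : ‖∑ m ∈ Finset.range M, ue M s ^ m‖ ≤ M := by
    refine (norm_sum_le _ _).trans ?_
    simp [norm_pow, norm_ue]
  have h2 : (0 : ℝ) < M := by positivity
  rw [inv_mul_le_iff₀ h2, mul_one]
  exact h1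

variable {ι κ : Type*} [Fintype κ]

/-- **Uniqueness**: an absolutely convergent exponential sum with distinct integral frequencies
which vanishes at all rational points is zero. -/
theorem eq_zero_of_expSum {a : ι → ℂ} (ha : Summable fun i => ‖a i‖) {t : ι → κ → ℤ}
    (ht : Function.Injective t)
    (h : ∀ (M : ℕ), M ≠ 0 → ∀ m : κ → ℕ, ∑' i, a i * ∏ k, ue M (t i k) ^ m k = 0) (i₀ : ι) :
    a i₀ = 0 := by
  classical
  set f : ℕ → ι → ℂ := fun M i => a i * ∏ k, av M (t i k - t i₀ k) with hf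
  have hprod : ∀ M i, ‖∏ k, av M (t i k - t i₀ k)‖ ≤ 1 := by
    intro M i
    rw [norm_prod]
    exact Finset.prod_le_one (fun _ _ => norm_nonneg _) fun k _ => norm_av_le _ _
  -- the averages vanish
  have h1 : ∀ M : ℕ, M ≠ 0 → ∑' i, f M i = 0 := by
    intro M hM
    have e1 : ∀ i, f M i = ∑ m ∈ Fintype.piFinset fun _ : κ => Finset.range M,
        ((M : ℂ)⁻¹ ^ Fintype.card κ * ∏ k, ((ue M (t i₀ k))⁻¹) ^ m k) *
          (a i * ∏ k, ue M (t i k) ^ m k) := by
      intro i
      have e2 : ∏ k, av M (t i k - t i₀ k) = (M : ℂ)⁻¹ ^ Fintype.card κ *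
          ∑ m ∈ Fintype.piFinset fun _ : κ => Finset.range M,
            ∏ k, ue M (t i k - t i₀ k) ^ m k := by
        unfold av
        rw [Finset.prod_mul_distrib, Finset.prod_const, Finset.card_univ, Finset.prod_univ_sum]
      rw [hf]
      simp only
      rw [e2, Finset.mul_sum, Finset.mul_sum]
      refine Finset.sum_congr rfl fun m _ => ?_
      have e3 : ∏ k, ue M (t i k - t i₀ k) ^ m k =
          (∏ k, ue M (t i k) ^ m k) * ∏ k, ((ue M (t i₀ k))⁻¹) ^ m k := by
        rw [← Finset.prod_mul_distrib]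
        refine Finset.prod_congr rfl fun k _ => ?_
        rw [ue_sub, mul_pow]
      rw [e3]
      ring
    have hs : ∀ m : κ → ℕ, Summable fun i => a i * ∏ k, ue M (t i k) ^ m k := by
      intro m
      refine Summable.of_norm ?_
      refine ha.congr fun i => ?_
      rw [norm_mul, norm_prod]
      simp [norm_pow, norm_ue]
    rw [tsum_congr e1, Summable.tsum_finsetSum fun m _ => (hs m).mul_left _]
    refine Finset.sum_eq_zero fun m _ => ?_
    rw [tsum_mul_left, h M hM m, mul_zero]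
  -- the limit
  have h2 : Filter.Tendsto (fun M => ∑' i, f M i) Filter.atTop
      (𝓝 (∑' i, if i = i₀ then a i₀ else 0)) := by
    refine tendsto_tsum_of_dominated_convergence ha (fun i => ?_)
      (Filter.Eventually.of_forall fun M i => ?_)
    · by_cases hi : i = i₀
      · subst hi
        rw [if_pos rfl]
        refine tendsto_const_nhds.congr' ?_
        filter_upwards [Filter.eventually_ne_atTop 0] with M hM
        simp only [hf, sub_self, av_zero hM, Finset.prod_const_one, mul_one]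
      · rw [if_neg hi]
        obtain ⟨k, hk⟩ : ∃ k, t i k ≠ t i₀ k := by
          by_contra! hcon
          exact hi (ht (funext hcon))
        refine tendsto_const_nhds.congr' ?_
        filter_upwards [Filter.eventually_gt_atTop (t i k - t i₀ k).natAbs] with M hM
        simp only [hf]
        rw [Finset.prod_eq_zero (Finset.mem_univ k) (av_eq_zero (sub_ne_zero.mpr hk) hM), mul_zero]
    · rw [hf]
      simp only
      rw [norm_mul]
      exact mul_le_of_le_one_right (norm_nonneg _) (hprod M i)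
  rw [tsum_ite_eq] at h2
  have h3 : Filter.Tendsto (fun M => ∑' i, f M i) Filter.atTop (𝓝 0) := by
    refine tendsto_const_nhds.congr' ?_
    filter_upwards [Filter.eventually_ne_atTop 0] with M hM
    exact (h1 M hM).symm
  exact tendsto_nhds_unique h2 h3

end Exp

/-! ### Fourier-Bessel expansions -/

section Uniq

variable {F : Type*} [Field F] [NumberField F]

/-- the point with all coordinates `(η, 1)` -/
def ptAt (η : F) : Xi F := fun w => H3.mk (w.embedding η) 1 one_pos

/-- the value of the Bessel part at height one -/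
def bes (ξ : F) : ℂ := ∏ w : InfinitePlace F, besselK 0 (4 * Real.pi * ‖w.embedding ξ‖)

theorem bes_ne_zero {ξ : F} (h : ξ ≠ 0) : bes ξ ≠ 0 := by
  unfold bes
  refine Finset.prod_ne_zero_iff.mpr fun w _ => ?_
  have hw : 0 < ‖w.embedding ξ‖ := by
    rw [norm_pos_iff, map_ne_zero]
    exact h
  have := Real.pi_pos
  obtain ⟨r, hr, hr'⟩ := besselK_zero_pos (show 0 < 4 * Real.pi * ‖w.embedding ξ‖ by positivity)
  rw [hr']
  exact Complex.ofReal_ne_zero.mpr hr.ne'

theorem wh_ptAt [IsTotallyComplex F] (η ξ : F) : wh (ptAt η) ξ =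
    bes ξ * Complex.exp (2 * Real.pi * Complex.I * ((Algebra.trace ℚ F (ξ * η) : ℝ) : ℂ)) := by
  rw [← trI_diagI isHalf_infinitePlace (ξ * η)]
  unfold wh bes ptAt trI
  rw [Finset.prod_mul_distrib, Complex.ofReal_sum, Finset.mul_sum, Complex.exp_sum]
  congr 1
  · refine Finset.prod_congr rfl fun w _ => ?_
    rw [H3.y_mk, Complex.ofReal_one, one_mul, mul_one]
  · refine Finset.prod_congr rfl fun w _ => ?_
    rw [H3.z_mk, diagI_apply, map_mul]

variable {ι : Type*} {N₀ A : ℕ} {C₀ : ℝ} {ξ : ι → F} {c : ι → ℂ}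

theorem trace_nondeg {x : F} (h : ∀ k, Algebra.trace ℚ F (x * integralBasis F k) = 0) : x = 0 := by
  have hnd := traceForm_nondegenerate ℚ F
  refine hnd.1 x fun y => ?_
  rw [← (integralBasis F).sum_repr y, map_sum]
  refine Finset.sum_eq_zero fun k _ => ?_
  rw [map_smul, Algebra.traceForm_apply, h k, smul_zero]

/-- **(H3)** Uniqueness of the coefficients. -/
theorem Mass.eq_zero [IsTotallyComplex F] (h : Mass N₀ A C₀ ξ c) (h0 : N₀ ≠ 0)
    (hinj : Function.Injective ξ) (hz : ∀ P : Xi F, ∑' i, c i * wh P (ξ i) = 0) (i : ι) :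
    c i = 0 := by
  by_contra hi
  have hN : (N₀ : F) ≠ 0 := Nat.cast_ne_zero.mpr h0
  let S := {i : ι // c i ≠ 0}
  let num : S → 𝓞 F := fun j => ⟨(N₀ : F) * ξ j.1, h.int j.1 j.2⟩
  let t : S → Module.Free.ChooseBasisIndex ℤ (𝓞 F) → ℤ := fun j k =>
    Algebra.trace ℤ (𝓞 F) (num j * RingOfIntegers.basis F k)
  have ht' : ∀ j k, (t j k : ℚ) = Algebra.trace ℚ F ((N₀ : F) * ξ j.1 * integralBasis F k) := by
    intro j k
    have := Algebra.coe_trace_int (num j * RingOfIntegers.basis F k)
    rw [this]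
    congr 1
    rw [integralBasis_apply]
    rfl
  have ht : Function.Injective t := by
    intro j j' hjj
    have h1 : (N₀ : F) * ξ j.1 - (N₀ : F) * ξ j'.1 = 0 := by
      refine trace_nondeg fun k => ?_
      rw [sub_mul, map_sub, ← ht', ← ht', hjj, sub_self]
    have h2 := mul_left_cancel₀ hN (sub_eq_zero.mp h1)
    exact Subtype.ext (hinj h2)
  -- the point of evaluation
  let η : ℕ → (Module.Free.ChooseBasisIndex ℤ (𝓞 F) → ℕ) → F := fun M m =>
    ∑ k, ((m k : ℚ) / M) • ((N₀ : F) * integralBasis F k)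
  have hη : ∀ M m (j : S), Algebra.trace ℚ F (ξ j.1 * η M m) = ∑ k, (t j k : ℚ) * (m k / M) := by
    intro M m j
    simp only [η]
    rw [Finset.mul_sum, map_sum]
    refine Finset.sum_congr rfl fun k _ => ?_
    rw [mul_smul_comm, map_smul, ht', smul_eq_mul, mul_comm]
    congr 2
    ring
  have hval : ∀ M m (j : S), wh (ptAt (η M m)) (ξ j.1) = bes (ξ j.1) * ∏ k, ue M (t j k) ^ m k := by
    intro M m j
    rw [wh_ptAt, hη]
    congr 1
    simp_rw [ue_pow]
    rw [← Complex.exp_sum, ← Finset.mul_sum]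
    congr 2
    push_cast
    rfl
  have hne : ∀ j : S, ξ j.1 ≠ 0 := fun j => h.ne j.1 j.2
  -- restriction to the support
  have hsupp : ∀ P : Xi F, ∑' j : S, c j.1 * wh P (ξ j.1) = 0 := by
    intro P
    refine Eq.trans (tsum_subtype_eq_of_support_subset (f := fun i => c i * wh P (ξ i))
      (s := {i | c i ≠ 0}) fun i hi' => ?_) (hz P)
    intro h'
    exact hi' (by simp only [h', zero_mul])
  obtain ⟨C, -, hC⟩ := h.growth h0
  have hsum : Summable fun j : S => ‖c j.1 * bes (ξ j.1)‖ := by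
    have h1 := (hC (ptAt 0)).1.comp_injective (Subtype.val_injective (p := fun i => c i ≠ 0))
    refine h1.congr fun j => ?_
    simp only [Function.comp_apply]
    rw [wh_ptAt, mul_zero, map_zero]
    simp
  have key := eq_zero_of_expSum (a := fun j : S => c j.1 * bes (ξ j.1)) hsum ht
    (fun M hM m => by
      refine Eq.trans (tsum_congr fun j => ?_) (hsupp (ptAt (η M m)))
      rw [hval, mul_assoc]) ⟨i, hi⟩
  exact mul_ne_zero hi (bes_ne_zero (h.ne i hi)) key

end Uniq

end Fermat.Agent.LT.B11
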